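import Mathlib
import Fermat.Prelude.Def_FLTPrelim_Ramification

set_option autoImplicit false

namespace Fermat.Agent.S05

open scoped Pointwise

section inertia

variable {K L : Type*} [Field K] [Field L] [Algebra K L]

/-- An element of the inertia subgroup stabilises the valuation subring. -/
theorem h26_smul_eq_of_mem_inertia (A : ValuationSubring L) {σ : L ≃ₐ[K] L}
    (hσ : σ ∈ A.inertiaSubgroupIn K) : σ • A = A := by
  obtain ⟨τ, -, rfl⟩ := hσ
  exact τ.2

theorem h26_mem_of_mem_inertia (A : ValuationSubring L) {σ : L ≃ₐ[K] L}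
    (hσ : σ ∈ A.inertiaSubgroupIn K) {x : L} (hx : x ∈ A) : σ x ∈ A := by
  have h := ValuationSubring.smul_mem_pointwise_smul σ x A hx
  rw [h26_smul_eq_of_mem_inertia A hσ] at h
  exact h

theorem h26_mem_iff_of_mem_inertia (A : ValuationSubring L) {σ : L ≃ₐ[K] L}
    (hσ : σ ∈ A.inertiaSubgroupIn K) (x : L) : σ x ∈ A ↔ x ∈ A := by
  refine ⟨fun h => ?_, h26_mem_of_mem_inertia A hσ⟩
  have h' : σ • x ∈ σ • A := by
    rw [h26_smul_eq_of_mem_inertia A hσ]
    exact h
  exact ValuationSubring.smul_mem_pointwise_smul_iff.mp h'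

theorem h26_sub_mem_nonunits_of_mem_inertia (A : ValuationSubring L) {σ : L ≃ₐ[K] L}
    (hσ : σ ∈ A.inertiaSubgroupIn K) {x : L} (hx : x ∈ A) : σ x - x ∈ A.nonunits := by
  obtain ⟨τ, hτ, rfl⟩ := hσ
  have h1 : MulSemiringAction.toRingAut (A.decompositionSubgroup K)
      (IsLocalRing.ResidueField A) τ = 1 := hτ
  have h2 : τ • (IsLocalRing.residue A ⟨x, hx⟩) = IsLocalRing.residue A ⟨x, hx⟩ := by
    have := congrArg (fun f => f (IsLocalRing.residue A ⟨x, hx⟩)) h1
    simpa using this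
  have h3 : IsLocalRing.residue A (τ • (⟨x, hx⟩ : A)) = IsLocalRing.residue A ⟨x, hx⟩ := by
    rw [← h2]
    rfl
  have h4 : (τ • (⟨x, hx⟩ : A)) - ⟨x, hx⟩ ∈ IsLocalRing.maximalIdeal A := by
    rw [← Ideal.Quotient.eq] 
    exact h3
  have h5 := ValuationSubring.coe_mem_nonunits_iff.mpr h4
  exact h5

end inertia

section valuation

variable {L : Type*} [Field L]

theorem h26_intCast_mem (A : ValuationSubring L) (n : ℤ) : (n : L) ∈ A :=
  intCast_mem A n

theorem h26_natCast_mem (A : ValuationSubring L) (n : ℕ) : (n : L) ∈ A :=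
  natCast_mem A n

theorem h26_mul_mem_nonunits_left (A : ValuationSubring L) {x y : L} (hx : x ∈ A)
    (hy : y ∈ A.nonunits) : x * y ∈ A.nonunits := by
  rw [ValuationSubring.mem_nonunits_iff] at hy ⊢
  rw [map_mul]
  have h1 : A.valuation x ≤ 1 := (A.valuation_le_one_iff x).mpr hx
  calc A.valuation x * A.valuation y ≤ 1 * A.valuation y := mul_le_mul_left h1 _
    _ = A.valuation y := one_mul _
    _ < 1 := hy

theorem h26_mul_mem_nonunits_right (A : ValuationSubring L) {x y : L} (hx : x ∈ A.nonunits)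
    (hy : y ∈ A) : x * y ∈ A.nonunits := by
  rw [mul_comm]
  exact h26_mul_mem_nonunits_left A hy hx

theorem h26_one_not_mem_nonunits (A : ValuationSubring L) : (1 : L) ∉ A.nonunits := by
  rw [ValuationSubring.mem_nonunits_iff, map_one]
  exact lt_irrefl _

/-- an element of `A` which is not a nonunit has its inverse in `A`. -/
theorem h26_inv_mem_of_not_mem_nonunits (A : ValuationSubring L) {x : L}
    (hx' : x ∉ A.nonunits) : x⁻¹ ∈ A := by
  by_contra h
  apply hx'
  rw [ValuationSubring.mem_nonunits_iff_or]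
  exact Or.inr h

theorem h26_not_mem_iff (A : ValuationSubring L) {x : L} :
    x ∉ A ↔ x ≠ 0 ∧ x⁻¹ ∈ A.nonunits := by
  rw [ValuationSubring.inv_mem_nonunits_iff]
  constructor
  · intro h
    exact ⟨fun h0 => h (h0 ▸ A.zero_mem), Or.inr h⟩
  · rintro ⟨h0, h | h⟩
    · exact absurd h h0
    · exact h

theorem h26_intCast_mem_nonunits_iff (A : ValuationSubring L) {q : ℕ} (hq : q.Prime)
    (hA : A.LiesOverPrime q) (n : ℤ) : (n : L) ∈ A.nonunits ↔ (q : ℤ) ∣ n := by
  constructor
  · intro hn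
    by_contra hdvd
    have hcop : IsCoprime n (q : ℤ) := by
      rw [isCoprime_comm]
      exact (Int.isCoprime_iff_gcd_eq_one).mpr
        ((Nat.Prime.coprime_iff_not_dvd hq).mpr (by
          intro h
          exact hdvd (Int.natCast_dvd.mpr h)))
    obtain ⟨u, v, huv⟩ := hcop
    have h1 : ((u : L) * (n : L) + (v : L) * (q : L)) ∈ A.nonunits :=
      A.nonunits.add_mem (h26_mul_mem_nonunits_left A (h26_intCast_mem A u) hn)
        (h26_mul_mem_nonunits_left A (h26_intCast_mem A v) hA)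
    have h2 : ((u : L) * (n : L) + (v : L) * (q : L)) = 1 := by
      have := congrArg (Int.cast : ℤ → L) huv
      push_cast at this
      exact this
    rw [h2] at h1
    exact h26_one_not_mem_nonunits A h1
  · rintro ⟨k, rfl⟩
    push_cast
    exact h26_mul_mem_nonunits_right A hA (h26_intCast_mem A k)

theorem h26_natCast_mem_nonunits_iff (A : ValuationSubring L) {q : ℕ} (hq : q.Prime)
    (hA : A.LiesOverPrime q) (n : ℕ) : (n : L) ∈ A.nonunits ↔ q ∣ n := by
  have := h26_intCast_mem_nonunits_iff A hq hA (n : ℤ)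
  rw [Int.cast_natCast] at this
  rw [this, Int.natCast_dvd_natCast]

theorem h26_intCast_inv_mem (A : ValuationSubring L) {q : ℕ} (hq : q.Prime)
    (hA : A.LiesOverPrime q) {n : ℤ} (hn : ¬ (q : ℤ) ∣ n) : ((n : L))⁻¹ ∈ A :=
  h26_inv_mem_of_not_mem_nonunits A
    (fun h => hn ((h26_intCast_mem_nonunits_iff A hq hA n).mp h))

theorem h26_natCast_inv_mem (A : ValuationSubring L) {q : ℕ} (hq : q.Prime)
    (hA : A.LiesOverPrime q) {n : ℕ} (hn : ¬ q ∣ n) : ((n : L))⁻¹ ∈ A :=
  h26_inv_mem_of_not_mem_nonunits A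
    (fun h => hn ((h26_natCast_mem_nonunits_iff A hq hA n).mp h))

theorem h26_ratCast_mem (A : ValuationSubring L) [CharZero L] {q : ℕ} (hq : q.Prime)
    (hA : A.LiesOverPrime q) {r : ℚ} (hr : ¬ q ∣ r.den) : (r : L) ∈ A := by
  rw [Rat.cast_def, div_eq_mul_inv]
  exact A.mul_mem _ _ (h26_intCast_mem A _) (h26_natCast_inv_mem A hq hA hr)

theorem h26_algebraMap_rat_mem (A : ValuationSubring L) [CharZero L] {q : ℕ} (hq : q.Prime)
    (hA : A.LiesOverPrime q) {r : ℚ} (hr : ¬ q ∣ r.den) : algebraMap ℚ L r ∈ A := by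
  rw [eq_ratCast]
  exact h26_ratCast_mem A hq hA hr

end valuation

end Fermat.Agent.S05
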