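import Mathlib
import Fermat.Prelude.Def_FLTPrelim_Ramification

set_option autoImplicit false

namespace Fermat.Agent.S05

open WeierstrassCurve

/-- The Weierstrass curve `Y² = X³ + a X² + b X`. -/
def shortW {R : Type*} [CommRing R] (a b : R) : WeierstrassCurve R := ⟨0, a, 0, b, 0⟩

section

variable {R : Type*} [CommRing R] (a b : R)

@[simp] lemma shortW_a₁ : (shortW a b).a₁ = 0 := rfl
@[simp] lemma shortW_a₂ : (shortW a b).a₂ = a := rfl
@[simp] lemma shortW_a₃ : (shortW a b).a₃ = 0 := rfl
@[simp] lemma shortW_a₄ : (shortW a b).a₄ = b := rfl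
@[simp] lemma shortW_a₆ : (shortW a b).a₆ = 0 := rfl

lemma shortW_map {S : Type*} [CommRing S] (f : R →+* S) :
    (shortW a b).map f = shortW (f a) (f b) := by
  ext <;> simp [shortW]

lemma shortW_equation_iff (X Y : R) :
    (shortW a b).toAffine.Equation X Y ↔ Y ^ 2 = X ^ 3 + a * X ^ 2 + b * X := by
  rw [Affine.equation_iff]; simp

lemma shortW_Δ : (shortW a b).Δ = 16 * b ^ 2 * (a ^ 2 - 4 * b) := by
  simp only [WeierstrassCurve.Δ, WeierstrassCurve.b₂, WeierstrassCurve.b₄, WeierstrassCurve.b₆,
    WeierstrassCurve.b₈, shortW_a₁, shortW_a₂, shortW_a₃, shortW_a₄, shortW_a₆]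
  ring

end

section

variable {K : Type*} [Field K] (a b : K)

lemma shortW_isElliptic (h2 : (2 : K) ≠ 0) (hb : b ≠ 0) (hd : a ^ 2 - 4 * b ≠ 0) :
    (shortW a b).IsElliptic := by
  refine ⟨?_⟩
  rw [shortW_Δ]
  have h16 : (16 : K) ≠ 0 := by
    have : (16 : K) = 2 ^ 4 := by norm_num
    rw [this]; exact pow_ne_zero _ h2
  exact (mul_ne_zero (mul_ne_zero h16 (pow_ne_zero _ hb)) hd).isUnit

lemma shortW_negY (X Y : K) : (shortW a b).toAffine.negY X Y = -Y := by
  simp [Affine.negY]

variable [DecidableEq K] (A : ValuationSubring K)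

/-- Kernel of reduction: the point at infinity and the affine points with non-integral `X`. -/
def IsE1 (P : (shortW a b).toAffine.Point) : Prop :=
  P = 0 ∨ ∃ (X Y : K) (h : (shortW a b).toAffine.Nonsingular X Y),
    P = Affine.Point.some X Y h ∧ 1 < A.valuation X

/-- Points reducing to the node `(0,0)`: affine points with `X` in the maximal ideal. -/
def IsN (P : (shortW a b).toAffine.Point) : Prop :=
  ∃ (X Y : K) (h : (shortW a b).toAffine.Nonsingular X Y),
    P = Affine.Point.some X Y h ∧ A.valuation X < 1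

/-- Component `C_g` (branch `Y ≈ r X`, `r² = a`) of the node region, `v(b) < g < 1`. -/
def InC (r : K) (g : A.ValueGroup) (P : (shortW a b).toAffine.Point) : Prop :=
  ∃ (X Y : K) (h : (shortW a b).toAffine.Nonsingular X Y),
    P = Affine.Point.some X Y h ∧ A.valuation X = g ∧ A.valuation b < g ∧ g < 1 ∧
      A.valuation (Y - r * X) < g

/-- The middle component of the node region: `v(X) ≤ v(b)`. -/
def InM (P : (shortW a b).toAffine.Point) : Prop :=
  ∃ (X Y : K) (h : (shortW a b).toAffine.Nonsingular X Y),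
    P = Affine.Point.some X Y h ∧ A.valuation X ≤ A.valuation b

end

end Fermat.Agent.S05
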