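import Fermat.Agent.S05.Defs
import Fermat.Agent.S05.h26_Inertia

set_option autoImplicit false

namespace Fermat.Agent.S05

/-- Inertia elements preserve integrality and act trivially modulo the maximal ideal, in
valuation form. -/
theorem inertia_valuation {k L : Type*} [Field k] [Field L] [Algebra k L]
    (B : ValuationSubring L) (σ : L ≃ₐ[k] L) (hσ : σ ∈ B.inertiaSubgroupIn k) :
    (∀ x, B.valuation (σ x) ≤ 1 ↔ B.valuation x ≤ 1) ∧
      (∀ x, B.valuation x ≤ 1 → B.valuation (σ x - x) < 1) := by
  refine ⟨fun x => ?_, fun x hx => ?_⟩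
  · rw [B.valuation_le_one_iff, B.valuation_le_one_iff]
    exact h26_mem_iff_of_mem_inertia B hσ x
  · rw [B.valuation_le_one_iff] at hx
    have h := h26_sub_mem_nonunits_of_mem_inertia B hσ hx
    rwa [ValuationSubring.mem_nonunits_iff] at h

/-- Integers are integral; they lie in the maximal ideal iff divisible by `q`. -/
theorem valuation_intCast {L : Type*} [Field L] (B : ValuationSubring L) (q : ℕ)
    (hq : q.Prime) (hB : B.LiesOverPrime q) (n : ℤ) :
    B.valuation (n : L) ≤ 1 ∧ (B.valuation (n : L) < 1 ↔ (q : ℤ) ∣ n) := by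
  refine ⟨?_, ?_⟩
  · rw [B.valuation_le_one_iff]
    exact h26_intCast_mem B n
  · rw [← ValuationSubring.mem_nonunits_iff]
    exact h26_intCast_mem_nonunits_iff B hq hB n

/-- An integer prime to `q` has valuation one. -/
theorem valuation_intCast_eq_one {L : Type*} [Field L] (B : ValuationSubring L) (q : ℕ)
    (hq : q.Prime) (hB : B.LiesOverPrime q) (n : ℤ) (hn : ¬ (q : ℤ) ∣ n) :
    B.valuation (n : L) = 1 := by
  obtain ⟨h1, h2⟩ := valuation_intCast B q hq hB n
  rcases lt_or_eq_of_le h1 with h | h
  · exact absurd (h2.mp h) hn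
  · exact h

/-- A natural number prime to `q` has valuation one. -/
theorem valuation_natCast_eq_one {L : Type*} [Field L] (B : ValuationSubring L) (q : ℕ)
    (hq : q.Prime) (hB : B.LiesOverPrime q) (n : ℕ) (hn : ¬ q ∣ n) :
    B.valuation (n : L) = 1 := by
  have h := valuation_intCast_eq_one B q hq hB (n : ℤ)
    (fun h => hn (Int.natCast_dvd_natCast.mp h))
  rwa [Int.cast_natCast] at h

end Fermat.Agent.S05
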