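import Fermat.Agent.S05.Defs

set_option autoImplicit false

namespace Fermat.Agent.S05

open WeierstrassCurve

variable {K : Type*} [Field K] [DecidableEq K] (A : ValuationSubring K) (a b : K)

theorem E0_isN_some {X Y : K} (h : (shortW a b).toAffine.Nonsingular X Y) :
    IsN a b A (Affine.Point.some X Y h) ↔ A.valuation X < 1 := by
  constructor
  · rintro ⟨X', Y', h', he, hv⟩
    cases he
    exact hv
  · exact fun hv => ⟨X, Y, h, rfl, hv⟩

theorem E0_not_isN_zero : ¬ IsN a b A 0 := by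
  rintro ⟨X, Y, h, he, -⟩
  exact Affine.Point.some_ne_zero h he.symm

theorem isN_neg_iff {P : (shortW a b).toAffine.Point} : IsN a b A (-P) ↔ IsN a b A P := by
  have key : ∀ Q : (shortW a b).toAffine.Point, IsN a b A Q → IsN a b A (-Q) := by
    rintro Q ⟨X, Y, h, rfl, hv⟩
    rw [Affine.Point.neg_some]
    exact ⟨X, _, _, rfl, hv⟩
  constructor
  · intro h
    have := key _ h
    rwa [neg_neg] at this
  · exact key P

/-- The product formula `X(P₁ + P₂) · (Y₁ X₂ + Y₂ X₁)² = X₁ X₂ (X₁ X₂ - b)²` on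
`Y² = X³ + a X² + b X`, valid for chords and tangents alike. -/
theorem E0_addX_mul {X1 Y1 X2 Y2 : K}
    (h1 : Y1 ^ 2 = X1 ^ 3 + a * X1 ^ 2 + b * X1) (h2 : Y2 ^ 2 = X2 ^ 3 + a * X2 ^ 2 + b * X2)
    (hxy : ¬(X1 = X2 ∧ Y1 = (shortW a b).toAffine.negY X2 Y2)) :
    (shortW a b).toAffine.addX X1 X2 ((shortW a b).toAffine.slope X1 X2 Y1 Y2) *
        (Y1 * X2 + Y2 * X1) ^ 2 = X1 * X2 * (X1 * X2 - b) ^ 2 := by
  by_cases hx : X1 = X2
  · subst hx
    have hy : Y1 ≠ (shortW a b).toAffine.negY X1 Y2 := fun h => hxy ⟨rfl, h⟩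
    have hy' : Y1 ≠ -Y2 := by rwa [shortW_negY] at hy
    have hY : Y1 = Y2 := by
      have : (Y1 - Y2) * (Y1 + Y2) = 0 := by linear_combination h1 - h2
      rcases mul_eq_zero.mp this with h | h
      · exact sub_eq_zero.mp h
      · exact absurd (eq_neg_of_add_eq_zero_left h) hy'
    subst hY
    rw [Affine.slope_of_Y_ne rfl hy]
    have hD : Y1 - (shortW a b).toAffine.negY X1 Y1 ≠ 0 := sub_ne_zero.mpr hy
    rw [shortW_negY] at hD
    simp only [Affine.addX, shortW_a₁, shortW_a₂, shortW_a₄, shortW_negY]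
    set ℓ := (3 * X1 ^ 2 + 2 * a * X1 + b - 0 * Y1) / (Y1 - -Y1) with hℓdef
    have hℓ : ℓ * (Y1 - -Y1) = 3 * X1 ^ 2 + 2 * a * X1 + b - 0 * Y1 := div_mul_cancel₀ _ hD
    linear_combination (X1 ^ 2 * (ℓ * (Y1 - -Y1) + (3 * X1 ^ 2 + 2 * a * X1 + b))) * hℓ +
      (-4 * (a + 2 * X1) * X1 ^ 2) * h1
  · rw [Affine.slope_of_X_ne hx]
    have hd : X1 - X2 ≠ 0 := sub_ne_zero.mpr hx
    simp only [Affine.addX, shortW_a₁, shortW_a₂]
    set ℓ := (Y1 - Y2) / (X1 - X2) with hℓdef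
    have hℓ : ℓ * (X1 - X2) = Y1 - Y2 := div_mul_cancel₀ _ hd
    apply mul_right_cancel₀ (pow_ne_zero 2 hd)
    linear_combination ((Y1 * X2 + Y2 * X1) ^ 2 * (ℓ * (X1 - X2) + (Y1 - Y2))) * hℓ +
      (-4 * X1 * X2 * Y2 ^ 2 +
        (X1 * X2 * (X1 + X2) + 2 * a * X1 * X2 + b * (X1 + X2) - 2 * (Y1 * Y2)) * X2 ^ 2 +
        (Y1 * X2 + Y2 * X1) ^ 2) * h1 +
      (-4 * X1 * X2 * (X1 ^ 3 + a * X1 ^ 2 + b * X1) +
        (X1 * X2 * (X1 + X2) + 2 * a * X1 * X2 + b * (X1 + X2) - 2 * (Y1 * Y2)) * X1 ^ 2 +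
        (Y1 * X2 + Y2 * X1) ^ 2) * h2

/-- On an affine point with `v X ≥ 1` we have `v Y ^ 2 ≤ v X ^ 3`. -/
theorem E0_val_Y_sq_le (ha : A.valuation a = 1) (hb : A.valuation b < 1) {X Y : K}
    (h : Y ^ 2 = X ^ 3 + a * X ^ 2 + b * X) (hX : 1 ≤ A.valuation X) :
    A.valuation Y ^ 2 ≤ A.valuation X ^ 3 := by
  rw [← map_pow, h]
  have h3 : A.valuation (X ^ 3) = A.valuation X ^ 3 := map_pow _ _ _
  have hX2 : A.valuation X ^ 2 ≤ A.valuation X ^ 3 := by
    calc A.valuation X ^ 2 = A.valuation X ^ 2 * 1 := (mul_one _).symm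
      _ ≤ A.valuation X ^ 2 * A.valuation X := mul_le_mul' le_rfl hX
      _ = A.valuation X ^ 3 := by rw [← pow_succ]
  have hX1 : A.valuation X ≤ A.valuation X ^ 2 := by
    calc A.valuation X = A.valuation X * 1 := (mul_one _).symm
      _ ≤ A.valuation X * A.valuation X := mul_le_mul' le_rfl hX
      _ = A.valuation X ^ 2 := by rw [pow_two]
  refine A.valuation.map_add_le (A.valuation.map_add_le (le_of_eq h3) ?_) ?_
  · rw [map_mul, ha, one_mul, map_pow]; exact hX2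
  · rw [map_mul]
    calc A.valuation b * A.valuation X ≤ 1 * A.valuation X := mul_le_mul' hb.le le_rfl
      _ = A.valuation X := one_mul _
      _ ≤ A.valuation X ^ 3 := hX1.trans hX2

theorem not_isN_add (ha : A.valuation a = 1) (hb : A.valuation b < 1)
    (h2 : A.valuation (2 : K) = 1) {P Q : (shortW a b).toAffine.Point}
    (hP : ¬ IsN a b A P) (hQ : ¬ IsN a b A Q) : ¬ IsN a b A (P + Q) := by
  rcases P with _ | ⟨X1, Y1, h1⟩
  · have : (Affine.Point.zero : (shortW a b).toAffine.Point) + Q = Q := zero_add Q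
    rw [this]; exact hQ
  rcases Q with _ | ⟨X2, Y2, h2'⟩
  · have : Affine.Point.some X1 Y1 h1 + (Affine.Point.zero : (shortW a b).toAffine.Point) =
        Affine.Point.some X1 Y1 h1 := add_zero _
    rw [this]; exact hP
  rw [E0_isN_some, not_lt] at hP hQ
  have e1 : Y1 ^ 2 = X1 ^ 3 + a * X1 ^ 2 + b * X1 := (shortW_equation_iff a b X1 Y1).mp h1.1
  have e2 : Y2 ^ 2 = X2 ^ 3 + a * X2 ^ 2 + b * X2 := (shortW_equation_iff a b X2 Y2).mp h2'.1
  by_cases hxy : X1 = X2 ∧ Y1 = (shortW a b).toAffine.negY X2 Y2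
  · rw [Affine.Point.add_of_Y_eq hxy.1 hxy.2]
    exact E0_not_isN_zero A a b
  · rw [Affine.Point.add_some hxy, E0_isN_some, not_lt]
    have hid := E0_addX_mul a b e1 e2 hxy
    set X3 := (shortW a b).toAffine.addX X1 X2 ((shortW a b).toAffine.slope X1 X2 Y1 Y2)
      with hX3
    set t := A.valuation X1 * A.valuation X2 with ht
    have ht1 : 1 ≤ t := by
      calc (1 : A.ValueGroup) = 1 * 1 := (mul_one _).symm
        _ ≤ t := mul_le_mul' hP hQ
    have ht0 : 0 < t := lt_of_lt_of_le zero_lt_one ht1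
    have hsub : A.valuation (X1 * X2 - b) = t := by
      rw [Valuation.map_sub_eq_of_lt_left, map_mul]
      rw [map_mul]
      exact lt_of_lt_of_le hb ht1
    have hval : A.valuation X3 * A.valuation (Y1 * X2 + Y2 * X1) ^ 2 = t ^ 3 := by
      have := congrArg A.valuation hid
      rw [map_mul, map_pow, map_mul, map_mul, map_pow, hsub] at this
      rw [this, ← ht]
      exact (pow_succ' t 2).symm
    -- bound on the valuation of `W = Y1 X2 + Y2 X1`
    have hY1 := E0_val_Y_sq_le A a b ha hb e1 hP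
    have hY2 := E0_val_Y_sq_le A a b ha hb e2 hQ
    have hW : A.valuation (Y1 * X2 + Y2 * X1) ^ 2 ≤ t ^ 3 := by
      have hle1 : A.valuation X1 ^ 3 * A.valuation X2 ^ 2 ≤ t ^ 3 := by
        rw [ht, mul_pow]
        refine mul_le_mul' le_rfl ?_
        calc A.valuation X2 ^ 2 = A.valuation X2 ^ 2 * 1 := (mul_one _).symm
          _ ≤ A.valuation X2 ^ 2 * A.valuation X2 := mul_le_mul' le_rfl hQ
          _ = A.valuation X2 ^ 3 := by rw [← pow_succ]
      have hle2 : A.valuation X2 ^ 3 * A.valuation X1 ^ 2 ≤ t ^ 3 := by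
        rw [ht, mul_pow, mul_comm (A.valuation X1 ^ 3)]
        refine mul_le_mul' le_rfl ?_
        calc A.valuation X1 ^ 2 = A.valuation X1 ^ 2 * 1 := (mul_one _).symm
          _ ≤ A.valuation X1 ^ 2 * A.valuation X1 := mul_le_mul' le_rfl hP
          _ = A.valuation X1 ^ 3 := by rw [← pow_succ]
      rcases le_max_iff.mp (A.valuation.map_add (Y1 * X2) (Y2 * X1)) with h | h
      · calc A.valuation (Y1 * X2 + Y2 * X1) ^ 2 ≤ A.valuation (Y1 * X2) ^ 2 :=
              pow_le_pow_left' h 2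
          _ = A.valuation Y1 ^ 2 * A.valuation X2 ^ 2 := by rw [map_mul, mul_pow]
          _ ≤ A.valuation X1 ^ 3 * A.valuation X2 ^ 2 := mul_le_mul' hY1 le_rfl
          _ ≤ t ^ 3 := hle1
      · calc A.valuation (Y1 * X2 + Y2 * X1) ^ 2 ≤ A.valuation (Y2 * X1) ^ 2 :=
              pow_le_pow_left' h 2
          _ = A.valuation Y2 ^ 2 * A.valuation X1 ^ 2 := by rw [map_mul, mul_pow]
          _ ≤ A.valuation X2 ^ 3 * A.valuation X1 ^ 2 := mul_le_mul' hY2 le_rfl
          _ ≤ t ^ 3 := hle2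
    by_contra hlt
    rw [not_le] at hlt
    have ht3 : 0 < t ^ 3 := pow_pos ht0 3
    have hWpos : 0 < A.valuation (Y1 * X2 + Y2 * X1) ^ 2 := by
      rcases eq_or_lt_of_le (zero_le (a := A.valuation (Y1 * X2 + Y2 * X1) ^ 2)) with h0 | h0
      · rw [← h0, mul_zero] at hval
        exact absurd hval.symm (ne_of_gt ht3)
      · exact h0
    have : t ^ 3 < t ^ 3 := by
      calc t ^ 3 = A.valuation X3 * A.valuation (Y1 * X2 + Y2 * X1) ^ 2 := hval.symm
        _ < 1 * A.valuation (Y1 * X2 + Y2 * X1) ^ 2 := mul_lt_mul_of_pos_right hlt hWpos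
        _ = A.valuation (Y1 * X2 + Y2 * X1) ^ 2 := one_mul _
        _ ≤ t ^ 3 := hW
    exact lt_irrefl _ this

/-- The subgroup of points with nonsingular reduction (multiplicative case). -/
def E0 (ha : A.valuation a = 1) (hb : A.valuation b < 1) (h2 : A.valuation (2 : K) = 1) :
    AddSubgroup (shortW a b).toAffine.Point where
  carrier := {P | ¬ IsN a b A P}
  zero_mem' := by rintro ⟨X, Y, h, h0, -⟩; exact Affine.Point.some_ne_zero h h0.symm
  add_mem' := fun hP hQ => not_isN_add A a b ha hb h2 hP hQ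
  neg_mem' := fun {P} hP => (isN_neg_iff A a b (P := P)).not.mpr hP

theorem mem_E0_iff (ha : A.valuation a = 1) (hb : A.valuation b < 1) (h2 : A.valuation (2 : K) = 1)
    {P : (shortW a b).toAffine.Point} : P ∈ E0 A a b ha hb h2 ↔ ¬ IsN a b A P :=
  Iff.rfl

end Fermat.Agent.S05
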