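import Mathlib

set_option autoImplicit false

namespace Fermat.Agent.S05

section GrpCore

variable {A : Type*} [AddCommGroup A] [LinearOrder A] [IsOrderedAddMonoid A]

theorem grp_lt_of_eq {a b c d : A} (h : a < b) (e : d - c = b - a) : c < d := by
  have h' : 0 < b - a := sub_pos.mpr h
  rw [← e] at h'
  exact sub_pos.mp h'

theorem grp_le_of_eq {a b c d : A} (h : a ≤ b) (e : d - c = b - a) : c ≤ d := by
  have h' : 0 ≤ b - a := sub_nonneg.mpr h
  rw [← e] at h'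
  exact sub_nonneg.mp h'

theorem grp_third_pos {e t : A} (he : e + e + e = t) (ht : 0 < t) : 0 < e := by
  by_contra hne
  have hle : e ≤ 0 := not_lt.mp hne
  have h3 : e + e + e ≤ 0 := add_nonpos (add_nonpos hle hle) hle
  rw [he] at h3
  exact absurd ht (not_lt.mpr h3)

variable {Φ : Type*} [AddCommGroup Φ]

/-- General additivity below `H`. -/
theorem grp_addB (H : A) (c : A → Φ) (third : ∀ t : A, ∃ t', t' + t' + t' = t)
    (R1 : ∀ t₁ t₂, t₁ < t₂ → 0 < t₁ → t₁ + t₂ < H → c t₁ + c t₂ = c (t₁ + t₂))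
    (t₁ t₂ : A) (h1 : 0 < t₁) (h2 : 0 < t₂) (h : t₁ + t₂ < H) :
    c t₁ + c t₂ = c (t₁ + t₂) := by
  rcases lt_trichotomy t₁ t₂ with hlt | rfl | hgt
  · exact R1 t₁ t₂ hlt h1 h
  · obtain ⟨e, he⟩ := third t₁
    have he0 : 0 < e := grp_third_pos he h1
    subst he
    have q1 : c e + c (e + e) = c (e + e + e) := by
      have := R1 e (e + e) (lt_add_of_pos_right e he0) he0
        (lt_trans (grp_lt_of_eq h1 (by abel)) h)
      rw [this]; congr 1; abel
    have q2 : c e + c (e + e + e) = c (e + (e + e + e)) :=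
      R1 e (e + e + e) (grp_lt_of_eq (add_pos he0 he0) (by abel)) he0
        (grp_lt_of_eq (add_pos he0 he0) (b := e + e) (d := e + e + e + (e + e + e)) (by abel)
          |>.trans h)
    have q3 : c (e + e) + c (e + (e + e + e)) = c (e + e + e + (e + e + e)) := by
      have := R1 (e + e) (e + (e + e + e)) (grp_lt_of_eq (add_pos he0 he0) (by abel))
        (add_pos he0 he0) (by rw [show e + e + (e + (e + e + e)) = e + e + e + (e + e + e) by abel]; exact h)
      rw [this]; congr 1; abel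
    calc c (e + e + e) + c (e + e + e)
        = (c e + c (e + e)) + c (e + e + e) := by rw [q1]
      _ = c (e + e) + (c e + c (e + e + e)) := by abel
      _ = c (e + e + e + (e + e + e)) := by rw [q2, q3]
  · have := R1 t₂ t₁ hgt h2 (by rwa [add_comm])
    rw [add_comm, this, add_comm]

/-- Rule C: complementary components add up to `μ`. -/
theorem grp_addC (H : A) (c : A → Φ) (μ : Φ) (third : ∀ t : A, ∃ t', t' + t' + t' = t)
    (R1 : ∀ t₁ t₂, t₁ < t₂ → 0 < t₁ → t₁ + t₂ < H → c t₁ + c t₂ = c (t₁ + t₂))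
    (R2 : ∀ t₁ t₂, t₁ < t₂ → 0 < t₁ → t₁ + t₂ = H → c t₁ + c t₂ = μ)
    (t₁ t₂ : A) (h1 : 0 < t₁) (h2 : 0 < t₂) (h : t₁ + t₂ = H) :
    c t₁ + c t₂ = μ := by
  rcases lt_trichotomy t₁ t₂ with hlt | rfl | hgt
  · exact R2 t₁ t₂ hlt h1 h
  · obtain ⟨e, he⟩ := third t₁
    have he0 : 0 < e := grp_third_pos he h1
    subst he
    subst h
    have q1 : c e + c (e + e) = c (e + e + e) := by
      have := R1 e (e + e) (lt_add_of_pos_right e he0) he0 (grp_lt_of_eq h1 (by abel))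
      rw [this]; congr 1; abel
    have q2 : c e + c (e + e + e) = c (e + (e + e + e)) :=
      R1 e (e + e + e) (grp_lt_of_eq (add_pos he0 he0) (by abel)) he0
        (grp_lt_of_eq (add_pos he0 he0) (by abel))
    have q3 : c (e + e) + c (e + (e + e + e)) = μ :=
      R2 (e + e) (e + (e + e + e)) (grp_lt_of_eq (add_pos he0 he0) (by abel))
        (add_pos he0 he0) (by abel)
    calc c (e + e + e) + c (e + e + e)
        = (c e + c (e + e)) + c (e + e + e) := by rw [q1]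
      _ = c (e + e) + (c e + c (e + e + e)) := by abel
      _ = μ := by rw [q2, q3]
  · have := R2 t₂ t₁ hgt h2 (by rwa [add_comm])
    rw [add_comm, this]

/-- `2 μ = 0`. -/
theorem grp_two_mu (H : A) (H0 : 0 < H) (c : A → Φ) (μ : Φ)
    (third : ∀ t : A, ∃ t', t' + t' + t' = t)
    (R2 : ∀ t₁ t₂, t₁ < t₂ → 0 < t₁ → t₁ + t₂ = H → c t₁ + c t₂ = μ)
    (R3 : ∀ t, 0 < t → t + t < H → μ + c t = -c (H - t)) :
    μ + μ = 0 := by
  obtain ⟨e, he⟩ := third H
  have he0 : 0 < e := grp_third_pos he H0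
  subst he
  have q1 : μ + c e = -c (e + e) := by
    have := R3 e he0 (grp_lt_of_eq he0 (by abel))
    rw [this]; congr 2; abel
  have q2 : c e + c (e + e) = μ :=
    R2 e (e + e) (lt_add_of_pos_right e he0) he0 (by abel)
  calc μ + μ = μ + (c e + c (e + e)) := by rw [q2]
    _ = (μ + c e) + c (e + e) := by abel
    _ = 0 := by rw [q1]; abel

/-- Rule D: two components whose sum exceeds `H`. -/
theorem grp_addD (H : A) (c : A → Φ) (μ : Φ)
    (hB : ∀ t₁ t₂ : A, 0 < t₁ → 0 < t₂ → t₁ + t₂ < H → c t₁ + c t₂ = c (t₁ + t₂))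
    (hC : ∀ t₁ t₂ : A, 0 < t₁ → 0 < t₂ → t₁ + t₂ = H → c t₁ + c t₂ = μ)
    (h2μ : μ + μ = 0)
    (t₁ t₂ : A) (h1 : t₁ < H) (h2 : t₂ < H) (h1' : 0 < t₁) (h2' : 0 < t₂)
    (h : H < t₁ + t₂) :
    c t₁ + c t₂ = -c (H + H - (t₁ + t₂)) := by
  have p1 : c t₁ + c (H - t₁) = μ := hC t₁ (H - t₁) h1' (sub_pos.mpr h1) (by abel)
  have p2 : c t₂ + c (H - t₂) = μ := hC t₂ (H - t₂) h2' (sub_pos.mpr h2) (by abel)
  have p3 : c (H - t₁) + c (H - t₂) = c (H + H - (t₁ + t₂)) := by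
    have := hB (H - t₁) (H - t₂) (sub_pos.mpr h1) (sub_pos.mpr h2)
      (grp_lt_of_eq h (by abel))
    rw [this]; congr 1; abel
  have e1 : c t₁ = μ - c (H - t₁) := by rw [← p1]; abel
  have e2 : c t₂ = μ - c (H - t₂) := by rw [← p2]; abel
  calc c t₁ + c t₂ = (μ + μ) - (c (H - t₁) + c (H - t₂)) := by rw [e1, e2]; abel
    _ = -c (H + H - (t₁ + t₂)) := by rw [h2μ, p3]; abel

/-- The class of the point `s` of the circle `[0, 2H)`. -/
def grp_cl (H : A) (c : A → Φ) (μ : Φ) (s : A) : Φ :=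
  if s = 0 then 0 else if s < H then c s else if s = H then μ else -c (H + H - s)

omit [IsOrderedAddMonoid A] in
theorem grp_cl_zero (H : A) (c : A → Φ) (μ : Φ) : grp_cl H c μ 0 = 0 := by
  simp [grp_cl]

omit [IsOrderedAddMonoid A] in
theorem grp_cl_lt (H : A) (c : A → Φ) (μ : Φ) {s : A} (hs : 0 < s) (h : s < H) :
    grp_cl H c μ s = c s := by
  simp [grp_cl, hs.ne', h]

omit [IsOrderedAddMonoid A] in
theorem grp_cl_H (H : A) (H0 : 0 < H) (c : A → Φ) (μ : Φ) : grp_cl H c μ H = μ := by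
  simp [grp_cl, H0.ne']

omit [IsOrderedAddMonoid A] in
theorem grp_cl_gt (H : A) (H0 : 0 < H) (c : A → Φ) (μ : Φ) {s : A} (h : H < s) :
    grp_cl H c μ s = -c (H + H - s) := by
  have h1 : s ≠ 0 := (H0.trans h).ne'
  have h2 : ¬ s < H := not_lt.mpr h.le
  have h3 : s ≠ H := h.ne'
  simp [grp_cl, h1, h2, h3]

theorem grp_cl_step (H : A) (H0 : 0 < H) (c : A → Φ) (μ : Φ)
    (hB : ∀ t₁ t₂ : A, 0 < t₁ → 0 < t₂ → t₁ + t₂ < H → c t₁ + c t₂ = c (t₁ + t₂))
    (hC : ∀ t₁ t₂ : A, 0 < t₁ → 0 < t₂ → t₁ + t₂ = H → c t₁ + c t₂ = μ)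
    (hD : ∀ t₁ t₂ : A, t₁ < H → t₂ < H → 0 < t₁ → 0 < t₂ → H < t₁ + t₂ →
      c t₁ + c t₂ = -c (H + H - (t₁ + t₂)))
    (h2μ : μ + μ = 0)
    (s t : A) (hs0 : 0 ≤ s) (hs : s < H + H) (ht0 : 0 < t) (ht : t < H) :
    grp_cl H c μ s + c t =
      if s + t < H + H then grp_cl H c μ (s + t) else grp_cl H c μ (s + t - (H + H)) := by
  rcases hs0.eq_or_lt with rfl | hs0'
  · rw [grp_cl_zero, zero_add, zero_add, if_pos (ht.trans (lt_add_of_pos_left H H0)),
      grp_cl_lt H c μ ht0 ht]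
  rcases lt_trichotomy s H with hsH | rfl | hsH
  · have hlt : s + t < H + H := add_lt_add hsH ht
    rw [if_pos hlt, grp_cl_lt H c μ hs0' hsH]
    rcases lt_trichotomy (s + t) H with h | h | h
    · rw [grp_cl_lt H c μ (add_pos hs0' ht0) h]; exact hB s t hs0' ht0 h
    · rw [h, grp_cl_H H H0]; exact hC s t hs0' ht0 h
    · rw [grp_cl_gt H H0 c μ h]; exact hD s t hsH ht hs0' ht0 h
  · have hlt : s + t < s + s := add_lt_add_right ht s
    rw [if_pos hlt, grp_cl_H s H0, grp_cl_gt s H0 c μ (lt_add_of_pos_right s ht0)]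
    have p : c t + c (s - t) = μ := hC t (s - t) ht0 (sub_pos.mpr ht) (by abel)
    have e1 : s + s - (s + t) = s - t := by abel
    have e2 : c t = μ - c (s - t) := by rw [← p]; abel
    rw [e1, e2]
    calc μ + (μ - c (s - t)) = (μ + μ) - c (s - t) := by abel
      _ = -c (s - t) := by rw [h2μ]; abel
  · rw [grp_cl_gt H H0 c μ hsH]
    rcases lt_trichotomy (s + t) (H + H) with h | h | h
    · rw [if_pos h]
      have hH : H < s + t := hsH.trans (lt_add_of_pos_right s ht0)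
      rw [grp_cl_gt H H0 c μ hH]
      have q := hB t (H + H - (s + t)) ht0 (sub_pos.mpr h) (grp_lt_of_eq hsH (by abel))
      have e1 : t + (H + H - (s + t)) = H + H - s := by abel
      rw [e1] at q
      rw [← q]; abel
    · rw [if_neg (by rw [h]; exact lt_irrefl _)]
      rw [h, sub_self, grp_cl_zero]
      have e1 : H + H - s = t := by rw [← h]; abel
      rw [e1]; abel
    · rw [if_neg (not_lt.mpr h.le)]
      have h0 : 0 < s + t - (H + H) := sub_pos.mpr h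
      have hlt : s + t - (H + H) < H := grp_lt_of_eq (add_lt_add hs ht) (by abel)
      rw [grp_cl_lt H c μ h0 hlt]
      have q := hB (H + H - s) (s + t - (H + H)) (sub_pos.mpr hs) h0
        (by rw [show H + H - s + (s + t - (H + H)) = t by abel]; exact ht)
      have e1 : H + H - s + (s + t - (H + H)) = t := by abel
      rw [e1] at q
      rw [← q]; abel

theorem grp_cl_eq_zero (H : A) (H0 : 0 < H) (c : A → Φ) (μ : Φ)
    (hc : ∀ t, 0 < t → t < H → c t ≠ 0) (hμ : μ ≠ 0)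
    (s : A) (hs0 : 0 ≤ s) (hs : s < H + H) (h : grp_cl H c μ s = 0) : s = 0 := by
  by_contra hne
  have hs0' : 0 < s := lt_of_le_of_ne hs0 (Ne.symm hne)
  rcases lt_trichotomy s H with hsH | rfl | hsH
  · rw [grp_cl_lt H c μ hs0' hsH] at h; exact hc s hs0' hsH h
  · rw [grp_cl_H s H0] at h; exact hμ h
  · rw [grp_cl_gt H H0 c μ hsH] at h
    exact hc (H + H - s) (sub_pos.mpr hs) (grp_lt_of_eq hsH (by abel)) (neg_eq_zero.mp h)

theorem grp_iter (H : A) (H0 : 0 < H) (c : A → Φ) (μ : Φ)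
    (hB : ∀ t₁ t₂ : A, 0 < t₁ → 0 < t₂ → t₁ + t₂ < H → c t₁ + c t₂ = c (t₁ + t₂))
    (hC : ∀ t₁ t₂ : A, 0 < t₁ → 0 < t₂ → t₁ + t₂ = H → c t₁ + c t₂ = μ)
    (hD : ∀ t₁ t₂ : A, t₁ < H → t₂ < H → 0 < t₁ → 0 < t₂ → H < t₁ + t₂ →
      c t₁ + c t₂ = -c (H + H - (t₁ + t₂)))
    (h2μ : μ + μ = 0) (t : A) (ht0 : 0 < t) (ht : t < H) (j : ℕ) :
    ∃ k : ℕ, 0 ≤ j • t - (2 * k) • H ∧ j • t - (2 * k) • H < H + H ∧
      j • c t = grp_cl H c μ (j • t - (2 * k) • H) := by
  induction j with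
  | zero =>
    refine ⟨0, by simp, ?_, by simp [grp_cl_zero]⟩
    simpa using add_pos H0 H0
  | succ j ih =>
    obtain ⟨k, h1, h2, h3⟩ := ih
    have step := grp_cl_step H H0 c μ hB hC hD h2μ (j • t - (2 * k) • H) t h1 h2 ht0 ht
    by_cases hlt : j • t - (2 * k) • H + t < H + H
    · have e : (j + 1) • t - (2 * k) • H = j • t - (2 * k) • H + t := by
        rw [succ_nsmul]; abel
      refine ⟨k, ?_, ?_, ?_⟩
      · rw [e]; exact add_nonneg h1 ht0.le
      · rw [e]; exact hlt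
      · rw [succ_nsmul, h3, step, if_pos hlt, e]
    · have e : (j + 1) • t - (2 * (k + 1)) • H = j • t - (2 * k) • H + t - (H + H) := by
        rw [succ_nsmul, show 2 * (k + 1) = 2 * k + 2 by ring, add_nsmul, two_nsmul]; abel
      refine ⟨k + 1, ?_, ?_, ?_⟩
      · rw [e]; exact sub_nonneg.mpr (not_lt.mp hlt)
      · rw [e]
        exact grp_lt_of_eq (add_lt_add h2 (ht.trans (lt_add_of_pos_left H H0))) (by abel)
      · rw [succ_nsmul, h3, step, if_neg hlt, e]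

/-- Additive core of `torsion_component`. -/
theorem grp_core (H : A) (H0 : 0 < H) (c : A → Φ) (μ : Φ)
    (third : ∀ t : A, ∃ t', t' + t' + t' = t)
    (R1 : ∀ t₁ t₂, t₁ < t₂ → 0 < t₁ → t₁ + t₂ < H → c t₁ + c t₂ = c (t₁ + t₂))
    (R2 : ∀ t₁ t₂, t₁ < t₂ → 0 < t₁ → t₁ + t₂ = H → c t₁ + c t₂ = μ)
    (R3 : ∀ t, 0 < t → t + t < H → μ + c t = -c (H - t))
    (hc : ∀ t, 0 < t → t < H → c t ≠ 0) (hμ : μ ≠ 0) :
    μ + μ = 0 ∧
      ∀ t, 0 < t → t < H → ∀ j : ℕ, j • c t = 0 → ∃ k : ℕ, j • t = (2 * k) • H := by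
  have hB := grp_addB H c third R1
  have hC := grp_addC H c μ third R1 R2
  have h2μ := grp_two_mu H H0 c μ third R2 R3
  have hD := grp_addD H c μ hB hC h2μ
  refine ⟨h2μ, ?_⟩
  intro t ht0 ht j hj
  obtain ⟨k, h1, h2, h3⟩ := grp_iter H H0 c μ hB hC hD h2μ t ht0 ht j
  rw [hj] at h3
  have := grp_cl_eq_zero H H0 c μ hc hμ _ h1 h2 h3.symm
  exact ⟨k, sub_eq_zero.mp this⟩

end GrpCore

section GrpTransport

variable {Γ : Type*} [LinearOrderedCommGroupWithZero Γ]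

/-- Additive coordinate (order reversing) on the nonzero elements of `Γ`. -/
def grp_phi (t : Additive Γˣ) : Γ := ((Additive.toMul (-t) : Γˣ) : Γ)

theorem grp_phi_zero : grp_phi (0 : Additive Γˣ) = 1 := by
  simp [grp_phi]

theorem grp_phi_add (s t : Additive Γˣ) : grp_phi (s + t) = grp_phi s * grp_phi t := by
  simp [grp_phi, mul_comm]

theorem grp_phi_ne_zero (t : Additive Γˣ) : grp_phi t ≠ 0 := Units.ne_zero _

theorem grp_phi_sub (s t : Additive Γˣ) : grp_phi (s - t) = grp_phi s / grp_phi t := by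
  have h : grp_phi (s - t) * grp_phi t = grp_phi s := by
    rw [← grp_phi_add, sub_add_cancel]
  rw [← h, mul_div_assoc, div_self (grp_phi_ne_zero t), mul_one]

theorem grp_phi_nsmul (n : ℕ) (t : Additive Γˣ) : grp_phi (n • t) = grp_phi t ^ n := by
  induction n with
  | zero => simp [grp_phi_zero]
  | succ n ih => rw [succ_nsmul, grp_phi_add, ih, pow_succ]

theorem grp_phi_lt {s t : Additive Γˣ} : grp_phi s < grp_phi t ↔ t < s := by
  unfold grp_phi
  rw [Units.val_lt_val]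
  show -s < -t ↔ t < s
  exact neg_lt_neg_iff

theorem grp_phi_injective : Function.Injective (grp_phi : Additive Γˣ → Γ) := by
  intro s t hst
  unfold grp_phi at hst
  have := Units.ext hst
  exact neg_injective (Additive.toMul.injective this)

/-- Inverse of `grp_phi` on nonzero elements. -/
def grp_psi (g : Γ) (hg : g ≠ 0) : Additive Γˣ := -(Additive.ofMul (Units.mk0 g hg))

theorem grp_phi_psi (g : Γ) (hg : g ≠ 0) : grp_phi (grp_psi g hg) = g := by
  simp [grp_phi, grp_psi]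

end GrpTransport

theorem torsion_component {Γ : Type*} [LinearOrderedCommGroupWithZero Γ] {Φ : Type*}
    [AddCommGroup Φ] (h : Γ) (h0 : 0 < h) (h1 : h < 1) (c : Γ → Φ) (μ : Φ)
    (cube : ∀ g : Γ, ∃ g', g' ^ 3 = g)
    (R1 : ∀ g₁ g₂, g₂ < g₁ → g₁ < 1 → h < g₁ * g₂ → c g₁ + c g₂ = c (g₁ * g₂))
    (R2 : ∀ g₁ g₂, g₂ < g₁ → g₁ < 1 → g₁ * g₂ = h → c g₁ + c g₂ = μ)
    (R3 : ∀ g, g < 1 → h < g ^ 2 → μ + c g = -c (h / g))
    (hc : ∀ g, h < g → g < 1 → c g ≠ 0) (hμ : μ ≠ 0)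
    (p : ℕ) (hp : p.Prime) (hp2 : p ≠ 2) :
    p • μ ≠ 0 ∧ ∀ g, h < g → g < 1 → p • c g = 0 → ∃ k : ℕ, g ^ p = h ^ (2 * k) := by
  set H : Additive Γˣ := grp_psi h h0.ne' with hH
  have hφH : grp_phi H = h := grp_phi_psi h h0.ne'
  have H0 : (0 : Additive Γˣ) < H := by
    rw [← grp_phi_lt, hφH, grp_phi_zero]; exact h1
  have third : ∀ t : Additive Γˣ, ∃ t', t' + t' + t' = t := by
    intro t
    obtain ⟨g', hg'⟩ := cube (grp_phi t)
    have hg0 : g' ≠ 0 := by
      rintro rfl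
      exact grp_phi_ne_zero t (by rw [← hg']; simp)
    refine ⟨grp_psi g' hg0, grp_phi_injective ?_⟩
    rw [grp_phi_add, grp_phi_add, grp_phi_psi, ← hg']
    exact (pow_three' g').symm
  have key := grp_core H H0 (fun t => c (grp_phi t)) μ third
    (by
      intro t₁ t₂ h12 h01 hlt
      have := R1 (grp_phi t₁) (grp_phi t₂) (grp_phi_lt.mpr h12)
        (by rw [← grp_phi_zero (Γ := Γ)]; exact grp_phi_lt.mpr h01)
        (by rw [← hφH, ← grp_phi_add]; exact grp_phi_lt.mpr hlt)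
      simpa only [grp_phi_add] using this)
    (by
      intro t₁ t₂ h12 h01 heq
      exact R2 (grp_phi t₁) (grp_phi t₂) (grp_phi_lt.mpr h12)
        (by rw [← grp_phi_zero (Γ := Γ)]; exact grp_phi_lt.mpr h01)
        (by rw [← grp_phi_add, heq, hφH]))
    (by
      intro t h01 hlt
      have := R3 (grp_phi t)
        (by rw [← grp_phi_zero (Γ := Γ)]; exact grp_phi_lt.mpr h01)
        (by rw [← hφH, pow_two, ← grp_phi_add]; exact grp_phi_lt.mpr hlt)
      simpa only [grp_phi_sub, hφH] using this)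
    (by
      intro t h01 hlt
      exact hc (grp_phi t) (by rw [← hφH]; exact grp_phi_lt.mpr hlt)
        (by rw [← grp_phi_zero (Γ := Γ)]; exact grp_phi_lt.mpr h01))
    hμ
  obtain ⟨h2μ, hmain⟩ := key
  constructor
  · obtain ⟨m, rfl⟩ := hp.odd_of_ne_two hp2
    have : (2 * m + 1) • μ = μ := by
      rw [add_nsmul, one_nsmul, two_mul, add_nsmul, ← nsmul_add, h2μ, nsmul_zero, zero_add]
    rw [this]; exact hμ
  · intro g hg hg1 hpg
    have hg0 : g ≠ 0 := (h0.trans hg).ne'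
    have hφ : grp_phi (grp_psi g hg0) = g := grp_phi_psi g hg0
    obtain ⟨k, hk⟩ := hmain (grp_psi g hg0)
      (by rw [← grp_phi_lt, hφ, grp_phi_zero]; exact hg1)
      (by rw [← grp_phi_lt, hφ, hφH]; exact hg)
      p (by simpa only [hφ] using hpg)
    refine ⟨k, ?_⟩
    have := congrArg grp_phi hk
    rwa [grp_phi_nsmul, grp_phi_nsmul, hφ, hφH] at this

end Fermat.Agent.S05
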