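import Fermat.Agent.S05.Defs

set_option autoImplicit false
set_option linter.unusedSectionVars false
set_option linter.unusedVariables false

namespace Fermat.Agent.S05

open WeierstrassCurve

variable {K : Type*} [Field K] [DecidableEq K] (A : ValuationSubring K) (a b : K)

/-- A square root of a unit is a unit. -/
theorem nodeA_val_r (r : K) (hr : r ^ 2 = a) (ha : A.valuation a = 1) : A.valuation r = 1 := by
  have h : A.valuation r ^ 2 = 1 := by rw [← map_pow, hr, ha]
  exact (pow_eq_one_iff_of_nonneg zero_le two_ne_zero).mp h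

/-- `v (2 r X) = v X`. -/
theorem nodeA_val_two_r_mul (r : K) (hr : r ^ 2 = a) (ha : A.valuation a = 1)
    (h2 : A.valuation (2 : K) = 1) (X : K) : A.valuation (2 * r * X) = A.valuation X := by
  rw [map_mul, map_mul, h2, nodeA_val_r A a r hr ha, one_mul, one_mul]

/-- In the node region away from the middle component, exactly one of `s = Y - r X`,
`t = Y + r X` is smaller than `X`; here: at least one. -/
theorem nodeA_s_or_t (r : K) (hr : r ^ 2 = a) {X Y : K}
    (hE : Y ^ 2 = X ^ 3 + a * X ^ 2 + b * X) (hX1 : A.valuation X < 1)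
    (hbX : A.valuation b < A.valuation X) :
    A.valuation (Y - r * X) < A.valuation X ∨ A.valuation (Y + r * X) < A.valuation X := by
  by_contra hcon
  push Not at hcon
  obtain ⟨h1, h2⟩ := hcon
  have hst : (Y - r * X) * (Y + r * X) = X * (X ^ 2 + b) := by
    linear_combination hE - X ^ 2 * hr
  have hpos : 0 < A.valuation X := lt_of_le_of_lt zero_le hbX
  have hle : A.valuation X * A.valuation X ≤ A.valuation X * A.valuation (X ^ 2 + b) := by
    rw [← map_mul A.valuation X (X ^ 2 + b), ← hst, map_mul]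
    exact mul_le_mul' h1 h2
  have hlt : A.valuation (X ^ 2 + b) < A.valuation X := by
    apply Valuation.map_add_lt
    · rw [map_pow, pow_two]
      calc A.valuation X * A.valuation X < A.valuation X * 1 :=
            mul_lt_mul_of_pos_left hX1 hpos
        _ = A.valuation X := mul_one _
    · exact hbX
  exact absurd (mul_lt_mul_of_pos_left hlt hpos) (not_lt.mpr hle)

theorem node_trichotomy (r : K) (hr : r ^ 2 = a) (ha : A.valuation a = 1) (hb : A.valuation b < 1)
    (h2 : A.valuation (2 : K) = 1) {P : (shortW a b).toAffine.Point} (hP : IsN a b A P) :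
    (∃ g, InC a b A r g P) ∨ (∃ g, InC a b A r g (-P)) ∨ InM a b A P := by
  obtain ⟨X, Y, h, rfl, hX⟩ := hP
  by_cases hbX : A.valuation X ≤ A.valuation b
  · right; right; exact ⟨X, Y, h, rfl, hbX⟩
  · push Not at hbX
    have hE := (shortW_equation_iff a b X Y).mp h.1
    rcases nodeA_s_or_t A a b r hr hE hX hbX with hs | ht
    · left; exact ⟨_, X, Y, h, rfl, rfl, hbX, hX, hs⟩
    · right; left
      refine ⟨A.valuation X, X, (shortW a b).toAffine.negY X Y, (Affine.nonsingular_neg ..).mpr h,
        Affine.Point.neg_some .., rfl, hbX, hX, ?_⟩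
      rw [shortW_negY]
      have : -Y - r * X = -(Y + r * X) := by ring
      rw [this, Valuation.map_neg]; exact ht

theorem inC_sub_not_isN (r : K) (hr : r ^ 2 = a) (ha : A.valuation a = 1) (hb : A.valuation b < 1)
    (h2 : A.valuation (2 : K) = 1) {g : A.ValueGroup} {P P' : (shortW a b).toAffine.Point}
    (hP : InC a b A r g P) (hP' : InC a b A r g P') : ¬ IsN a b A (P - P') := by
  obtain ⟨X1, Y1, h1, rfl, hX1, hbg, hg1, hs1⟩ := hP
  obtain ⟨X2, Y2, h2', rfl, hX2, -, -, hs2⟩ := hP'
  rintro ⟨X3, Y3, h3, heq, hX3⟩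
  rw [sub_eq_add_neg, Affine.Point.neg_some] at heq
  have hE1 := (shortW_equation_iff a b X1 Y1).mp h1.1
  have hE2 := (shortW_equation_iff a b X2 Y2).mp h2'.1
  have hgpos : 0 < g := lt_of_le_of_lt zero_le hbg
  have h2rX1 : A.valuation (2 * r * X1) = g := by
    rw [nodeA_val_two_r_mul A a r hr ha h2, hX1]
  have h2rX2 : A.valuation (2 * r * X2) = g := by
    rw [nodeA_val_two_r_mul A a r hr ha h2, hX2]
  have hss : A.valuation ((Y1 - r * X1) + (Y2 - r * X2)) < g := Valuation.map_add_lt _ hs1 hs2
  by_cases hxe : X1 = X2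
  · subst hxe
    by_cases hyn : Y1 = (shortW a b).toAffine.negY X1 ((shortW a b).toAffine.negY X1 Y2)
    · rw [Affine.Point.add_of_Y_eq rfl hyn] at heq
      exact Affine.Point.some_ne_zero _ heq.symm
    · rw [Affine.negY_negY] at hyn
      have hyy : Y1 = -Y2 := by
        have : (Y1 - Y2) * (Y1 + Y2) = 0 := by linear_combination hE1 - hE2
        rcases mul_eq_zero.mp this with h | h
        · exact absurd (by linear_combination h) hyn
        · linear_combination h
      -- `s1 = -(s2 + 2 r X1)` has valuation `g`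
      have hs1' : A.valuation (Y1 - r * X1) = g := by
        have e : Y1 - r * X1 = -((Y2 - r * X1) + 2 * r * X1) := by rw [hyy]; ring
        rw [e, Valuation.map_neg, Valuation.map_add_eq_of_lt_right _ (by rw [h2rX1]; exact hs2),
          h2rX1]
      rw [hs1'] at hs1
      exact lt_irrefl _ hs1
  · rw [Affine.Point.add_of_X_ne hxe] at heq
    have hX3eq : X3 = (shortW a b).toAffine.addX X1 X2
        ((shortW a b).toAffine.slope X1 X2 Y1 ((shortW a b).toAffine.negY X2 Y2)) := by
      injection heq with hx hy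
      exact hx.symm
    have hd0 : X1 - X2 ≠ 0 := sub_ne_zero.mpr hxe
    have key : X3 * (X1 - X2) ^ 2 =
        ((Y1 - r * X1) + (Y2 - r * X2) + 2 * r * X2) * ((Y1 - r * X1) + (Y2 - r * X2) + 2 * r * X1)
          - (X1 + X2) * (X1 - X2) ^ 2 := by
      rw [hX3eq, Affine.slope_of_X_ne hxe, shortW_negY]
      simp only [Affine.addX, shortW_a₁, shortW_a₂]
      field_simp
      linear_combination (X1 - X2) ^ 2 * hr
    have hvd : A.valuation (X1 - X2) ≤ g :=
      Valuation.map_sub_le _ (le_of_eq hX1) (le_of_eq hX2)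
    have hvdpos : 0 < A.valuation (X1 - X2) := by
      rw [Valuation.pos_iff]; exact hd0
    have hprod : A.valuation (((Y1 - r * X1) + (Y2 - r * X2) + 2 * r * X2) *
        ((Y1 - r * X1) + (Y2 - r * X2) + 2 * r * X1)) = g * g := by
      rw [map_mul, Valuation.map_add_eq_of_lt_right _ (by rw [h2rX2]; exact hss),
        Valuation.map_add_eq_of_lt_right _ (by rw [h2rX1]; exact hss), h2rX1, h2rX2]
    have hsmall : A.valuation ((X1 + X2) * (X1 - X2) ^ 2) < g * g := by
      rw [map_mul, map_pow, pow_two]
      have h12 : A.valuation (X1 + X2) < 1 :=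
        Valuation.map_add_lt _ (by rw [hX1]; exact hg1) (by rw [hX2]; exact hg1)
      calc A.valuation (X1 + X2) * (A.valuation (X1 - X2) * A.valuation (X1 - X2))
          < 1 * (A.valuation (X1 - X2) * A.valuation (X1 - X2)) :=
            mul_lt_mul_of_pos_right h12 (mul_pos hvdpos hvdpos)
        _ = A.valuation (X1 - X2) * A.valuation (X1 - X2) := one_mul _
        _ ≤ g * g := mul_le_mul' hvd hvd
    have hv3 : A.valuation X3 * (A.valuation (X1 - X2) * A.valuation (X1 - X2)) = g * g := by
      rw [← pow_two, ← map_pow, ← map_mul, key,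
        Valuation.map_sub_eq_of_lt_left _ (by rw [hprod]; exact hsmall), hprod]
    have : A.valuation X3 * (A.valuation (X1 - X2) * A.valuation (X1 - X2)) < g * g := by
      calc A.valuation X3 * (A.valuation (X1 - X2) * A.valuation (X1 - X2))
          < 1 * (A.valuation (X1 - X2) * A.valuation (X1 - X2)) :=
            mul_lt_mul_of_pos_right hX3 (mul_pos hvdpos hvdpos)
        _ = A.valuation (X1 - X2) * A.valuation (X1 - X2) := one_mul _
        _ ≤ g * g := mul_le_mul' hvd hvd
    exact absurd hv3 (ne_of_lt this)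

omit [DecidableEq K] in
/-- Under the multiplicative-reduction hypotheses the curve is elliptic. -/
theorem nodeA_isElliptic (ha : A.valuation a = 1) (hb : A.valuation b < 1) (hb0 : b ≠ 0)
    (h2 : A.valuation (2 : K) = 1) : (shortW a b).IsElliptic := by
  have h20 : (2 : K) ≠ 0 := by
    intro h; rw [h, map_zero] at h2; exact zero_ne_one h2
  refine shortW_isElliptic a b h20 hb0 ?_
  intro h
  have h4b : A.valuation (4 * b) < 1 := by
    have e : (4 : K) * b = 2 * 2 * b := by ring
    rw [e, map_mul, map_mul, h2, one_mul, one_mul]; exact hb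
  have ha2 : A.valuation (a ^ 2) = 1 := by rw [map_pow, ha, one_pow]
  have : A.valuation (a ^ 2 - 4 * b) = 1 := by
    rw [Valuation.map_sub_eq_of_lt_left _ (by rw [ha2]; exact h4b), ha2]
  rw [h, map_zero] at this
  exact zero_ne_one this

theorem exists_inC (r : K) (hr : r ^ 2 = a) (ha : A.valuation a = 1) (hb : A.valuation b < 1)
    (hb0 : b ≠ 0) (h2 : A.valuation (2 : K) = 1) (hsq : ∀ x : K, ∃ y, y ^ 2 = x) (x : K)
    (hx1 : A.valuation x < 1) (hxb : A.valuation b < A.valuation x) :
    ∃ (Y : K) (h : (shortW a b).toAffine.Nonsingular x Y),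
      InC a b A r (A.valuation x) (Affine.Point.some x Y h) := by
  obtain ⟨Y, hY⟩ := hsq (x ^ 3 + a * x ^ 2 + b * x)
  have hell : (shortW a b).IsElliptic := nodeA_isElliptic A a b ha hb hb0 h2
  have hns : ∀ Y' : K, Y' ^ 2 = x ^ 3 + a * x ^ 2 + b * x →
      (shortW a b).toAffine.Nonsingular x Y' := fun Y' h' =>
    Affine.equation_iff_nonsingular.mp ((shortW_equation_iff a b x Y').mpr h')
  rcases nodeA_s_or_t A a b r hr hY hx1 hxb with hs | ht
  · exact ⟨Y, hns Y hY, x, Y, hns Y hY, rfl, rfl, hxb, hx1, hs⟩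
  · have hY' : (-Y) ^ 2 = x ^ 3 + a * x ^ 2 + b * x := by rw [neg_sq]; exact hY
    refine ⟨-Y, hns _ hY', x, -Y, hns _ hY', rfl, rfl, hxb, hx1, ?_⟩
    have : -Y - r * x = -(Y + r * x) := by ring
    rw [this, Valuation.map_neg]; exact ht

theorem exists_inM (ha : A.valuation a = 1) (hb : A.valuation b < 1) (hb0 : b ≠ 0)
    (h2 : A.valuation (2 : K) = 1) : ∃ P : (shortW a b).toAffine.Point, InM a b A P := by
  have hell : (shortW a b).IsElliptic := nodeA_isElliptic A a b ha hb hb0 h2
  have hns : (shortW a b).toAffine.Nonsingular 0 0 :=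
    Affine.equation_iff_nonsingular.mp ((shortW_equation_iff a b 0 0).mpr (by ring))
  exact ⟨Affine.Point.some 0 0 hns, 0, 0, hns, rfl, by rw [map_zero]; exact zero_le⟩

end Fermat.Agent.S05
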