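import Fermat.Agent.S05.Defs

set_option autoImplicit false

namespace Fermat.Agent.S05

open WeierstrassCurve

/-! ### Helper lemmas (file stem `nodeB_`) -/

section helpers

variable {K : Type*} [Field K]

/-- Transport of an affine point along equalities of coordinates. -/
lemma nodeB_some_congr {W : Affine K} {x y x' y' : K} (h : W.Nonsingular x y)
    (hx : x = x') (hy : y = y') :
    ∃ h' : W.Nonsingular x' y', Affine.Point.some x y h = Affine.Point.some x' y' h' := by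
  subst hx; subst hy; exact ⟨h, rfl⟩

/-- Secant addition on `shortW a b` with denominator-free identities
(`s = Y - r X`, `r ^ 2 = a`). -/
lemma nodeB_secant [DecidableEq K] {a b : K} (r : K) (hr : r ^ 2 = a) {X₁ Y₁ X₂ Y₂ : K}
    (h₁ : (shortW a b).toAffine.Nonsingular X₁ Y₁) (h₂ : (shortW a b).toAffine.Nonsingular X₂ Y₂)
    (hx : X₁ ≠ X₂) :
    ∃ (X₃ Y₃ : K) (h₃ : (shortW a b).toAffine.Nonsingular X₃ Y₃),
      Affine.Point.some X₁ Y₁ h₁ + Affine.Point.some X₂ Y₂ h₂ = Affine.Point.some X₃ Y₃ h₃ ∧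
      X₁ * X₂ * X₃ * (X₁ - X₂) ^ 2 = (X₁ * (Y₂ - r * X₂) - X₂ * (Y₁ - r * X₁)) ^ 2 ∧
      (Y₃ + r * X₃) * (X₁ - X₂) =
        -(((Y₁ - r * X₁) - (Y₂ - r * X₂)) * X₃ + (X₁ * (Y₂ - r * X₂) - X₂ * (Y₁ - r * X₁))) ∧
      (Y₃ - r * X₃) * (Y₃ + r * X₃) = X₃ * (X₃ ^ 2 + b) ∧
      X₃ * (X₁ - X₂) ^ 2 = (Y₁ - Y₂) ^ 2 - (a + X₁ + X₂) * (X₁ - X₂) ^ 2 := by
  have e₁ := (shortW_equation_iff a b X₁ Y₁).mp h₁.1
  have e₂ := (shortW_equation_iff a b X₂ Y₂).mp h₂.1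
  have hD : X₁ - X₂ ≠ 0 := sub_ne_zero.mpr hx
  obtain ⟨Λ, hΛdef, hΛ⟩ : ∃ Λ, (shortW a b).toAffine.slope X₁ X₂ Y₁ Y₂ = Λ ∧
      Λ * (X₁ - X₂) = Y₁ - Y₂ :=
    ⟨_, Affine.slope_of_X_ne hx, div_mul_cancel₀ _ hD⟩
  have hX : (shortW a b).toAffine.addX X₁ X₂ ((shortW a b).toAffine.slope X₁ X₂ Y₁ Y₂)
      = Λ ^ 2 - a - X₁ - X₂ := by
    rw [hΛdef]; simp [Affine.addX]
  have hY : (shortW a b).toAffine.addY X₁ X₂ Y₁ ((shortW a b).toAffine.slope X₁ X₂ Y₁ Y₂)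
      = -(Λ * (Λ ^ 2 - a - X₁ - X₂ - X₁) + Y₁) := by
    rw [hΛdef]; simp [Affine.addY, Affine.negAddY, Affine.addX, Affine.negY]
  obtain ⟨h₃, h₃eq⟩ :=
    nodeB_some_congr (Affine.nonsingular_add h₁ h₂ (fun hxy => hx hxy.1)) hX hY
  have e₃ := (shortW_equation_iff a b _ _).mp h₃.1
  refine ⟨_, _, h₃, (Affine.Point.add_of_X_ne hx).trans h₃eq, ?_, ?_, ?_, ?_⟩
  · linear_combination (X₁ * X₂ * (Λ * (X₁ - X₂) + (Y₁ - Y₂))) * hΛ + (X₁ - X₂) * X₂ * e₁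
      - (X₁ - X₂) * X₁ * e₂
  · linear_combination (X₁ - (Λ ^ 2 - a - X₁ - X₂)) * hΛ
  · linear_combination e₃ - (Λ ^ 2 - a - X₁ - X₂) ^ 2 * hr
  · linear_combination (Λ * (X₁ - X₂) + (Y₁ - Y₂)) * hΛ

section val

variable {Γ₀ : Type*} [LinearOrderedCommGroupWithZero Γ₀] (v : Valuation K Γ₀)

lemma nodeB_val_r {r a : K} (hr : r ^ 2 = a) (ha : v a = 1) : v r = 1 := by
  have h : v r ^ 2 = 1 := by rw [← map_pow, hr, ha]
  exact (pow_eq_one_iff.mp h).resolve_right two_ne_zero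

/-- On the branch `Y ≈ r X`: `v (Y + r X) = v X`. -/
lemma nodeB_val_t {r X Y : K} (hr1 : v r = 1) (h2 : v 2 = 1) (hs : v (Y - r * X) < v X) :
    v (Y + r * X) = v X := by
  have h2rX : v (2 * r * X) = v X := by rw [map_mul, map_mul, h2, hr1, one_mul, one_mul]
  have e : Y + r * X = (Y - r * X) + 2 * r * X := by ring
  rw [e, Valuation.map_add_eq_of_lt_right v (by rw [h2rX]; exact hs), h2rX]

/-- On the branch `Y ≈ r X`: `v (Y - r X) = v (X² + b)`. -/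
lemma nodeB_val_s {r X Y b : K} (hr1 : v r = 1) (h2 : v 2 = 1) (hX : v X ≠ 0)
    (hs : v (Y - r * X) < v X) (hst : (Y - r * X) * (Y + r * X) = X * (X ^ 2 + b)) :
    v (Y - r * X) = v (X ^ 2 + b) := by
  have ht := nodeB_val_t v hr1 h2 hs
  have h := congrArg v hst
  rw [map_mul, map_mul, ht, mul_comm] at h
  exact mul_left_cancel₀ hX h

/-- Valuation bookkeeping for rule R1. -/
lemma nodeB_val_R1 {b X₁ X₂ X₃ s₁ s₂ S T : K} {g₁ g₂ h : Γ₀}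
    (hX₁ : v X₁ = g₁) (hX₂ : v X₂ = g₂) (hb : v b = h)
    (hg₁ : g₁ < 1) (hlt : g₂ < g₁) (hh : h < g₁ * g₂)
    (hs₁ : v s₁ = v (X₁ ^ 2 + b)) (hs₂ : v s₂ = v (X₂ ^ 2 + b))
    (I1 : X₁ * X₂ * X₃ * (X₁ - X₂) ^ 2 = (X₁ * s₂ - X₂ * s₁) ^ 2)
    (I2 : T * (X₁ - X₂) = -((s₁ - s₂) * X₃ + (X₁ * s₂ - X₂ * s₁)))
    (I3 : S * T = X₃ * (X₃ ^ 2 + b)) :
    v X₃ = g₁ * g₂ ∧ v S < g₁ * g₂ := by
  have hpos : 0 < g₁ * g₂ := lt_of_le_of_lt zero_le hh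
  have hg₁0 : g₁ ≠ 0 := left_ne_zero_of_mul hpos.ne'
  have hg₂0 : g₂ ≠ 0 := right_ne_zero_of_mul hpos.ne'
  have hg₁p : 0 < g₁ := zero_lt_iff.mpr hg₁0
  have hg₂p : 0 < g₂ := zero_lt_iff.mpr hg₂0
  have hg₁sq : 0 < g₁ ^ 2 := zero_lt_iff.mpr (pow_ne_zero 2 hg₁0)
  have hh1 : h < g₁ ^ 2 := by
    calc h < g₁ * g₂ := hh
      _ ≤ g₁ * g₁ := mul_le_mul_of_nonneg_left hlt.le hg₁p.le
      _ = g₁ ^ 2 := (sq g₁).symm
  have hvs₁ : v s₁ = g₁ ^ 2 := by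
    have hlt' : v b < v (X₁ ^ 2) := by rw [map_pow, hX₁, hb]; exact hh1
    rw [hs₁, Valuation.map_add_eq_of_lt_left v hlt', map_pow, hX₁]
  have hvs₂ : v s₂ ≤ max (g₂ ^ 2) h := by
    rw [hs₂]
    have h' := v.map_add (X₂ ^ 2) b
    rwa [map_pow, hX₂, hb] at h'
  have hB : v (X₂ * s₁) = g₂ * g₁ ^ 2 := by rw [map_mul, hX₂, hvs₁]
  have hA : v (X₁ * s₂) < g₂ * g₁ ^ 2 := by
    rw [map_mul, hX₁]
    refine lt_of_le_of_lt (mul_le_mul_of_nonneg_left hvs₂ hg₁p.le) ?_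
    rcases max_cases (g₂ ^ 2) h with ⟨hm, -⟩ | ⟨hm, -⟩
    · rw [hm]
      calc g₁ * g₂ ^ 2 = (g₁ * g₂) * g₂ := by rw [sq, mul_assoc]
        _ < (g₁ * g₂) * g₁ := mul_lt_mul_of_pos_left hlt hpos
        _ = g₂ * g₁ ^ 2 := by rw [sq]; ac_rfl
    · rw [hm]
      calc g₁ * h < g₁ * (g₁ * g₂) := mul_lt_mul_of_pos_left hh hg₁p
        _ = g₂ * g₁ ^ 2 := by rw [sq]; ac_rfl
  have hN : v (X₁ * s₂ - X₂ * s₁) = g₂ * g₁ ^ 2 := by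
    rw [Valuation.map_sub_eq_of_lt_right v (by rw [hB]; exact hA), hB]
  have hD : v (X₁ - X₂) = g₁ := by
    rw [Valuation.map_sub_eq_of_lt_left v (by rw [hX₁, hX₂]; exact hlt), hX₁]
  have hX₃ : v X₃ = g₁ * g₂ := by
    have h' := congrArg v I1
    simp only [map_mul, map_pow, hX₁, hX₂, hD, hN] at h'
    have hne : g₁ * g₂ * g₁ ^ 2 ≠ 0 := mul_ne_zero hpos.ne' (pow_ne_zero _ hg₁0)
    apply mul_left_cancel₀ hne
    calc g₁ * g₂ * g₁ ^ 2 * v X₃ = g₁ * g₂ * v X₃ * g₁ ^ 2 := by ac_rfl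
      _ = (g₂ * g₁ ^ 2) ^ 2 := h'
      _ = g₁ * g₂ * g₁ ^ 2 * (g₁ * g₂) := by simp only [sq]; ac_rfl
  refine ⟨hX₃, ?_⟩
  have hT : v T = g₁ * g₂ := by
    have hsub : v ((s₁ - s₂) * X₃) < v (X₁ * s₂ - X₂ * s₁) := by
      rw [hN, map_mul, hX₃]
      have h12 : v (s₁ - s₂) ≤ g₁ ^ 2 := by
        refine (v.map_sub _ _).trans (max_le hvs₁.le (hvs₂.trans (max_le ?_ hh1.le)))
        exact pow_le_pow_left₀ zero_le hlt.le 2
      calc v (s₁ - s₂) * (g₁ * g₂) ≤ g₁ ^ 2 * (g₁ * g₂) :=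
            mul_le_mul_of_nonneg_right h12 hpos.le
        _ = g₁ * (g₂ * g₁ ^ 2) := by simp only [sq]; ac_rfl
        _ < 1 * (g₂ * g₁ ^ 2) := mul_lt_mul_of_pos_right hg₁ (mul_pos hg₂p hg₁sq)
        _ = g₂ * g₁ ^ 2 := one_mul _
    have h' := congrArg v I2
    rw [map_mul, Valuation.map_neg, Valuation.map_add_eq_of_lt_right v hsub, hD, hN] at h'
    apply mul_right_cancel₀ hg₁0
    rw [h', sq]; ac_rfl
  have hS : v S * (g₁ * g₂) = g₁ * g₂ * v (X₃ ^ 2 + b) := by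
    have h' := congrArg v I3
    rwa [map_mul, map_mul, hT, hX₃] at h'
  have hlast : v (X₃ ^ 2 + b) < g₁ * g₂ := by
    refine v.map_add_lt ?_ (by rw [hb]; exact hh)
    rw [map_pow, hX₃, sq]
    have h1 : g₁ * g₂ < 1 := by
      calc g₁ * g₂ < 1 * g₂ := mul_lt_mul_of_pos_right hg₁ hg₂p
        _ = g₂ := one_mul _
        _ < 1 := hlt.trans hg₁
    exact mul_lt_of_lt_one_left hpos h1
  have hSeq : v S = v (X₃ ^ 2 + b) := by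
    apply mul_right_cancel₀ hpos.ne'
    rw [hS, mul_comm]
  rw [hSeq]; exact hlast

/-- Valuation bookkeeping for rule R2. -/
lemma nodeB_val_R2 {b X₁ X₂ X₃ s₁ s₂ : K} {g₁ g₂ h : Γ₀}
    (hX₁ : v X₁ = g₁) (hX₂ : v X₂ = g₂) (hb : v b = h)
    (hlt : g₂ < g₁) (hg₂0 : g₂ ≠ 0) (hh : g₁ * g₂ = h)
    (hs₁ : v s₁ = v (X₁ ^ 2 + b)) (hs₂ : v s₂ = v (X₂ ^ 2 + b))
    (I1 : X₁ * X₂ * X₃ * (X₁ - X₂) ^ 2 = (X₁ * s₂ - X₂ * s₁) ^ 2) :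
    v X₃ ≤ h := by
  have hg₂p : 0 < g₂ := zero_lt_iff.mpr hg₂0
  have hg₁p : 0 < g₁ := hg₂p.trans hlt
  have hg₁0 : g₁ ≠ 0 := hg₁p.ne'
  have hg₁sq : 0 < g₁ ^ 2 := zero_lt_iff.mpr (pow_ne_zero 2 hg₁0)
  have hh1 : h ≤ g₁ ^ 2 := by
    rw [← hh, sq]; exact mul_le_mul_of_nonneg_left hlt.le hg₁p.le
  have hh2 : g₂ ^ 2 ≤ h := by
    rw [← hh, sq]; exact mul_le_mul_of_nonneg_right hlt.le hg₂p.le
  have hvs₁ : v s₁ ≤ g₁ ^ 2 := by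
    rw [hs₁]; refine v.map_add_le ?_ ?_
    · rw [map_pow, hX₁]
    · rw [hb]; exact hh1
  have hvs₂ : v s₂ ≤ h := by
    rw [hs₂]; refine v.map_add_le ?_ ?_
    · rw [map_pow, hX₂]; exact hh2
    · rw [hb]
  have hN : v (X₁ * s₂ - X₂ * s₁) ≤ g₁ * h := by
    refine v.map_sub_le ?_ ?_
    · rw [map_mul, hX₁]; exact mul_le_mul_of_nonneg_left hvs₂ hg₁p.le
    · rw [map_mul, hX₂]
      calc g₂ * v s₁ ≤ g₂ * g₁ ^ 2 := mul_le_mul_of_nonneg_left hvs₁ hg₂p.le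
        _ = g₁ * h := by rw [← hh, sq]; ac_rfl
  have hD : v (X₁ - X₂) = g₁ := by
    rw [Valuation.map_sub_eq_of_lt_left v (by rw [hX₁, hX₂]; exact hlt), hX₁]
  have h' := congrArg v I1
  simp only [map_mul, map_pow, hX₁, hX₂, hD] at h'
  have hle : g₁ * g₂ * g₁ ^ 2 * v X₃ ≤ g₁ * g₂ * g₁ ^ 2 * h := by
    calc g₁ * g₂ * g₁ ^ 2 * v X₃ = g₁ * g₂ * v X₃ * g₁ ^ 2 := by ac_rfl
      _ = v (X₁ * s₂ - X₂ * s₁) ^ 2 := h'
      _ ≤ (g₁ * h) ^ 2 := pow_le_pow_left₀ zero_le hN 2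
      _ = g₁ * g₂ * g₁ ^ 2 * h := by rw [← hh]; simp only [sq]; ac_rfl
  exact le_of_mul_le_mul_left hle (mul_pos (mul_pos hg₁p hg₂p) hg₁sq)

/-- In the middle region, `v (Y - r X) ^ 2 = v X * v b`. -/
lemma nodeB_val_M {b r X₀ s₀ t₀ : K} {g₀ h : Γ₀}
    (hr1 : v r = 1) (h2 : v 2 = 1) (hX₀ : v X₀ = g₀) (hb : v b = h)
    (hg₀0 : g₀ ≠ 0) (hle : g₀ ≤ h) (hh1 : h < 1)
    (hst : s₀ * t₀ = X₀ * (X₀ ^ 2 + b)) (htd : t₀ - s₀ = 2 * r * X₀) :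
    v s₀ ^ 2 = g₀ * h := by
  have hg₀p : 0 < g₀ := zero_lt_iff.mpr hg₀0
  have hhp : 0 < h := lt_of_lt_of_le hg₀p hle
  have hsq : v (X₀ ^ 2 + b) = h := by
    have hlt' : v (X₀ ^ 2) < v b := by
      rw [map_pow, hX₀, hb, sq]
      calc g₀ * g₀ ≤ h * g₀ := mul_le_mul_of_nonneg_right hle hg₀p.le
        _ ≤ h * h := mul_le_mul_of_nonneg_left hle hhp.le
        _ < h * 1 := mul_lt_mul_of_pos_left hh1 hhp
        _ = h := mul_one h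
    rw [Valuation.map_add_eq_of_lt_right v hlt', hb]
  have hprod : v s₀ * v t₀ = g₀ * h := by
    have h' := congrArg v hst
    rwa [map_mul, map_mul, hX₀, hsq] at h'
  have hdiff : v (t₀ - s₀) = g₀ := by
    rw [htd, map_mul, map_mul, h2, hr1, one_mul, one_mul, hX₀]
  have hgg : g₀ * g₀ ≤ g₀ * h := mul_le_mul_of_nonneg_left hle hg₀p.le
  rcases lt_trichotomy (v s₀) (v t₀) with hlt | heq | hgt
  · exfalso
    have ht : v t₀ = g₀ := by rw [← hdiff, Valuation.map_sub_eq_of_lt_left v hlt]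
    rw [ht] at hlt hprod
    have h' : v s₀ * g₀ < g₀ * g₀ := mul_lt_mul_of_pos_right hlt hg₀p
    rw [hprod] at h'
    exact absurd hgg (not_le.mpr h')
  · rw [← hprod, ← heq, sq]
  · exfalso
    have hs : v s₀ = g₀ := by rw [← hdiff, Valuation.map_sub_eq_of_lt_right v hgt]
    rw [hs] at hgt hprod
    have h' : g₀ * v t₀ < g₀ * g₀ := mul_lt_mul_of_pos_left hgt hg₀p
    rw [hprod] at h'
    exact absurd hgg (not_le.mpr h')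

/-- Valuation bookkeeping for rule R3, generic case `X₀ ≠ 0`. -/
lemma nodeB_val_R3 {b X₀ X₁ X₃ s₀ s₁ T : K} {g₀ g h : Γ₀}
    (hX₀ : v X₀ = g₀) (hX₁ : v X₁ = g) (hb : v b = h)
    (hg₀0 : g₀ ≠ 0) (hle : g₀ ≤ h) (hg1 : g < 1) (hhg : h < g ^ 2)
    (hs₀ : v s₀ ^ 2 = g₀ * h) (hs₁ : v s₁ = v (X₁ ^ 2 + b))
    (I1 : X₀ * X₁ * X₃ * (X₀ - X₁) ^ 2 = (X₀ * s₁ - X₁ * s₀) ^ 2)
    (I2 : T * (X₀ - X₁) = -((s₀ - s₁) * X₃ + (X₀ * s₁ - X₁ * s₀))) :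
    v X₃ * g = h ∧ v T * g < h := by
  have hg₀p : 0 < g₀ := zero_lt_iff.mpr hg₀0
  have hhp : 0 < h := lt_of_lt_of_le hg₀p hle
  have hgsqp : 0 < g ^ 2 := lt_of_le_of_lt zero_le hhg
  have hg0 : g ≠ 0 := (pow_ne_zero_iff two_ne_zero).mp hgsqp.ne'
  have hgp : 0 < g := zero_lt_iff.mpr hg0
  have hgsq : g ^ 2 < g := by
    rw [sq]; exact mul_lt_of_lt_one_left hgp hg1
  have hhg' : h < g := hhg.trans hgsq
  have hvs₁ : v s₁ = g ^ 2 := by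
    have hlt' : v b < v (X₁ ^ 2) := by rw [map_pow, hX₁, hb]; exact hhg
    rw [hs₁, Valuation.map_add_eq_of_lt_left v hlt', map_pow, hX₁]
  have hs₀le : v s₀ ≤ h := by
    have h' : v s₀ ^ 2 ≤ h ^ 2 := by
      rw [hs₀, sq]; exact mul_le_mul_of_nonneg_right hle hhp.le
    exact (sq_le_sq₀ zero_le zero_le).mp h'
  have hcmp : v (X₀ * s₁) < v (X₁ * s₀) := by
    rw [map_mul, map_mul, hX₀, hX₁, hvs₁]
    apply (sq_lt_sq₀ zero_le zero_le).mp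
    rw [mul_pow, mul_pow, hs₀]
    calc g₀ ^ 2 * (g ^ 2) ^ 2 = (g ^ 2 * g₀) * (g₀ * g ^ 2) := by simp only [sq]; ac_rfl
      _ < (g ^ 2 * g₀) * h := by
          refine mul_lt_mul_of_pos_left ?_ (mul_pos hgsqp hg₀p)
          calc g₀ * g ^ 2 ≤ h * g ^ 2 := mul_le_mul_of_nonneg_right hle zero_le
            _ < h * 1 := mul_lt_mul_of_pos_left (hgsq.trans hg1) hhp
            _ = h := mul_one h
      _ = g ^ 2 * (g₀ * h) := by ac_rfl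
  have hN : v (X₀ * s₁ - X₁ * s₀) = g * v s₀ := by
    rw [Valuation.map_sub_eq_of_lt_right v hcmp, map_mul, hX₁]
  have hD : v (X₀ - X₁) = g := by
    have hlt' : v X₀ < v X₁ := by rw [hX₀, hX₁]; exact lt_of_le_of_lt hle hhg'
    rw [Valuation.map_sub_eq_of_lt_right v hlt', hX₁]
  have hX₃ : v X₃ * g = h := by
    have h' := congrArg v I1
    simp only [map_mul, map_pow, hX₀, hX₁, hD, hN, mul_pow, hs₀] at h'
    apply mul_left_cancel₀ (mul_ne_zero hg₀0 (pow_ne_zero 2 hg0))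
    calc g₀ * g ^ 2 * (v X₃ * g) = g₀ * g * v X₃ * g ^ 2 := by ac_rfl
      _ = g ^ 2 * (g₀ * h) := h'
      _ = g₀ * g ^ 2 * h := by ac_rfl
  refine ⟨hX₃, ?_⟩
  have hT : v T * g ≤ g * h := by
    have h' := congrArg v I2
    rw [map_mul, Valuation.map_neg, hD] at h'
    rw [h']
    refine v.map_add_le ?_ ?_
    · rw [map_mul]
      have h01 : v (s₀ - s₁) ≤ g ^ 2 :=
        (v.map_sub _ _).trans (max_le (hs₀le.trans hhg.le) hvs₁.le)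
      calc v (s₀ - s₁) * v X₃ ≤ g ^ 2 * v X₃ := mul_le_mul_of_nonneg_right h01 zero_le
        _ = g * (v X₃ * g) := by rw [sq]; ac_rfl
        _ = g * h := by rw [hX₃]
    · rw [hN]; exact mul_le_mul_of_nonneg_left hs₀le zero_le
  have hTle : v T ≤ h := by
    rw [mul_comm] at hT
    exact le_of_mul_le_mul_left hT hgp
  calc v T * g ≤ h * g := mul_le_mul_of_nonneg_right hTle zero_le
    _ < h * 1 := mul_lt_mul_of_pos_left hg1 hhp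
    _ = h := mul_one h

/-- Valuation bookkeeping for rule R3, special case `T = (0, 0)`. -/
lemma nodeB_val_R3zero {b X₁ X₃ s₁ T : K} {g h : Γ₀}
    (hX₁ : v X₁ = g) (hb : v b = h) (hh0 : h ≠ 0) (hs₁ : v s₁ < g)
    (J1 : X₃ * X₁ = b) (J2 : T * X₁ = -(s₁ * X₃)) :
    v X₃ * g = h ∧ v T * g < h := by
  have hX₃ : v X₃ * g = h := by rw [← hX₁, ← map_mul, J1, hb]
  refine ⟨hX₃, ?_⟩
  have hX₃p : 0 < v X₃ := zero_lt_iff.mpr (left_ne_zero_of_mul (hX₃ ▸ hh0))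
  have h' := congrArg v J2
  rw [map_mul, Valuation.map_neg, map_mul, hX₁] at h'
  rw [h', ← hX₃, mul_comm (v X₃) g]
  exact mul_lt_mul_of_pos_right hs₁ hX₃p

end val

end helpers

/-! ### The three rules -/

variable {K : Type*} [Field K] [DecidableEq K] (A : ValuationSubring K) (a b : K)

theorem inC_add (r : K) (hr : r ^ 2 = a) (ha : A.valuation a = 1) (hb : A.valuation b < 1)
    (h2 : A.valuation (2 : K) = 1) {g₁ g₂ : A.ValueGroup} {P₁ P₂ : (shortW a b).toAffine.Point}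
    (h₁ : InC a b A r g₁ P₁) (h₂ : InC a b A r g₂ P₂) (hlt : g₂ < g₁)
    (hh : A.valuation b < g₁ * g₂) : InC a b A r (g₁ * g₂) (P₁ + P₂) := by
  obtain ⟨X₁, Y₁, hP₁, rfl, hX₁, hbg₁, hg₁, hs₁⟩ := h₁
  obtain ⟨X₂, Y₂, hP₂, rfl, hX₂, hbg₂, hg₂, hs₂⟩ := h₂
  have _hb := hb
  have hr1 : A.valuation r = 1 := nodeB_val_r A.valuation hr ha
  have hx : X₁ ≠ X₂ := by
    rintro rfl; rw [hX₁] at hX₂; exact absurd hX₂ hlt.ne'
  obtain ⟨X₃, Y₃, h₃, hadd, I1, I2, I3, -⟩ := nodeB_secant r hr hP₁ hP₂ hx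
  have e₁ := (shortW_equation_iff a b X₁ Y₁).mp hP₁.1
  have e₂ := (shortW_equation_iff a b X₂ Y₂).mp hP₂.1
  have st₁ : (Y₁ - r * X₁) * (Y₁ + r * X₁) = X₁ * (X₁ ^ 2 + b) := by
    linear_combination e₁ - X₁ ^ 2 * hr
  have st₂ : (Y₂ - r * X₂) * (Y₂ + r * X₂) = X₂ * (X₂ ^ 2 + b) := by
    linear_combination e₂ - X₂ ^ 2 * hr
  have hX₁0 : A.valuation X₁ ≠ 0 := by rw [hX₁]; exact (lt_of_le_of_lt zero_le hbg₁).ne'
  have hX₂0 : A.valuation X₂ ≠ 0 := by rw [hX₂]; exact (lt_of_le_of_lt zero_le hbg₂).ne'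
  have hvs₁ := nodeB_val_s A.valuation hr1 h2 hX₁0 (by rw [hX₁]; exact hs₁) st₁
  have hvs₂ := nodeB_val_s A.valuation hr1 h2 hX₂0 (by rw [hX₂]; exact hs₂) st₂
  obtain ⟨hX₃, hS⟩ := nodeB_val_R1 A.valuation hX₁ hX₂ rfl hg₁ hlt hh hvs₁ hvs₂ I1 I2 I3
  refine ⟨X₃, Y₃, h₃, hadd, hX₃, hh, ?_, hS⟩
  calc g₁ * g₂ ≤ g₁ * 1 := mul_le_mul_of_nonneg_left hg₂.le zero_le
    _ = g₁ := mul_one g₁
    _ < 1 := hg₁

theorem inM_add (r : K) (hr : r ^ 2 = a) (ha : A.valuation a = 1) (hb : A.valuation b < 1)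
    (h2 : A.valuation (2 : K) = 1) {g₁ g₂ : A.ValueGroup} {P₁ P₂ : (shortW a b).toAffine.Point}
    (h₁ : InC a b A r g₁ P₁) (h₂ : InC a b A r g₂ P₂) (hlt : g₂ < g₁)
    (hh : g₁ * g₂ = A.valuation b) : InM a b A (P₁ + P₂) := by
  obtain ⟨X₁, Y₁, hP₁, rfl, hX₁, hbg₁, hg₁, hs₁⟩ := h₁
  obtain ⟨X₂, Y₂, hP₂, rfl, hX₂, hbg₂, hg₂, hs₂⟩ := h₂
  have _hb := hb
  have hr1 : A.valuation r = 1 := nodeB_val_r A.valuation hr ha
  have hx : X₁ ≠ X₂ := by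
    rintro rfl; rw [hX₁] at hX₂; exact absurd hX₂ hlt.ne'
  obtain ⟨X₃, Y₃, h₃, hadd, I1, -, -, -⟩ := nodeB_secant r hr hP₁ hP₂ hx
  have e₁ := (shortW_equation_iff a b X₁ Y₁).mp hP₁.1
  have e₂ := (shortW_equation_iff a b X₂ Y₂).mp hP₂.1
  have st₁ : (Y₁ - r * X₁) * (Y₁ + r * X₁) = X₁ * (X₁ ^ 2 + b) := by
    linear_combination e₁ - X₁ ^ 2 * hr
  have st₂ : (Y₂ - r * X₂) * (Y₂ + r * X₂) = X₂ * (X₂ ^ 2 + b) := by
    linear_combination e₂ - X₂ ^ 2 * hr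
  have hg₁0 : g₁ ≠ 0 := (lt_of_le_of_lt zero_le hbg₁).ne'
  have hg₂0 : g₂ ≠ 0 := (lt_of_le_of_lt zero_le hbg₂).ne'
  have hX₁0 : A.valuation X₁ ≠ 0 := by rw [hX₁]; exact hg₁0
  have hX₂0 : A.valuation X₂ ≠ 0 := by rw [hX₂]; exact hg₂0
  have hvs₁ := nodeB_val_s A.valuation hr1 h2 hX₁0 (by rw [hX₁]; exact hs₁) st₁
  have hvs₂ := nodeB_val_s A.valuation hr1 h2 hX₂0 (by rw [hX₂]; exact hs₂) st₂
  exact ⟨X₃, Y₃, h₃, hadd, nodeB_val_R2 A.valuation hX₁ hX₂ rfl hlt hg₂0 hh hvs₁ hvs₂ I1⟩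

theorem inC_neg_add_of_inM (r : K) (hr : r ^ 2 = a) (ha : A.valuation a = 1)
    (hb : A.valuation b < 1)
    (hb0 : b ≠ 0) (h2 : A.valuation (2 : K) = 1) {g : A.ValueGroup}
    {T Q : (shortW a b).toAffine.Point}
    (hT : InM a b A T) (hQ : InC a b A r g Q) (hg : A.valuation b < g ^ 2) :
    InC a b A r (A.valuation b / g) (-(T + Q)) := by
  obtain ⟨X₀, Y₀, hP₀, rfl, hX₀⟩ := hT
  obtain ⟨X₁, Y₁, hP₁, rfl, hX₁, hbg, hg1, hs₁⟩ := hQ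
  have hr1 : A.valuation r = 1 := nodeB_val_r A.valuation hr ha
  have hh0 : A.valuation b ≠ 0 := (Valuation.ne_zero_iff _).mpr hb0
  have hhp : 0 < A.valuation b := zero_lt_iff.mpr hh0
  have hgp : 0 < g := hhp.trans hbg
  have hg0 : g ≠ 0 := hgp.ne'
  have hx : X₀ ≠ X₁ := by
    rintro rfl; rw [hX₁] at hX₀; exact absurd hbg (not_lt.mpr hX₀)
  obtain ⟨X₃, Y₃, h₃, hadd, I1, I2, -, I4⟩ := nodeB_secant r hr hP₀ hP₁ hx
  have e₀ := (shortW_equation_iff a b X₀ Y₀).mp hP₀.1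
  have e₁ := (shortW_equation_iff a b X₁ Y₁).mp hP₁.1
  have st₁ : (Y₁ - r * X₁) * (Y₁ + r * X₁) = X₁ * (X₁ ^ 2 + b) := by
    linear_combination e₁ - X₁ ^ 2 * hr
  have hX₁0 : A.valuation X₁ ≠ 0 := by rw [hX₁]; exact hg0
  have hX₁ne : X₁ ≠ 0 := (Valuation.ne_zero_iff _).mp hX₁0
  have hvs₁ := nodeB_val_s A.valuation hr1 h2 hX₁0 (by rw [hX₁]; exact hs₁) st₁
  have key : A.valuation X₃ * g = A.valuation b ∧
      A.valuation (Y₃ + r * X₃) * g < A.valuation b := by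
    by_cases hX₀0 : X₀ = 0
    · subst hX₀0
      have hY₀ : Y₀ = 0 := by
        have h' : Y₀ ^ 2 = 0 := by rw [e₀]; ring
        exact (pow_eq_zero_iff two_ne_zero).mp h'
      subst hY₀
      have J1 : X₃ * X₁ = b := by
        have h' : X₃ * X₁ ^ 2 = b * X₁ := by linear_combination I4 + e₁
        apply mul_right_cancel₀ hX₁ne
        linear_combination h'
      have J2 : (Y₃ + r * X₃) * X₁ = -((Y₁ - r * X₁) * X₃) := by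
        linear_combination (-1 : K) * I2
      exact nodeB_val_R3zero A.valuation hX₁ rfl hh0 hs₁ J1 J2
    · have st₀ : (Y₀ - r * X₀) * (Y₀ + r * X₀) = X₀ * (X₀ ^ 2 + b) := by
        linear_combination e₀ - X₀ ^ 2 * hr
      have td₀ : (Y₀ + r * X₀) - (Y₀ - r * X₀) = 2 * r * X₀ := by ring
      have hg₀0 : A.valuation X₀ ≠ 0 := (Valuation.ne_zero_iff _).mpr hX₀0
      have hs₀ := nodeB_val_M A.valuation hr1 h2 rfl rfl hg₀0 hX₀ hb st₀ td₀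
      exact nodeB_val_R3 A.valuation rfl hX₁ rfl hg₀0 hX₀ hg1 hg hs₀ hvs₁ I1 I2
  obtain ⟨hX₃, hT₃⟩ := key
  refine ⟨X₃, (shortW a b).toAffine.negY X₃ Y₃, (Affine.nonsingular_neg ..).mpr h₃,
    by rw [hadd, Affine.Point.neg_some], (eq_div_iff hg0).mpr hX₃, ?_, ?_, ?_⟩
  · rw [lt_div_iff₀ hgp]
    exact mul_lt_of_lt_one_right hhp hg1
  · rw [div_lt_iff₀ hgp, one_mul]; exact hbg
  · rw [shortW_negY, lt_div_iff₀ hgp]
    have e : -Y₃ - r * X₃ = -(Y₃ + r * X₃) := by ring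
    rw [e, Valuation.map_neg]; exact hT₃

end Fermat.Agent.S05
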