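import Mathlib

set_option autoImplicit false

namespace Fermat.Agent.S05

open WeierstrassCurve WeierstrassCurve.Affine

variable {K : Type*} [Field K] (A : ValuationSubring K)

theorem h18_nu_mul_mem {s t : K} (hs : s ∈ A.nonunits) (ht : t ∈ A) : s * t ∈ A.nonunits := by
  rw [ValuationSubring.mem_nonunits_iff] at hs ⊢
  rw [← ValuationSubring.valuation_le_one_iff] at ht
  rw [map_mul]
  exact mul_lt_one_of_lt_of_le hs ht

theorem h18_mul_nu_mem {s t : K} (hs : s ∈ A) (ht : t ∈ A.nonunits) : s * t ∈ A.nonunits := by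
  rw [mul_comm]; exact h18_nu_mul_mem A ht hs

theorem h18_nu_mem {s : K} (hs : s ∈ A.nonunits) : s ∈ A := A.nonunits_subset hs

/-- A unit of `A` (an element of `A` outside the nonunits) times a nonunit-free cofactor. -/
theorem h18_unit_of_mul_eq {g s t : K} (hg : g ∉ A.nonunits) (hs : s ∈ A.nonunits) (ht : t ∈ A)
    (h : s * t = g) : False :=
  hg (h ▸ h18_nu_mul_mem A hs ht)

variable (W : Affine K)

/-- A sum of two integral points along a non-integral slope has non-integral `x`-coordinate. -/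
theorem h18_addX_not_mem (h1 : W.a₁ ∈ A) (h2 : W.a₂ ∈ A) {x₁ x₂ ℓ : K} (hℓ : ℓ ∉ A)
    (hx₁ : x₁ ∈ A) (hx₂ : x₂ ∈ A) : W.addX x₁ x₂ ℓ ∉ A := by
  intro ht
  have hℓ0 : ℓ ≠ 0 := fun h => hℓ (h ▸ A.zero_mem)
  have hinv : ℓ⁻¹ ∈ A := (A.mem_or_inv_mem ℓ).resolve_left hℓ
  have hc : W.addX x₁ x₂ ℓ + W.a₂ + x₁ + x₂ ∈ A :=
    A.add_mem _ _ (A.add_mem _ _ (A.add_mem _ _ ht h2) hx₁) hx₂
  have key : ℓ = (W.addX x₁ x₂ ℓ + W.a₂ + x₁ + x₂) * ℓ⁻¹ - W.a₁ := by
    simp only [addX]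
    field_simp
    ring
  apply hℓ
  rw [key]
  exact A.sub_mem (A.mul_mem _ _ hc hinv) h1

/-- The hypotheses "all Weierstrass coefficients are integral". -/
structure h18_Integral : Prop where
  a₁ : W.a₁ ∈ A
  a₂ : W.a₂ ∈ A
  a₃ : W.a₃ ∈ A
  a₄ : W.a₄ ∈ A
  a₆ : W.a₆ ∈ A

variable {A W}

theorem h18_polynomialX_mem (hW : h18_Integral A W) {x y : K} (hx : x ∈ A) (hy : y ∈ A) :
    W.polynomialX.evalEval x y ∈ A := by
  rw [evalEval_polynomialX]
  have h2 : (2 : K) ∈ A := ofNat_mem A 2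
  have h3 : (3 : K) ∈ A := ofNat_mem A 3
  exact A.sub_mem (A.mul_mem _ _ hW.a₁ hy)
    (A.add_mem _ _ (A.add_mem _ _ (A.mul_mem _ _ h3 (pow_mem hx 2))
      (A.mul_mem _ _ (A.mul_mem _ _ h2 hW.a₂) hx)) hW.a₄)

variable [DecidableEq K]

/-- Key valuation computation: if `(x', y')` is congruent to `(x, y)` modulo the maximal ideal,
`(x, y)` is integral with nonsingular reduction and the points differ, then the slope of the line
through `(x', y')` and `-(x, y)` is not integral. -/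
theorem h18_slope_not_mem (hW : h18_Integral A W) {x y x' y' : K}
    (h : W.Equation x y) (h' : W.Equation x' y') (hx : x ∈ A) (hy : y ∈ A)
    (hxx : x' - x ∈ A.nonunits) (hyy : y' - y ∈ A.nonunits)
    (hns : ¬ (W.polynomialX.evalEval x y ∈ A.nonunits ∧ W.polynomialY.evalEval x y ∈ A.nonunits))
    (hne : ¬ (x' = x ∧ y' = y)) :
    W.slope x' x y' (W.negY x y) ∉ A := by
  have hx' : x' ∈ A := by
    have := A.add_mem _ _ (h18_nu_mem A hxx) hx; rwa [sub_add_cancel] at this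
  have hy' : y' ∈ A := by
    have := A.add_mem _ _ (h18_nu_mem A hyy) hy; rwa [sub_add_cancel] at this
  have h2 : (2 : K) ∈ A := ofNat_mem A 2
  rw [equation_iff] at h h'
  rw [evalEval_polynomialX, evalEval_polynomialY] at hns
  intro hℓ
  by_cases hxe : x' = x
  · -- doubling case
    subst hxe
    have hye : y' ≠ y := fun e => hne ⟨rfl, e⟩
    have hyneg : y' = W.negY x' y := by
      rcases Y_eq_of_X_eq ((equation_iff _ _).2 h') ((equation_iff _ _).2 h) rfl with e | e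
      · exact absurd e hye
      · exact e
    have hyn : y' ≠ W.negY x' (W.negY x' y) := by rwa [negY_negY]
    rw [slope_of_Y_ne rfl hyn] at hℓ
    have hd : y' - W.negY x' y' ≠ 0 := by
      rw [hyneg, negY_negY, ← hyneg]; exact sub_ne_zero.2 hye
    have hdm : y' - W.negY x' y' ∈ A.nonunits := by
      rw [hyneg, negY_negY, ← hyneg]; exact hyy
    -- the numerator is a multiple of the denominator
    have e1 : 3 * x' ^ 2 + 2 * W.a₂ * x' + W.a₄ - W.a₁ * y' =
        (y' - W.negY x' y') * ((3 * x' ^ 2 + 2 * W.a₂ * x' + W.a₄ - W.a₁ * y') /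
          (y' - W.negY x' y')) := by
      field_simp
    have hnum : 3 * x' ^ 2 + 2 * W.a₂ * x' + W.a₄ - W.a₁ * y' ∈ A.nonunits := by
      rw [e1]; exact h18_nu_mul_mem A hdm hℓ
    apply hns
    constructor
    · have : W.a₁ * y - (3 * x' ^ 2 + 2 * W.a₂ * x' + W.a₄) =
          -(3 * x' ^ 2 + 2 * W.a₂ * x' + W.a₄ - W.a₁ * y') + (-W.a₁) * (y' - y) := by ring
      rw [this]
      exact add_mem (neg_mem hnum) (h18_mul_nu_mem A (A.neg_mem _ hW.a₁) hyy)
    · have : 2 * y + W.a₁ * x' + W.a₃ = -(y' - y) := by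
        rw [hyneg]; simp only [negY]; ring
      rw [this]; exact neg_mem hyy
  · rw [slope_of_X_ne hxe] at hℓ
    have hD : x' - x ≠ 0 := sub_ne_zero.2 hxe
    set ℓ := (y' - W.negY x y) / (x' - x) with hℓdef
    have hN : y' - W.negY x y = (x' - x) * ℓ := by
      rw [hℓdef]; field_simp
    have hNm : y' - W.negY x y ∈ A.nonunits := by
      rw [hN]; exact h18_nu_mul_mem A hxx hℓ
    have hu : 2 * y + W.a₁ * x + W.a₃ ∈ A.nonunits := by
      have : 2 * y + W.a₁ * x + W.a₃ = (y' - W.negY x y) + -(y' - y) := by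
        simp only [negY]; ring
      rw [this]; exact add_mem hNm (neg_mem hyy)
    -- the identity (y' - y) (ℓ + a₁) = G
    have hG : (y' - y) * (ℓ + W.a₁) =
        x' ^ 2 + x' * x + x ^ 2 + W.a₂ * (x' + x) + W.a₄ - W.a₁ * y := by
      have e : (x' - x) * ((y' - y) * (ℓ + W.a₁)) =
          (x' - x) * (x' ^ 2 + x' * x + x ^ 2 + W.a₂ * (x' + x) + W.a₄ - W.a₁ * y) := by
        have : (x' - x) * ((y' - y) * (ℓ + W.a₁)) =
            (y' - y) * ((x' - x) * ℓ + W.a₁ * (x' - x)) := by ring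
        rw [this, ← hN]
        simp only [negY]
        linear_combination h' - h
      exact mul_left_cancel₀ hD e
    have hGm : x' ^ 2 + x' * x + x ^ 2 + W.a₂ * (x' + x) + W.a₄ - W.a₁ * y ∈ A.nonunits := by
      rw [← hG]; exact h18_nu_mul_mem A hyy (A.add_mem _ _ hℓ hW.a₁)
    apply hns
    refine ⟨?_, hu⟩
    have : W.a₁ * y - (3 * x ^ 2 + 2 * W.a₂ * x + W.a₄) =
        -(x' ^ 2 + x' * x + x ^ 2 + W.a₂ * (x' + x) + W.a₄ - W.a₁ * y) +
          (x' - x) * (x' + 2 * x + W.a₂) := by ring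
    rw [this]
    exact add_mem (neg_mem hGm) (h18_nu_mul_mem A hxx
      (A.add_mem _ _ (A.add_mem _ _ hx' (A.mul_mem _ _ h2 hx)) hW.a₂))

/-- **L-red.** If `P' ≡ P` modulo the maximal ideal of `A`, `P` is integral and its reduction is
a nonsingular point, then `P' - P` lies in the kernel of reduction. -/
theorem h18_sub_mem_E1 (hW : h18_Integral A W) {x y x' y' : K}
    (h : W.Nonsingular x y) (h' : W.Nonsingular x' y') (hx : x ∈ A) (hy : y ∈ A)
    (hxx : x' - x ∈ A.nonunits) (hyy : y' - y ∈ A.nonunits)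
    (hns : ¬ (W.polynomialX.evalEval x y ∈ A.nonunits ∧
      W.polynomialY.evalEval x y ∈ A.nonunits)) :
    Point.some x' y' h' - Point.some x y h = 0 ∨
      ∃ (x₃ y₃ : K) (h₃ : W.Nonsingular x₃ y₃),
        Point.some x' y' h' - Point.some x y h = Point.some x₃ y₃ h₃ ∧ x₃ ∉ A := by
  by_cases hne : x' = x ∧ y' = y
  · obtain ⟨rfl, rfl⟩ := hne
    exact Or.inl (sub_self _)
  · right
    have hx' : x' ∈ A := by
      have := A.add_mem _ _ (h18_nu_mem A hxx) hx; rwa [sub_add_cancel] at this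
    have hxy : ¬ (x' = x ∧ y' = W.negY x (W.negY x y)) := by rwa [negY_negY]
    rw [sub_eq_add_neg, Point.neg_some, Point.add_some hxy]
    exact ⟨_, _, _, rfl, h18_addX_not_mem A W hW.a₁ hW.a₂
      (h18_slope_not_mem hW h.1 h'.1 hx hy hxx hyy hns hne) hx' hx⟩

omit [DecidableEq K] in
/-- Integrality of the `y`-coordinate of a point with integral `x`-coordinate. -/
theorem h18_y_mem (hW : h18_Integral A W) {x y : K} (h : W.Equation x y) (hx : x ∈ A) :
    y ∈ A := by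
  by_contra hy
  have hy0 : y ≠ 0 := fun h0 => hy (h0 ▸ A.zero_mem)
  have hinv : y⁻¹ ∈ A := (A.mem_or_inv_mem y).resolve_left hy
  have h1 := hW.a₁; have h2 := hW.a₂; have h3 := hW.a₃; have h4 := hW.a₄; have h6 := hW.a₆
  have hmem : (x ^ 3 + W.a₂ * x ^ 2 + W.a₄ * x + W.a₆) * y⁻¹ - (W.a₁ * x + W.a₃) ∈ A := by
    clear h hy
    aesop
  rw [equation_iff] at h
  have key : y = (x ^ 3 + W.a₂ * x ^ 2 + W.a₄ * x + W.a₆) * y⁻¹ - (W.a₁ * x + W.a₃) := by
    field_simp
    linear_combination h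
  exact hy (key ▸ hmem)

omit [DecidableEq K] in
/-- The discriminant lies in the ideal generated by `a₃` and `a₄` when `a₆ = 0`. -/
theorem h18_Δ_of_a₆_eq_zero (W : WeierstrassCurve K) (h6 : W.a₆ = 0) :
    W.Δ = W.a₃ * (W.b₂ ^ 2 * (W.a₁ * W.a₄ - W.a₂ * W.a₃) - 8 * W.a₁ * W.b₄ ^ 2 - 27 * W.a₃ ^ 3 +
        9 * W.b₂ * W.b₄ * W.a₃) + W.a₄ * (W.b₂ ^ 2 * W.a₄ - 16 * W.b₄ ^ 2) := by
  rw [WeierstrassCurve.Δ, WeierstrassCurve.b₈, WeierstrassCurve.b₆, WeierstrassCurve.b₄,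
    WeierstrassCurve.b₂, h6]
  ring

omit [DecidableEq K] in
/-- **Good reduction.** If the discriminant is a unit of `A`, every integral point has nonsingular
reduction. -/
theorem h18_nonsingular_reduction_of_Δ_unit (hW : h18_Integral A W) (hΔ : W.Δ ∉ A.nonunits)
    {x y : K} (heq : W.Equation x y) (hx : x ∈ A) :
    ¬ (W.polynomialX.evalEval x y ∈ A.nonunits ∧ W.polynomialY.evalEval x y ∈ A.nonunits) := by
  rintro ⟨hX, hY⟩
  apply hΔ
  have h1 := hW.a₁; have h2 := hW.a₂; have h3 := hW.a₃; have h4 := hW.a₄; have h6 := hW.a₆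
  set W₀ : WeierstrassCurve K := VariableChange.mk 1 x 0 y • W with hW₀
  have e6 : W₀.a₆ = 0 := by
    have := (equation_iff_variableChange (W := W) x y).1 heq
    exact (equation_zero (W := W₀)).1 this
  have eΔ : W₀.Δ = W.Δ := by
    rw [hW₀, variableChange_Δ]; simp
  have e1 : W₀.a₁ = W.a₁ := by rw [hW₀, variableChange_a₁]; simp
  have e2 : W₀.a₂ = W.a₂ + 3 * x := by rw [hW₀, variableChange_a₂]; simp
  have e3 : W₀.a₃ = W.polynomialY.evalEval x y := by
    rw [hW₀, variableChange_a₃, evalEval_polynomialY]; simp; ring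
  have e4 : W₀.a₄ = -W.polynomialX.evalEval x y := by
    rw [hW₀, variableChange_a₄, evalEval_polynomialX]; simp; ring
  have m1 : W₀.a₁ ∈ A := e1 ▸ h1
  have m2 : W₀.a₂ ∈ A := by rw [e2]; aesop
  have m3 : W₀.a₃ ∈ A.nonunits := e3 ▸ hY
  have m4 : W₀.a₄ ∈ A.nonunits := e4 ▸ neg_mem hX
  have m3' : W₀.a₃ ∈ A := h18_nu_mem A m3
  have m4' : W₀.a₄ ∈ A := h18_nu_mem A m4
  have mb2 : W₀.b₂ ∈ A := by simp only [WeierstrassCurve.b₂]; aesop
  have mb4 : W₀.b₄ ∈ A := by simp only [WeierstrassCurve.b₄]; aesop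
  rw [← eΔ, h18_Δ_of_a₆_eq_zero W₀ e6]
  refine add_mem (h18_nu_mul_mem A m3 ?_) (h18_nu_mul_mem A m4 ?_)
  · aesop
  · aesop

end Fermat.Agent.S05
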