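import Fermat.Agent.S05.Defs
import Fermat.Agent.S05.h18_Red

set_option autoImplicit false

namespace Fermat.Agent.S05

open WeierstrassCurve

variable {K : Type*} [Field K] [DecidableEq K] (A : ValuationSubring K) (a b : K)

omit [DecidableEq K] in
theorem red_integral (ha : A.valuation a ≤ 1) (hb : A.valuation b ≤ 1) :
    h18_Integral A (shortW a b).toAffine where
  a₁ := by simp
  a₂ := by simpa using (A.valuation_le_one_iff a).1 ha
  a₃ := by simp
  a₄ := by simpa using (A.valuation_le_one_iff b).1 hb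
  a₆ := by simp

omit [DecidableEq K] in
theorem red_polynomialX (X Y : K) :
    (shortW a b).toAffine.polynomialX.evalEval X Y = -(3 * X ^ 2 + 2 * a * X + b) := by
  rw [Affine.evalEval_polynomialX]; simp

omit [DecidableEq K] in
theorem red_polynomialY (X Y : K) :
    (shortW a b).toAffine.polynomialY.evalEval X Y = 2 * Y := by
  rw [Affine.evalEval_polynomialY]; simp

omit [DecidableEq K] in
/-- Translation of the nonsingular-reduction hypothesis to the general Weierstrass form. -/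
theorem red_hns (h2 : A.valuation (2 : K) = 1) {X Y : K}
    (hns : ¬ (A.valuation Y < 1 ∧ A.valuation (3 * X ^ 2 + 2 * a * X + b) < 1)) :
    ¬ ((shortW a b).toAffine.polynomialX.evalEval X Y ∈ A.nonunits ∧
      (shortW a b).toAffine.polynomialY.evalEval X Y ∈ A.nonunits) := by
  rintro ⟨h1, h3⟩
  apply hns
  rw [red_polynomialX, A.mem_nonunits_iff, Valuation.map_neg] at h1
  rw [red_polynomialY, A.mem_nonunits_iff, map_mul, h2, one_mul] at h3
  exact ⟨h3, h1⟩

theorem isE1_sub_of_congr (ha : A.valuation a ≤ 1) (hb : A.valuation b ≤ 1)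
    (h2 : A.valuation (2 : K) = 1) {X Y X' Y' : K}
    (h : (shortW a b).toAffine.Nonsingular X Y) (h' : (shortW a b).toAffine.Nonsingular X' Y')
    (hX : A.valuation X ≤ 1) (hXX : A.valuation (X' - X) < 1) (hYY : A.valuation (Y' - Y) < 1)
    (hns : ¬ (A.valuation Y < 1 ∧ A.valuation (3 * X ^ 2 + 2 * a * X + b) < 1)) :
    IsE1 a b A (Affine.Point.some X' Y' h' - Affine.Point.some X Y h) := by
  have hW := red_integral A a b ha hb
  have hXA : X ∈ A := (A.valuation_le_one_iff X).1 hX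
  have hYA : Y ∈ A := h18_y_mem hW h.1 hXA
  rcases h18_sub_mem_E1 hW h h' hXA hYA (A.mem_nonunits_iff.2 hXX)
    (A.mem_nonunits_iff.2 hYY) (red_hns A a b h2 hns) with h0 | ⟨x₃, y₃, h₃, e, hx₃⟩
  · exact Or.inl h0
  · refine Or.inr ⟨x₃, y₃, h₃, e, ?_⟩
    rw [← not_le, A.valuation_le_one_iff]
    exact hx₃

omit [DecidableEq K] in
theorem ns_of_good (ha : A.valuation a ≤ 1) (hb : A.valuation b = 1)
    (hd : A.valuation (a ^ 2 - 4 * b) = 1) {X Y : K}
    (h : (shortW a b).toAffine.Equation X Y) (hX : A.valuation X ≤ 1) :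
    ¬ (A.valuation Y < 1 ∧ A.valuation (3 * X ^ 2 + 2 * a * X + b) < 1) := by
  rintro ⟨hY, hf'⟩
  rw [shortW_equation_iff] at h
  have haA : a ∈ A := (A.valuation_le_one_iff a).1 ha
  have hbA : b ∈ A := (A.valuation_le_one_iff b).1 hb.le
  have hXA : X ∈ A := (A.valuation_le_one_iff X).1 hX
  have hYm : Y ∈ A.nonunits := A.mem_nonunits_iff.2 hY
  have hfm : 3 * X ^ 2 + 2 * a * X + b ∈ A.nonunits := A.mem_nonunits_iff.2 hf'
  have h2A : (2 : K) ∈ A := ofNat_mem A 2
  have h3A : (3 : K) ∈ A := ofNat_mem A 3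
  have h4A : (4 : K) ∈ A := ofNat_mem A 4
  have h6A : (6 : K) ∈ A := ofNat_mem A 6
  have key : (a ^ 2 - 4 * b) * b ^ 2 =
      (3 * X ^ 2 + 2 * a * X + b) *
        ((b - X * (3 * X + 2 * a)) * (a ^ 2 - 4 * b) + X * (3 * X + 2 * a) ^ 2 * (2 * X + a)) +
      Y * (Y * (-((3 * X + 2 * a) ^ 2 * (6 * X + a)))) := by
    linear_combination ((3 * X + 2 * a) ^ 2 * (6 * X + a)) * h
  have hm : (a ^ 2 - 4 * b) * b ^ 2 ∈ A.nonunits := by
    rw [key]
    refine add_mem (h18_nu_mul_mem A hfm ?_) (h18_nu_mul_mem A hYm ?_)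
    · clear key h; aesop
    · have hYA : Y ∈ A := h18_nu_mem A hYm
      clear key h; aesop
  rw [A.mem_nonunits_iff, map_mul, map_pow, hd, hb] at hm
  simp at hm

omit [DecidableEq K] in
theorem ns_of_mult (ha : A.valuation a = 1) (hb : A.valuation b < 1) {X Y : K}
    (h : (shortW a b).toAffine.Equation X Y) (hX : A.valuation X = 1) :
    ¬ (A.valuation Y < 1 ∧ A.valuation (3 * X ^ 2 + 2 * a * X + b) < 1) := by
  rintro ⟨hY, hf'⟩
  rw [shortW_equation_iff] at h
  have haA : a ∈ A := (A.valuation_le_one_iff a).1 ha.le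
  have hXA : X ∈ A := (A.valuation_le_one_iff X).1 hX.le
  have hbm : b ∈ A.nonunits := A.mem_nonunits_iff.2 hb
  have hYm : Y ∈ A.nonunits := A.mem_nonunits_iff.2 hY
  have hfm : 3 * X ^ 2 + 2 * a * X + b ∈ A.nonunits := A.mem_nonunits_iff.2 hf'
  have h3A : (3 : K) ∈ A := ofNat_mem A 3
  -- `(X + a) * X ^ 2 = Y ^ 2 - b * X` lies in the maximal ideal, and `X` is a unit
  have h1 : (X + a) * X ^ 2 ∈ A.nonunits := by
    have e : (X + a) * X ^ 2 = Y * Y + -(b * X) := by linear_combination -h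
    rw [e]
    exact add_mem (h18_nu_mul_mem A hYm (h18_nu_mem A hYm)) (neg_mem (h18_nu_mul_mem A hbm hXA))
  have h1' : X + a ∈ A.nonunits := by
    rw [A.mem_nonunits_iff, map_mul, map_pow, hX, one_pow, mul_one] at h1
    exact A.mem_nonunits_iff.2 h1
  have h4 : a * X ∈ A.nonunits := by
    have e : a * X = (X + a) * (3 * X) + b + -(3 * X ^ 2 + 2 * a * X + b) := by ring
    rw [e]
    exact add_mem (add_mem (h18_nu_mul_mem A h1' (A.mul_mem _ _ h3A hXA)) hbm) (neg_mem hfm)
  rw [A.mem_nonunits_iff, map_mul, ha, hX] at h4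
  simp at h4

end Fermat.Agent.S05
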