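import Fermat.Agent.S05.Defs

set_option autoImplicit false

namespace Fermat.Agent.S05

open WeierstrassCurve

variable {K : Type*} [Field K] [DecidableEq K] (A : ValuationSubring K) (a b : K)

omit [DecidableEq K] in
/-- A ring automorphism fixing `a` and `b` maps `shortW a b` to itself. -/
lemma Sigma_map_eq (σ : K ≃+* K) (hσa : σ a = a) (hσb : σ b = b) :
    (shortW a b).map (σ : K →+* K) = shortW a b := by
  rw [shortW_map]
  simp [hσa, hσb]

omit [DecidableEq K] in
lemma Sigma_nonsingular (σ : K ≃+* K) (hσa : σ a = a) (hσb : σ b = b) {X Y : K}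
    (h : (shortW a b).toAffine.Nonsingular X Y) :
    (shortW a b).toAffine.Nonsingular (σ X) (σ Y) := by
  have h1 : ((shortW a b).map (σ : K →+* K)).toAffine.Nonsingular
      ((σ : K →+* K) X) ((σ : K →+* K) Y) :=
    (Affine.map_nonsingular (W := (shortW a b).toAffine) (f := (σ : K →+* K))
      σ.injective X Y).mpr h
  rw [Sigma_map_eq a b σ hσa hσb] at h1
  exact h1

omit [DecidableEq K] in
lemma Sigma_negY (σ : K ≃+* K) (hσa : σ a = a) (hσb : σ b = b) (X Y : K) :
    (shortW a b).toAffine.negY (σ X) (σ Y) = σ ((shortW a b).toAffine.negY X Y) := by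
  have h1 := Affine.map_negY (W' := (shortW a b).toAffine) (σ : K →+* K) X Y
  rw [show ((shortW a b).toAffine).map (σ : K →+* K) = (shortW a b).toAffine from
    Sigma_map_eq a b σ hσa hσb] at h1
  exact h1

lemma Sigma_slope (σ : K ≃+* K) (hσa : σ a = a) (hσb : σ b = b) (X₁ X₂ Y₁ Y₂ : K) :
    (shortW a b).toAffine.slope (σ X₁) (σ X₂) (σ Y₁) (σ Y₂) =
      σ ((shortW a b).toAffine.slope X₁ X₂ Y₁ Y₂) := by
  have h1 := Affine.map_slope (W := (shortW a b).toAffine) (σ : K →+* K) X₁ X₂ Y₁ Y₂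
  rw [show ((shortW a b).toAffine).map (σ : K →+* K) = (shortW a b).toAffine from
    Sigma_map_eq a b σ hσa hσb] at h1
  exact h1

omit [DecidableEq K] in
lemma Sigma_addX (σ : K ≃+* K) (hσa : σ a = a) (hσb : σ b = b) (X₁ X₂ ℓ : K) :
    (shortW a b).toAffine.addX (σ X₁) (σ X₂) (σ ℓ) =
      σ ((shortW a b).toAffine.addX X₁ X₂ ℓ) := by
  have h1 := Affine.map_addX (W' := (shortW a b).toAffine) (σ : K →+* K) X₁ X₂ ℓ
  rw [show ((shortW a b).toAffine).map (σ : K →+* K) = (shortW a b).toAffine from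
    Sigma_map_eq a b σ hσa hσb] at h1
  exact h1

omit [DecidableEq K] in
lemma Sigma_addY (σ : K ≃+* K) (hσa : σ a = a) (hσb : σ b = b) (X₁ X₂ Y₁ ℓ : K) :
    (shortW a b).toAffine.addY (σ X₁) (σ X₂) (σ Y₁) (σ ℓ) =
      σ ((shortW a b).toAffine.addY X₁ X₂ Y₁ ℓ) := by
  have h1 := Affine.map_addY (W' := (shortW a b).toAffine) (σ : K →+* K) X₁ Y₁ X₂ ℓ
  rw [show ((shortW a b).toAffine).map (σ : K →+* K) = (shortW a b).toAffine from
    Sigma_map_eq a b σ hσa hσb] at h1
  exact h1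

/-- The action of `σ` on points of `shortW a b`, as a plain function. -/
noncomputable def Sigma_fun (σ : K ≃+* K) (hσa : σ a = a) (hσb : σ b = b) :
    (shortW a b).toAffine.Point → (shortW a b).toAffine.Point
  | 0 => 0
  | Affine.Point.some X Y h => Affine.Point.some (σ X) (σ Y) (Sigma_nonsingular a b σ hσa hσb h)

lemma Sigma_fun_zero (σ : K ≃+* K) (hσa : σ a = a) (hσb : σ b = b) :
    Sigma_fun a b σ hσa hσb 0 = 0 := rfl

lemma Sigma_fun_some (σ : K ≃+* K) (hσa : σ a = a) (hσb : σ b = b) {X Y : K}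
    (h : (shortW a b).toAffine.Nonsingular X Y) :
    Sigma_fun a b σ hσa hσb (Affine.Point.some X Y h) =
      Affine.Point.some (σ X) (σ Y) (Sigma_nonsingular a b σ hσa hσb h) := rfl

lemma Sigma_fun_add (σ : K ≃+* K) (hσa : σ a = a) (hσb : σ b = b)
    (P Q : (shortW a b).toAffine.Point) :
    Sigma_fun a b σ hσa hσb (P + Q) =
      Sigma_fun a b σ hσa hσb P + Sigma_fun a b σ hσa hσb Q := by
  rcases P with _ | ⟨x₁, y₁, h₁⟩
  · change Sigma_fun a b σ hσa hσb (0 + Q) = 0 + Sigma_fun a b σ hσa hσb Q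
    rw [zero_add, zero_add]
  rcases Q with _ | ⟨x₂, y₂, h₂⟩
  · change Sigma_fun a b σ hσa hσb (Affine.Point.some x₁ y₁ h₁ + 0) =
      Sigma_fun a b σ hσa hσb (Affine.Point.some x₁ y₁ h₁) + 0
    rw [add_zero, add_zero]
  by_cases hxy : x₁ = x₂ ∧ y₁ = (shortW a b).toAffine.negY x₂ y₂
  · rw [Affine.Point.add_of_Y_eq hxy.left hxy.right]
    change (0 : (shortW a b).toAffine.Point) =
      Affine.Point.some (σ x₁) (σ y₁) (Sigma_nonsingular a b σ hσa hσb h₁) +
        Affine.Point.some (σ x₂) (σ y₂) (Sigma_nonsingular a b σ hσa hσb h₂)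
    rw [Affine.Point.add_of_Y_eq (congr_arg σ hxy.left)
      (by rw [hxy.right, Sigma_negY a b σ hσa hσb])]
  · have hxy' : ¬ (σ x₁ = σ x₂ ∧ σ y₁ = (shortW a b).toAffine.negY (σ x₂) (σ y₂)) := by
      rintro ⟨hx, hy⟩
      rw [Sigma_negY a b σ hσa hσb] at hy
      exact hxy ⟨σ.injective hx, σ.injective hy⟩
    rw [Affine.Point.add_some hxy]
    change Affine.Point.some (σ _) (σ _) _ =
      Affine.Point.some (σ x₁) (σ y₁) (Sigma_nonsingular a b σ hσa hσb h₁) +
        Affine.Point.some (σ x₂) (σ y₂) (Sigma_nonsingular a b σ hσa hσb h₂)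
    rw [Affine.Point.add_some hxy']
    simp only [Affine.Point.some.injEq]
    refine ⟨?_, ?_⟩
    · rw [Sigma_slope a b σ hσa hσb, Sigma_addX a b σ hσa hσb]
    · rw [Sigma_slope a b σ hσa hσb, Sigma_addY a b σ hσa hσb]

theorem exists_sigmaPt (σ : K ≃+* K) (hσa : σ a = a) (hσb : σ b = b) :
    ∃ φ : (shortW a b).toAffine.Point →+ (shortW a b).toAffine.Point,
      ∀ (X Y : K) (h : (shortW a b).toAffine.Nonsingular X Y),
        ∃ h', φ (Affine.Point.some X Y h) = Affine.Point.some (σ X) (σ Y) h' :=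
  ⟨{ toFun := Sigma_fun a b σ hσa hσb
     map_zero' := rfl
     map_add' := Sigma_fun_add a b σ hσa hσb },
   fun _ _ h => ⟨Sigma_nonsingular a b σ hσa hσb h, rfl⟩⟩

/-- The action of `σ` on points of `shortW a b`, as an additive homomorphism. -/
noncomputable def Sigma_hom (σ : K ≃+* K) (hσa : σ a = a) (hσb : σ b = b) :
    (shortW a b).toAffine.Point →+ (shortW a b).toAffine.Point where
  toFun := Sigma_fun a b σ hσa hσb
  map_zero' := rfl
  map_add' := Sigma_fun_add a b σ hσa hσb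

lemma Sigma_hom_some (σ : K ≃+* K) (hσa : σ a = a) (hσb : σ b = b) {X Y : K}
    (h : (shortW a b).toAffine.Nonsingular X Y) :
    Sigma_hom a b σ hσa hσb (Affine.Point.some X Y h) =
      Affine.Point.some (σ X) (σ Y) (Sigma_nonsingular a b σ hσa hσb h) := rfl

end Fermat.Agent.S05
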