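import Mathlib
import Fermat.Prelude.Def_FLTPrelim_FreyPackage
import Fermat.Agent.S05.Defs

set_option autoImplicit false

namespace Fermat.Agent.S05

open WeierstrassCurve

theorem h26_isCoprime_of_gcd {a b : ℤ} (h : gcd a b = 1) : IsCoprime a b := by
  rw [Int.isCoprime_iff_gcd_eq_one]
  have h1 := Int.coe_gcd a b
  rw [h] at h1
  exact_mod_cast h1

theorem h26_not_dvd_of_isCoprime {a b : ℤ} (h : IsCoprime a b) {q : ℕ} (hq : q.Prime)
    (ha : (q : ℤ) ∣ a) : ¬ (q : ℤ) ∣ b := by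
  intro hb
  have h1 : IsUnit (q : ℤ) := h.isUnit_of_dvd' ha hb
  have h2 : (q : ℤ) = 1 ∨ (q : ℤ) = -1 := Int.isUnit_iff.mp h1
  rcases h2 with h2 | h2
  · have : q = 1 := by exact_mod_cast h2
    exact hq.one_lt.ne' this
  · have : (0 : ℤ) ≤ (q : ℤ) := Int.natCast_nonneg q
    omega

/-- The Frey curve is `(X, Y) ↦ (4 X, 8 Y + 4 X)` away from the Legendre form
`Y ^ 2 = X (X - a ^ p) (X + b ^ p)`. -/
theorem h26_frey_eq_smul_legendre (P : FreyPackage) :
    (⟨Units.mk0 (2 : ℚ) two_ne_zero, 0, 1, 0⟩ : VariableChange ℚ) •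
      shortW ((P.b : ℚ) ^ P.p - (P.a : ℚ) ^ P.p) (-((P.a : ℚ) ^ P.p * (P.b : ℚ) ^ P.p))
      = P.freyCurve := by
  ext
  · simp [shortW, FreyPackage.freyCurve, variableChange_a₁]
  · simp [shortW, FreyPackage.freyCurve, variableChange_a₂]
    ring
  · simp [shortW, FreyPackage.freyCurve, variableChange_a₃]
  · simp [shortW, FreyPackage.freyCurve, variableChange_a₄]
    ring
  · simp [shortW, FreyPackage.freyCurve, variableChange_a₆]

/-- Translating `X` by `A` in `Y ^ 2 = X (X - A) (X + B)`. -/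
theorem h26_legendre_translate (A B : ℚ) :
    (⟨1, -A, 0, 0⟩ : VariableChange ℚ) • shortW (2 * A + B) (A * (A + B))
      = shortW (B - A) (-(A * B)) := by
  ext
  · simp [shortW, variableChange_a₁]
  · simp [shortW, variableChange_a₂]
    ring
  · simp [shortW, variableChange_a₃]
  · simp [shortW, variableChange_a₄]
    ring
  · simp [shortW, variableChange_a₆]
    ring

/-- Normal form of the Frey curve at an odd prime `q`: it is isomorphic over `ℚ` to
`Y ^ 2 = X (X ^ 2 + a X + b)` with `a b : ℤ` such that either `b` and `a ^ 2 - 4 b` are prime to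
`q` (good reduction) or `a` is prime to `q` and `b` is a `p`-th power of a multiple of `q`
(multiplicative reduction, discriminant a `p`-th power up to units). -/
theorem h26_frey_model_ne (P : FreyPackage) {q : ℕ} (hq : q.Prime) :
    ∃ (a b : ℤ) (C : VariableChange ℚ),
      C • shortW (a : ℚ) (b : ℚ) = P.freyCurve ∧
      ((¬ (q : ℤ) ∣ b ∧ ¬ (q : ℤ) ∣ (a ^ 2 - 4 * b)) ∨
        (¬ (q : ℤ) ∣ a ∧ ∃ g : ℤ, g ≠ 0 ∧ (q : ℤ) ∣ g ∧ b = g ^ P.p)) := by
  have hqZ : Prime (q : ℤ) := Nat.prime_iff_prime_int.mp hq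
  have hab : IsCoprime P.a P.b := h26_isCoprime_of_gcd P.hgcdab
  have hac : IsCoprime P.a P.c := h26_isCoprime_of_gcd P.hgcdac
  have hbc : IsCoprime P.b P.c := h26_isCoprime_of_gcd P.hgcdbc
  have hodd : Odd P.p := P.hp_odd
  have hp0 : P.p ≠ 0 := P.hp0
  by_cases hc : (q : ℤ) ∣ P.c
  · -- multiplicative, node at `X = a ^ p`
    have hna : ¬ (q : ℤ) ∣ P.a := fun h => h26_not_dvd_of_isCoprime hac hq h hc
    refine ⟨2 * P.a ^ P.p + P.b ^ P.p, (P.a * P.c) ^ P.p,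
      (⟨Units.mk0 (2 : ℚ) two_ne_zero, 0, 1, 0⟩ : VariableChange ℚ) *
        (⟨1, -((P.a : ℚ) ^ P.p), 0, 0⟩ : VariableChange ℚ), ?_,
      Or.inr ⟨?_, P.a * P.c, mul_ne_zero P.ha0 P.hc0, ?_, rfl⟩⟩
    · rw [mul_smul]
      have h1 := h26_legendre_translate ((P.a : ℚ) ^ P.p) ((P.b : ℚ) ^ P.p)
      have h2 : ((P.a : ℚ) ^ P.p) * ((P.a : ℚ) ^ P.p + (P.b : ℚ) ^ P.p)
          = (((P.a * P.c) ^ P.p : ℤ) : ℚ) := by
        have := congrArg (Int.cast : ℤ → ℚ) P.hFLT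
        push_cast at this ⊢
        rw [this]
        ring
      have h3 : (2 * (P.a : ℚ) ^ P.p + (P.b : ℚ) ^ P.p)
          = ((2 * P.a ^ P.p + P.b ^ P.p : ℤ) : ℚ) := by push_cast; ring
      rw [h2, h3] at h1
      rw [h1]
      exact h26_frey_eq_smul_legendre P
    · intro h
      have h4 : (q : ℤ) ∣ P.a ^ P.p + P.b ^ P.p := by
        rw [P.hFLT]
        exact dvd_pow hc hp0
      have h5 : (q : ℤ) ∣ P.a ^ P.p := by
        have : P.a ^ P.p = (2 * P.a ^ P.p + P.b ^ P.p) - (P.a ^ P.p + P.b ^ P.p) := by ring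
        rw [this]
        exact dvd_sub h h4
      exact hna (hqZ.dvd_of_dvd_pow h5)
    · exact dvd_mul_of_dvd_right hc _
  · by_cases hab' : (q : ℤ) ∣ P.a * P.b
    · -- multiplicative, node at `X = 0`
      refine ⟨P.b ^ P.p - P.a ^ P.p, -(P.a ^ P.p * P.b ^ P.p),
        (⟨Units.mk0 (2 : ℚ) two_ne_zero, 0, 1, 0⟩ : VariableChange ℚ), ?_,
        Or.inr ⟨?_, -(P.a * P.b), neg_ne_zero.mpr (mul_ne_zero P.ha0 P.hb0), ?_, ?_⟩⟩
      · have h1 := h26_frey_eq_smul_legendre P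
        push_cast
        exact h1
      · intro h
        rcases hqZ.dvd_or_dvd hab' with ha | hb
        · have hnb : ¬ (q : ℤ) ∣ P.b := h26_not_dvd_of_isCoprime hab hq ha
          have h5 : (q : ℤ) ∣ P.b ^ P.p := by
            have : P.b ^ P.p = (P.b ^ P.p - P.a ^ P.p) + P.a ^ P.p := by ring
            rw [this]
            exact dvd_add h (dvd_pow ha hp0)
          exact hnb (hqZ.dvd_of_dvd_pow h5)
        · have hna : ¬ (q : ℤ) ∣ P.a := h26_not_dvd_of_isCoprime hab.symm hq hb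
          have h5 : (q : ℤ) ∣ P.a ^ P.p := by
            have : P.a ^ P.p = P.b ^ P.p - (P.b ^ P.p - P.a ^ P.p) := by ring
            rw [this]
            exact dvd_sub (dvd_pow hb hp0) h
          exact hna (hqZ.dvd_of_dvd_pow h5)
      · exact (dvd_neg).mpr hab'
      · rw [hodd.neg_pow, mul_pow]
    · -- good reduction
      have hna : ¬ (q : ℤ) ∣ P.a := fun h => hab' (dvd_mul_of_dvd_left h _)
      have hnb : ¬ (q : ℤ) ∣ P.b := fun h => hab' (dvd_mul_of_dvd_right h _)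
      refine ⟨P.b ^ P.p - P.a ^ P.p, -(P.a ^ P.p * P.b ^ P.p),
        (⟨Units.mk0 (2 : ℚ) two_ne_zero, 0, 1, 0⟩ : VariableChange ℚ), ?_, Or.inl ⟨?_, ?_⟩⟩
      · have h1 := h26_frey_eq_smul_legendre P
        push_cast
        exact h1
      · intro h
        rw [dvd_neg] at h
        rcases hqZ.dvd_or_dvd h with h | h
        · exact hna (hqZ.dvd_of_dvd_pow h)
        · exact hnb (hqZ.dvd_of_dvd_pow h)
      · intro h
        have h6 : (P.b ^ P.p - P.a ^ P.p) ^ 2 - 4 * -(P.a ^ P.p * P.b ^ P.p)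
            = (P.c ^ P.p) ^ 2 := by
          rw [← P.hFLT]
          ring
        rw [h6] at h
        exact hc (hqZ.dvd_of_dvd_pow (hqZ.dvd_of_dvd_pow h))

/-- Same as `h26_frey_model_ne`, without the nonvanishing of `g`. -/
theorem h26_frey_model (P : FreyPackage) {q : ℕ} (hq : q.Prime) :
    ∃ (a b : ℤ) (C : VariableChange ℚ),
      C • shortW (a : ℚ) (b : ℚ) = P.freyCurve ∧
      ((¬ (q : ℤ) ∣ b ∧ ¬ (q : ℤ) ∣ (a ^ 2 - 4 * b)) ∨
        (¬ (q : ℤ) ∣ a ∧ ∃ g : ℤ, (q : ℤ) ∣ g ∧ b = g ^ P.p)) := by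
  obtain ⟨a, b, C, hC, h⟩ := h26_frey_model_ne P hq
  refine ⟨a, b, C, hC, ?_⟩
  rcases h with h | ⟨ha, g, -, hg, hb⟩
  · exact Or.inl h
  · exact Or.inr ⟨ha, g, hg, hb⟩

end Fermat.Agent.S05
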