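import Fermat.Agent.S05.Defs
import Fermat.Agent.S05.InertiaVal
import Fermat.Agent.S05.h26_Frey
import Fermat.Agent.S51.VarChange
import Fermat.Prelude.Def_FLTPrelim_Ramification

set_option autoImplicit false

namespace Fermat.Agent.S05

open WeierstrassCurve

/-- Transport of "`σ` fixes the `p`-torsion points" along a change of variables whose
coefficients are fixed by `σ`. -/
theorem h26_transport {K : Type*} [Field K] [DecidableEq K] (W W₀ : WeierstrassCurve K)
    (C : VariableChange K) (hW : C • W₀ = W) (σ : K ≃+* K)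
    (hu : σ (C.u : K) = C.u) (hr : σ C.r = C.r) (hs : σ C.s = C.s) (ht : σ C.t = C.t) (p : ℕ)
    (hcore : ∀ {X Y : K} (h : W₀.toAffine.Nonsingular X Y),
      p • (Affine.Point.some X Y h) = 0 → σ X = X ∧ σ Y = Y)
    {x y : K} (h : W.toAffine.Nonsingular x y) (hT : p • (Affine.Point.some x y h) = 0) :
    σ x = x ∧ σ y = y := by
  subst hW
  have h1 : p • (S51.vc_addEquiv W₀ C (Affine.Point.some x y h)) = 0 := by
    rw [← map_nsmul, hT, map_zero]
  rw [S51.vc_addEquiv_apply, S51.vc_fun_some] at h1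
  obtain ⟨hX, hY⟩ := hcore _ h1
  have hu0 : (C.u : K) ≠ 0 := C.u.ne_zero
  simp only [S51.vc_X, S51.vc_Y, map_add, map_mul, map_pow, hu, hr, hs, ht] at hX hY
  have hx : σ x = x := by
    have h2 : (C.u : K) ^ 2 * (σ x - x) = 0 := by linear_combination hX
    have h3 := (mul_eq_zero.mp h2).resolve_left (pow_ne_zero 2 hu0)
    exact sub_eq_zero.mp h3
  refine ⟨hx, ?_⟩
  rw [hx] at hY
  have h2 : (C.u : K) ^ 3 * (σ y - y) = 0 := by linear_combination hY
  have h3 := (mul_eq_zero.mp h2).resolve_left (pow_ne_zero 3 hu0)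
  exact sub_eq_zero.mp h3

theorem h26_some_eq {K : Type*} [Field K] {W : Affine K} {x y x' y' : K}
    (h : W.Nonsingular x y) (h' : W.Nonsingular x' y') (hx : x' = x) (hy : y' = y) :
    Affine.Point.some x' y' h' = Affine.Point.some x y h := by
  subst hx
  subst hy
  rfl

/-- The final glue for S05: the two core statements (good and multiplicative reduction for
`Y ^ 2 = X ^ 3 + a X ^ 2 + b X` over `AlgebraicClosure ℚ`) imply that the Frey representation is
unramified at every odd prime `q ≠ p`. -/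
theorem h26_glue
    (hgood : ∀ (A : ValuationSubring (AlgebraicClosure ℚ)) (a b : AlgebraicClosure ℚ) (p : ℕ)
      (_ : A.valuation (p : AlgebraicClosure ℚ) = 1)
      (_ : A.valuation (2 : AlgebraicClosure ℚ) = 1)
      (_ : A.valuation a ≤ 1) (_ : A.valuation b = 1)
      (_ : A.valuation (a ^ 2 - 4 * b) = 1)
      (σ : AlgebraicClosure ℚ ≃+* AlgebraicClosure ℚ)
      (_ : ∀ x, A.valuation (σ x) ≤ 1 ↔ A.valuation x ≤ 1)
      (_ : ∀ x, A.valuation x ≤ 1 → A.valuation (σ x - x) < 1)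
      (_ : σ a = a) (_ : σ b = b) {X Y : AlgebraicClosure ℚ}
      (h : (shortW a b).toAffine.Nonsingular X Y)
      (_ : p • (Affine.Point.some X Y h) = 0), σ X = X ∧ σ Y = Y)
    (hmult : ∀ (A : ValuationSubring (AlgebraicClosure ℚ)) (a b : AlgebraicClosure ℚ)
      (g₀ : AlgebraicClosure ℚ) (p : ℕ) (_ : p.Prime) (_ : p ≠ 2)
      (_ : A.valuation (p : AlgebraicClosure ℚ) = 1)
      (_ : A.valuation (2 : AlgebraicClosure ℚ) = 1)
      (_ : A.valuation a = 1) (_ : A.valuation g₀ < 1) (_ : g₀ ≠ 0)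
      (_ : A.valuation b = A.valuation g₀ ^ p)
      (σ : AlgebraicClosure ℚ ≃+* AlgebraicClosure ℚ)
      (_ : ∀ x, A.valuation (σ x) ≤ 1 ↔ A.valuation x ≤ 1)
      (_ : ∀ x, A.valuation x ≤ 1 → A.valuation (σ x - x) < 1)
      (_ : σ a = a) (_ : σ b = b) (_ : σ g₀ = g₀) {X Y : AlgebraicClosure ℚ}
      (h : (shortW a b).toAffine.Nonsingular X Y)
      (_ : p • (Affine.Point.some X Y h) = 0), σ X = X ∧ σ Y = Y)
    (P : FreyPackage) {q : ℕ} (hq : q.Prime) (hq2 : q ≠ 2) (hqp : q ≠ P.p) :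
    P.GaloisRepUnramifiedAt q := by
  intro A hA σ hσ x
  obtain ⟨T, hT⟩ := x
  apply Subtype.ext
  change Affine.Point.map σ.toAlgHom T = T
  rw [Submodule.mem_torsionBy_iff] at hT
  have hT' : P.p • T = 0 := by
    rw [← hT]
    exact (natCast_zsmul T P.p).symm
  rcases T with _ | ⟨x, y, h⟩
  · rfl
  rw [Affine.Point.map_some]
  -- the inertia facts
  obtain ⟨hσA, hσm⟩ := inertia_valuation A σ hσ
  have hv2 : A.valuation (2 : AlgebraicClosure ℚ) = 1 := by
    have := valuation_natCast_eq_one A q hq hA 2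
      (fun h => hq2 ((Nat.prime_dvd_prime_iff_eq hq Nat.prime_two).mp h))
    exact_mod_cast this
  have hvp : A.valuation (P.p : AlgebraicClosure ℚ) = 1 :=
    valuation_natCast_eq_one A q hq hA P.p
      (fun h => hqp ((Nat.prime_dvd_prime_iff_eq hq P.pp).mp h))
  have hp2 : P.p ≠ 2 := by have := P.hp5; omega
  -- the model
  obtain ⟨a, b, C, hC, hcase⟩ := h26_frey_model_ne P hq
  have hW : (C.map (algebraMap ℚ (AlgebraicClosure ℚ))) •
      shortW ((a : ℤ) : AlgebraicClosure ℚ) ((b : ℤ) : AlgebraicClosure ℚ)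
      = P.freyCurve.map (algebraMap ℚ (AlgebraicClosure ℚ)) := by
    rw [← hC, ← map_variableChange, shortW_map, map_intCast, map_intCast]
  have hσint : ∀ n : ℤ, σ.toRingEquiv ((n : ℤ) : AlgebraicClosure ℚ) = (n : AlgebraicClosure ℚ) :=
    fun n => map_intCast σ.toRingEquiv n
  have hσrat : ∀ r : ℚ, σ.toRingEquiv (algebraMap ℚ (AlgebraicClosure ℚ) r)
      = algebraMap ℚ (AlgebraicClosure ℚ) r := fun r => σ.commutes r
  have key : σ x = x ∧ σ y = y := by
    refine h26_transport (P.freyCurve.map (algebraMap ℚ (AlgebraicClosure ℚ)))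
      (shortW ((a : ℤ) : AlgebraicClosure ℚ) ((b : ℤ) : AlgebraicClosure ℚ))
      (C.map (algebraMap ℚ (AlgebraicClosure ℚ))) hW σ.toRingEquiv
      (hσrat _) (hσrat _) (hσrat _) (hσrat _) P.p ?_ h hT'
    intro X Y hXY hXYT
    rcases hcase with ⟨hb, hd⟩ | ⟨ha, g, hg0, hg, hbg⟩
    · refine hgood A (a : AlgebraicClosure ℚ) (b : AlgebraicClosure ℚ) P.p hvp hv2
        (valuation_intCast A q hq hA a).1 (valuation_intCast_eq_one A q hq hA b hb) ?_
        σ.toRingEquiv hσA hσm (hσint a) (hσint b) hXY hXYT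
      have := valuation_intCast_eq_one A q hq hA (a ^ 2 - 4 * b) hd
      push_cast at this
      exact this
    · refine hmult A (a : AlgebraicClosure ℚ) (b : AlgebraicClosure ℚ) (g : AlgebraicClosure ℚ)
        P.p P.pp hp2 hvp hv2 (valuation_intCast_eq_one A q hq hA a ha)
        ((valuation_intCast A q hq hA g).2.mpr hg) (Int.cast_ne_zero.mpr hg0) ?_
        σ.toRingEquiv hσA hσm (hσint a) (hσint b) (hσint g) hXY hXYT
      rw [hbg]
      push_cast
      rw [map_pow]
  exact h26_some_eq _ _ key.1 key.2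

end Fermat.Agent.S05
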