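import Mathlib

set_option autoImplicit false

namespace Fermat.Agent.S05

section Abstract

variable {G : Type*} [AddCommGroup G] {Γ₀ : Type*} [LinearOrderedCommGroupWithZero Γ₀]

/-- One step of the level computation: the sum of a level-`c` point and a level-`γ` point
(both on the `+` branch), in terms of subtraction (`hsub`), `Key'` (`hkey`) and the
translation by the two-torsion point `t0` (`hneg`). -/
theorem h80_level_step (H : AddSubgroup G) (C : Γ₀ → Set G) (t0 : G) (β : Γ₀)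
    (hβ0 : 0 < β)
    (h2 : t0 + t0 = 0)
    (hsub : ∀ c c' : Γ₀, β < c → c < c' → c' < 1 → ∀ P ∈ C c, ∀ P' ∈ C c', P - P' ∈ C (c / c'))
    (hkey : ∀ c : Γ₀, β < c → c < 1 → ∀ P ∈ C c, ∀ P' ∈ C c, P - P' ∈ H)
    (hneg : ∀ c : Γ₀, β < c → c < 1 → ∀ P ∈ C c, -P + t0 ∈ C (β / c))
    {c γ : Γ₀} (hc : β < c) (hc1 : c < 1) (hγ : β < γ) (hγ1 : γ < 1)
    {P T : G} (hP : P ∈ C c) (hT : T ∈ C γ) :
    (c * γ < β → P + T + t0 ∈ C (c * γ / β)) ∧ (c * γ = β → P + T + t0 ∈ H) ∧
      (β < c * γ → P + T ∈ C (c * γ)) := by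
  have hγ0 : 0 < γ := lt_trans hβ0 hγ
  have hc0 : 0 < c := lt_trans hβ0 hc
  have hγne : γ ≠ 0 := ne_of_gt hγ0
  have hcne : c ≠ 0 := ne_of_gt hc0
  have hβne : β ≠ 0 := ne_of_gt hβ0
  have hnt : -t0 = t0 := neg_eq_of_add_eq_zero_left h2
  -- `Q = -T + t0` is a level `β / γ` point
  have hQ : -T + t0 ∈ C (β / γ) := hneg γ hγ hγ1 T hT
  have hQ1 : β / γ < 1 := (div_lt_one₀ hγ0).mpr hγ
  have hQβ : β < β / γ := by
    rw [lt_div_iff₀ hγ0]
    calc β * γ < β * 1 := mul_lt_mul_of_pos_left hγ1 hβ0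
      _ = β := mul_one β
  have hPQ : P - (-T + t0) = P + T + t0 := by
    rw [sub_eq_add_neg, neg_add, neg_neg, hnt, add_assoc]
  refine ⟨fun h => ?_, fun h => ?_, fun h => ?_⟩
  · have hlt : c < β / γ := (lt_div_iff₀ hγ0).mpr h
    have := hsub c (β / γ) hc hlt hQ1 P hP _ hQ
    rw [hPQ] at this
    have he : c / (β / γ) = c * γ / β := by
      field_simp
    rwa [he] at this
  · have he : β / γ = c := by
      rw [← h]; field_simp
    rw [he] at hQ
    have := hkey c hc hc1 P hP _ hQ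
    rwa [hPQ] at this
  · have hlt : β / γ < c := (div_lt_iff₀ hγ0).mpr h
    have h1 := hsub (β / γ) c hQβ hlt hc1 _ hQ P hP
    have he : β / γ / c = β / (c * γ) := by
      field_simp
    rw [he] at h1
    have hcγ0 : 0 < c * γ := mul_pos hc0 hγ0
    have hcγ1 : c * γ < 1 := by
      calc c * γ < 1 * γ := mul_lt_mul_of_pos_right hc1 hγ0
        _ = γ := one_mul γ
        _ < 1 := hγ1
    have hb1 : β < β / (c * γ) := by
      rw [lt_div_iff₀ hcγ0]
      calc β * (c * γ) < β * 1 := mul_lt_mul_of_pos_left hcγ1 hβ0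
        _ = β := mul_one β
    have hb2 : β / (c * γ) < 1 := (div_lt_one₀ hcγ0).mpr h
    have h3 := hneg _ hb1 hb2 _ h1
    have he2 : β / (β / (c * γ)) = c * γ := by
      field_simp
    rw [he2] at h3
    have he3 : -(-T + t0 - P) + t0 = P + T := by
      have : -(-T + t0 - P) + t0 = P + T + (-t0 + t0) := by abel
      rw [this, hnt, h2, add_zero]
    rwa [he3] at h3

/-- **Abstract level lemma.** `H` plays the role of `E₀`, `C c` the points of level `c`
(`β < c < 1`) on the `+` branch, `t0` the two-torsion point reducing to the node and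
`β = v(b)`.  If a multiple `n • T` of a level-`γ` point lies in `H`, then `γ ^ n` is an even
power of `β`. -/
theorem h80_level (H : AddSubgroup G) (C : Γ₀ → Set G) (t0 : G) (β : Γ₀)
    (hβ0 : 0 < β)
    (h2 : t0 + t0 = 0) (ht0 : t0 ∉ H)
    (hsub : ∀ c c' : Γ₀, β < c → c < c' → c' < 1 → ∀ P ∈ C c, ∀ P' ∈ C c', P - P' ∈ C (c / c'))
    (hkey : ∀ c : Γ₀, β < c → c < 1 → ∀ P ∈ C c, ∀ P' ∈ C c, P - P' ∈ H)
    (hneg : ∀ c : Γ₀, β < c → c < 1 → ∀ P ∈ C c, -P + t0 ∈ C (β / c))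
    (hd1 : ∀ c : Γ₀, β < c → c < 1 → ∀ P ∈ C c, P ∉ H)
    (hd2 : ∀ c : Γ₀, β < c → c < 1 → ∀ P ∈ C c, P + t0 ∉ H)
    {γ : Γ₀} (hγ : β < γ) (hγ1 : γ < 1) {T : G} (hT : T ∈ C γ) (n : ℕ) (hn : n • T ∈ H) :
    ∃ j : ℕ, γ ^ n = β ^ (2 * j) := by
  have hγ0 : 0 < γ := lt_trans hβ0 hγ
  have hβne : β ≠ 0 := ne_of_gt hβ0
  have hnt : -t0 = t0 := neg_eq_of_add_eq_zero_left h2
  have heven : ∀ j : ℕ, (2 * j) • t0 = 0 := by
    intro j
    rw [mul_comm, mul_smul, two_smul, h2, smul_zero]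
  have hodd : ∀ j : ℕ, (2 * j + 1) • t0 = t0 := by
    intro j
    rw [add_smul, heven, one_smul, zero_add]
  -- the invariant
  have key : ∀ m : ℕ, ∃ (k : ℕ) (c : Γ₀), γ ^ m = c * β ^ k ∧
      ((c = 1 ∧ m • T + k • t0 ∈ H) ∨
        (β < c ∧ c < 1 ∧ ∃ h ∈ H, ∃ P ∈ C c, m • T + k • t0 = h + P)) := by
    intro m
    induction m with
    | zero =>
      refine ⟨0, 1, by simp, Or.inl ⟨rfl, ?_⟩⟩
      simp
    | succ m ih =>
      obtain ⟨k, c, hpow, hcase⟩ := ih
      rcases hcase with ⟨hc1, hmem⟩ | ⟨hc, hc1, h, hh, P, hP, hmP⟩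
      · -- `m • T + k • t0 ∈ H`
        refine ⟨k, γ, ?_, Or.inr ⟨hγ, hγ1, _, hmem, T, hT, ?_⟩⟩
        · rw [pow_succ, hpow, hc1, one_mul, mul_comm]
        · rw [succ_nsmul]; abel
      · have hc0 : 0 < c := lt_trans hβ0 hc
        obtain ⟨s1, s2, s3⟩ := h80_level_step H C t0 β hβ0 h2 hsub hkey hneg hc hc1 hγ hγ1 hP hT
        rcases lt_trichotomy (c * γ) β with hlt | heq | hgt
        · refine ⟨k + 1, c * γ / β, ?_, Or.inr ⟨?_, ?_, h, hh, _, s1 hlt, ?_⟩⟩
          · rw [pow_succ, hpow, pow_succ]; field_simp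
          · rw [lt_div_iff₀ hβ0]
            exact mul_lt_mul'' hc hγ hβ0.le hβ0.le
          · exact (div_lt_one₀ hβ0).mpr hlt
          · rw [succ_nsmul, succ_nsmul]
            have : m • T + T + (k • t0 + t0) = (m • T + k • t0) + (T + t0) := by abel
            rw [this, hmP]; abel
        · refine ⟨k + 1, 1, ?_, Or.inl ⟨rfl, ?_⟩⟩
          · rw [pow_succ, hpow, pow_succ, one_mul, ← heq]; ac_rfl
          · rw [succ_nsmul, succ_nsmul]
            have : m • T + T + (k • t0 + t0) = (m • T + k • t0) + (T + t0) := by abel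
            rw [this, hmP]
            have : h + P + (T + t0) = h + (P + T + t0) := by abel
            rw [this]
            exact H.add_mem hh (s2 heq)
        · refine ⟨k, c * γ, ?_, Or.inr ⟨hgt, ?_, h, hh, _, s3 hgt, ?_⟩⟩
          · rw [pow_succ, hpow]; ac_rfl
          · calc c * γ < 1 * γ := mul_lt_mul_of_pos_right hc1 hγ0
              _ = γ := one_mul γ
              _ < 1 := hγ1
          · rw [succ_nsmul]
            have : m • T + T + k • t0 = (m • T + k • t0) + T := by abel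
            rw [this, hmP]; abel
  obtain ⟨k, c, hpow, hcase⟩ := key n
  rcases Nat.even_or_odd' k with ⟨j, rfl | rfl⟩
  · rw [heven, add_zero] at hcase
    rcases hcase with ⟨hc1, -⟩ | ⟨hc, hc1, h, hh, P, hP, hmP⟩
    · exact ⟨j, by rw [hpow, hc1, one_mul]⟩
    · exfalso
      apply hd1 c hc hc1 P hP
      have : P = n • T - h := by rw [hmP]; abel
      rw [this]
      exact H.sub_mem hn hh
  · rw [hodd] at hcase
    rcases hcase with ⟨hc1, hmem⟩ | ⟨hc, hc1, h, hh, P, hP, hmP⟩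
    · exfalso
      apply ht0
      have : t0 = (n • T + t0) - n • T := by abel
      rw [this]
      exact H.sub_mem hmem hn
    · exfalso
      apply hd2 c hc hc1 P hP
      have : P + t0 = n • T - h + (t0 + t0) := by
        have : P = n • T + t0 - h := by rw [hmP]; abel
        rw [this]; abel
      rw [this, h2, add_zero]
      exact H.sub_mem hn hh

/-- A point of the coset `H + t0` is never killed by an odd number. -/
theorem h80_odd_nsmul_ne_zero_of_mem_coset (H : AddSubgroup G) (t0 : G)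
    (h2 : t0 + t0 = 0) (ht0 : t0 ∉ H) {T : G} (hT : T + t0 ∈ H) {n : ℕ} (hn : Odd n) :
    n • T ≠ 0 := by
  intro h0
  obtain ⟨j, rfl⟩ := hn
  apply ht0
  have hnt : -t0 = t0 := neg_eq_of_add_eq_zero_left h2
  have h1 : (2 * j + 1) • (T + t0) ∈ H := H.nsmul_mem hT _
  have h3 : (2 * j + 1) • t0 = t0 := by
    rw [add_smul, mul_comm, mul_smul, two_smul, h2, smul_zero, one_smul, zero_add]
  rw [smul_add, h0, zero_add, h3] at h1
  exact h1

end Abstract

end Fermat.Agent.S05
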