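import Mathlib
import Fermat.Prelude.Def_FLTPrelim_GaloisRep
import Fermat.Prelude.Def_FLTPrelim_Ramification

set_option autoImplicit false

namespace Fermat.Agent.S05

open WeierstrassCurve

section Field

variable {K : Type*} [Field K] (W : WeierstrassCurve K) (C : VariableChange K)

/-- The `X`-coordinate on `W` of the point with coordinates `(x, y)` on `C • W`. -/
def h15_X (x : K) : K := (C.u : K) ^ 2 * x + C.r

/-- The `Y`-coordinate on `W` of the point with coordinates `(x, y)` on `C • W`. -/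
def h15_Y (x y : K) : K := (C.u : K) ^ 3 * y + (C.u : K) ^ 2 * C.s * x + C.t

theorem h15_X_injective : Function.Injective (h15_X C) := by
  intro x x' h
  have hu : (C.u : K) ^ 2 ≠ 0 := pow_ne_zero 2 C.u.ne_zero
  simp only [h15_X] at h
  exact mul_left_cancel₀ hu (add_right_cancel h)

theorem h15_Y_injective (x : K) : Function.Injective (h15_Y C x) := by
  intro y y' h
  have hu : (C.u : K) ^ 3 ≠ 0 := pow_ne_zero 3 C.u.ne_zero
  simp only [h15_Y] at h
  exact mul_left_cancel₀ hu (add_right_cancel (add_right_cancel h))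

theorem h15_eqn_key (x y : K) :
    h15_Y C x y ^ 2 + W.a₁ * h15_X C x * h15_Y C x y + W.a₃ * h15_Y C x y
      - (h15_X C x ^ 3 + W.a₂ * h15_X C x ^ 2 + W.a₄ * h15_X C x + W.a₆)
      = (C.u : K) ^ 6 * (y ^ 2 + (C • W).a₁ * x * y + (C • W).a₃ * y
        - (x ^ 3 + (C • W).a₂ * x ^ 2 + (C • W).a₄ * x + (C • W).a₆)) := by
  have hu : (C.u : K) ≠ 0 := C.u.ne_zero
  simp only [variableChange_a₁, variableChange_a₂, variableChange_a₃, variableChange_a₄,
    variableChange_a₆, Units.val_inv_eq_inv_val, h15_X, h15_Y]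
  field_simp
  ring

theorem h15_equation_iff (x y : K) :
    (C • W).toAffine.Equation x y ↔ W.toAffine.Equation (h15_X C x) (h15_Y C x y) := by
  have hu : (C.u : K) ^ 6 ≠ 0 := pow_ne_zero 6 C.u.ne_zero
  rw [Affine.equation_iff, Affine.equation_iff, ← sub_eq_zero,
    ← sub_eq_zero (b := h15_X C x ^ 3 + W.a₂ * h15_X C x ^ 2 + W.a₄ * h15_X C x + W.a₆),
    h15_eqn_key, mul_eq_zero]
  simp [hu]

theorem h15_B_key (x y : K) :
    2 * h15_Y C x y + W.a₁ * h15_X C x + W.a₃
      = (C.u : K) ^ 3 * (2 * y + (C • W).a₁ * x + (C • W).a₃) := by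
  have hu : (C.u : K) ≠ 0 := C.u.ne_zero
  simp only [variableChange_a₁, variableChange_a₃, Units.val_inv_eq_inv_val, h15_X, h15_Y]
  field_simp
  ring

theorem h15_A_key (x y : K) :
    W.a₁ * h15_Y C x y - (3 * h15_X C x ^ 2 + 2 * W.a₂ * h15_X C x + W.a₄)
      = (C.u : K) ^ 4 * ((C • W).a₁ * y - (3 * x ^ 2 + 2 * (C • W).a₂ * x + (C • W).a₄))
        - C.s * ((C.u : K) ^ 3 * (2 * y + (C • W).a₁ * x + (C • W).a₃)) := by
  have hu : (C.u : K) ≠ 0 := C.u.ne_zero
  simp only [variableChange_a₁, variableChange_a₂, variableChange_a₃, variableChange_a₄,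
    Units.val_inv_eq_inv_val, h15_X, h15_Y]
  field_simp
  ring

theorem h15_nonsingular_iff (x y : K) :
    (C • W).toAffine.Nonsingular x y ↔ W.toAffine.Nonsingular (h15_X C x) (h15_Y C x y) := by
  have hu3 : (C.u : K) ^ 3 ≠ 0 := pow_ne_zero 3 C.u.ne_zero
  have hu4 : (C.u : K) ^ 4 ≠ 0 := pow_ne_zero 4 C.u.ne_zero
  rw [Affine.nonsingular_iff', Affine.nonsingular_iff', h15_equation_iff, h15_A_key, h15_B_key]
  refine and_congr_right fun _ => ?_
  by_cases hb : 2 * y + (C • W).a₁ * x + (C • W).a₃ = 0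
  · simp [hb, hu4]
  · simp [hb, hu3]

theorem h15_negY (x y : K) :
    W.toAffine.negY (h15_X C x) (h15_Y C x y) = h15_Y C x ((C • W).toAffine.negY x y) := by
  have hu : (C.u : K) ≠ 0 := C.u.ne_zero
  simp only [Affine.negY, variableChange_a₁, variableChange_a₃, Units.val_inv_eq_inv_val, h15_X,
    h15_Y]
  field_simp
  ring

end Field

section DecEq

variable {K : Type*} [Field K] [DecidableEq K] (W : WeierstrassCurve K) (C : VariableChange K)

theorem h15_slope {x₁ x₂ y₁ y₂ : K} (h₁ : (C • W).toAffine.Equation x₁ y₁)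
    (h₂ : (C • W).toAffine.Equation x₂ y₂)
    (hxy : ¬(x₁ = x₂ ∧ y₁ = (C • W).toAffine.negY x₂ y₂)) :
    W.toAffine.slope (h15_X C x₁) (h15_X C x₂) (h15_Y C x₁ y₁) (h15_Y C x₂ y₂)
      = C.u * (C • W).toAffine.slope x₁ x₂ y₁ y₂ + C.s := by
  have hu : (C.u : K) ≠ 0 := C.u.ne_zero
  by_cases hx : x₁ = x₂
  · subst hx
    have hy : y₁ ≠ (C • W).toAffine.negY x₁ y₂ := fun h => hxy ⟨rfl, h⟩
    have hyy : y₁ = y₂ := Affine.Y_eq_of_Y_ne h₁ h₂ rfl hy
    subst hyy
    have hy' : h15_Y C x₁ y₁ ≠ W.toAffine.negY (h15_X C x₁) (h15_Y C x₁ y₁) := by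
      rw [h15_negY]
      exact fun h => hy (h15_Y_injective C _ h)
    rw [Affine.slope_of_Y_ne rfl hy, Affine.slope_of_Y_ne rfl hy']
    have hB' : y₁ - (C • W).toAffine.negY x₁ y₁ ≠ 0 := sub_ne_zero.mpr hy
    have hB : h15_Y C x₁ y₁ - W.toAffine.negY (h15_X C x₁) (h15_Y C x₁ y₁) ≠ 0 :=
      sub_ne_zero.mpr hy'
    have e1 : h15_Y C x₁ y₁ - W.toAffine.negY (h15_X C x₁) (h15_Y C x₁ y₁)
        = (C.u : K) ^ 3 * (y₁ - (C • W).toAffine.negY x₁ y₁) := by
      have := h15_B_key W C x₁ y₁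
      simp only [Affine.negY] at this ⊢
      linear_combination this
    have e2 : 3 * h15_X C x₁ ^ 2 + 2 * W.a₂ * h15_X C x₁ + W.a₄ - W.a₁ * h15_Y C x₁ y₁
        = (C.u : K) ^ 4 * (3 * x₁ ^ 2 + 2 * (C • W).a₂ * x₁ + (C • W).a₄ - (C • W).a₁ * y₁)
          + C.s * ((C.u : K) ^ 3 * (y₁ - (C • W).toAffine.negY x₁ y₁)) := by
      have := h15_A_key W C x₁ y₁
      simp only [Affine.negY] at this ⊢
      linear_combination -this
    rw [e2, e1]
    field_simp
  · rw [Affine.slope_of_X_ne hx, Affine.slope_of_X_ne (fun h => hx (h15_X_injective C h))]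
    have hx' : x₁ - x₂ ≠ 0 := sub_ne_zero.mpr hx
    have e1 : h15_X C x₁ - h15_X C x₂ = (C.u : K) ^ 2 * (x₁ - x₂) := by
      simp only [h15_X]; ring
    have e2 : h15_Y C x₁ y₁ - h15_Y C x₂ y₂
        = (C.u : K) ^ 3 * (y₁ - y₂) + (C.u : K) ^ 2 * C.s * (x₁ - x₂) := by
      simp only [h15_Y]; ring
    rw [e1, e2]
    field_simp

omit [DecidableEq K] in
theorem h15_addX (x₁ x₂ ℓ : K) :
    W.toAffine.addX (h15_X C x₁) (h15_X C x₂) (C.u * ℓ + C.s)
      = h15_X C ((C • W).toAffine.addX x₁ x₂ ℓ) := by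
  have hu : (C.u : K) ≠ 0 := C.u.ne_zero
  simp only [Affine.addX, variableChange_a₁, variableChange_a₂, Units.val_inv_eq_inv_val, h15_X]
  field_simp
  ring

omit [DecidableEq K] in
theorem h15_negAddY (x₁ x₂ y₁ ℓ : K) :
    W.toAffine.negAddY (h15_X C x₁) (h15_X C x₂) (h15_Y C x₁ y₁) (C.u * ℓ + C.s)
      = h15_Y C ((C • W).toAffine.addX x₁ x₂ ℓ) ((C • W).toAffine.negAddY x₁ x₂ y₁ ℓ) := by
  rw [Affine.negAddY, h15_addX, Affine.negAddY]
  simp only [h15_X, h15_Y]
  ring

omit [DecidableEq K] in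
theorem h15_addY (x₁ x₂ y₁ ℓ : K) :
    W.toAffine.addY (h15_X C x₁) (h15_X C x₂) (h15_Y C x₁ y₁) (C.u * ℓ + C.s)
      = h15_Y C ((C • W).toAffine.addX x₁ x₂ ℓ) ((C • W).toAffine.addY x₁ x₂ y₁ ℓ) := by
  rw [Affine.addY, h15_negAddY, h15_addX, h15_negY, Affine.addY]

/-- The map on points induced by the admissible change of variables `C`: a point `(x, y)` of
`C • W` goes to the point `(u²x + r, u³y + u²sx + t)` of `W`. -/
def h15_vcFun : (C • W).toAffine.Point → W.toAffine.Point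
  | .zero => 0
  | .some x y h => .some (h15_X C x) (h15_Y C x y) ((h15_nonsingular_iff W C x y).mp h)

omit [DecidableEq K] in
theorem h15_vcFun_zero : h15_vcFun W C 0 = 0 := rfl

omit [DecidableEq K] in
theorem h15_vcFun_some {x y : K} (h : (C • W).toAffine.Nonsingular x y) :
    h15_vcFun W C (.some x y h)
      = .some (h15_X C x) (h15_Y C x y) ((h15_nonsingular_iff W C x y).mp h) := rfl

theorem h15_vcFun_add (P Q : (C • W).toAffine.Point) :
    h15_vcFun W C (P + Q) = h15_vcFun W C P + h15_vcFun W C Q := by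
  rcases P with _ | ⟨x₁, y₁, h₁⟩
  · change h15_vcFun W C (0 + Q) = 0 + h15_vcFun W C Q
    rw [zero_add, zero_add]
  rcases Q with _ | ⟨x₂, y₂, h₂⟩
  · change h15_vcFun W C (_ + 0) = _ + 0
    rw [add_zero, add_zero]
  by_cases hxy : x₁ = x₂ ∧ y₁ = (C • W).toAffine.negY x₂ y₂
  · rw [Affine.Point.add_of_Y_eq hxy.1 hxy.2, h15_vcFun_zero, h15_vcFun_some, h15_vcFun_some]
    symm
    refine Affine.Point.add_of_Y_eq (congrArg _ hxy.1) ?_
    rw [h15_negY, ← hxy.2, hxy.1]
  · have hxy' : ¬(h15_X C x₁ = h15_X C x₂ ∧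
        h15_Y C x₁ y₁ = W.toAffine.negY (h15_X C x₂) (h15_Y C x₂ y₂)) := by
      rintro ⟨hx, hy⟩
      have hx' : x₁ = x₂ := h15_X_injective C hx
      subst hx'
      rw [h15_negY] at hy
      exact hxy ⟨rfl, h15_Y_injective C _ hy⟩
    rw [Affine.Point.add_some hxy, h15_vcFun_some, h15_vcFun_some, h15_vcFun_some,
      Affine.Point.add_some hxy']
    have hs := h15_slope W C h₁.1 h₂.1 hxy
    rw [Affine.Point.some.injEq]
    constructor
    · rw [hs, h15_addX]
    · rw [hs, h15_addY]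

omit [DecidableEq K] in
theorem h15_vcFun_injective : Function.Injective (h15_vcFun W C) := by
  rintro (_ | ⟨x₁, y₁, h₁⟩) (_ | ⟨x₂, y₂, h₂⟩) h
  · rfl
  · exact absurd h.symm (Affine.Point.some_ne_zero _)
  · exact absurd h (Affine.Point.some_ne_zero _)
  · rw [h15_vcFun_some, h15_vcFun_some, Affine.Point.some.injEq] at h
    obtain ⟨hx, hy⟩ := h
    have hx' : x₁ = x₂ := h15_X_injective C hx
    subst hx'
    have hy' : y₁ = y₂ := h15_Y_injective C _ hy
    subst hy'
    rfl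

omit [DecidableEq K] in
theorem h15_vcFun_surjective : Function.Surjective (h15_vcFun W C) := by
  have hu : (C.u : K) ≠ 0 := C.u.ne_zero
  rintro (_ | ⟨X, Y, h⟩)
  · exact ⟨0, rfl⟩
  · have hX : h15_X C (((C.u : K) ^ 2)⁻¹ * (X - C.r)) = X := by
      simp only [h15_X]
      field_simp
      ring
    have hY : h15_Y C (((C.u : K) ^ 2)⁻¹ * (X - C.r))
        (((C.u : K) ^ 3)⁻¹ * (Y - C.s * (X - C.r) - C.t)) = Y := by
      simp only [h15_Y]
      field_simp
      ring
    have h' : (C • W).toAffine.Nonsingular (((C.u : K) ^ 2)⁻¹ * (X - C.r))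
        (((C.u : K) ^ 3)⁻¹ * (Y - C.s * (X - C.r) - C.t)) := by
      rw [h15_nonsingular_iff, hX, hY]
      exact h
    refine ⟨.some _ _ h', ?_⟩
    rw [h15_vcFun_some, Affine.Point.some.injEq]
    exact ⟨hX, hY⟩

/-- The group isomorphism `(C • W)(K) ≃+ W(K)` induced by the change of variables `C`. -/
noncomputable def h15_vcEquiv' : (C • W).toAffine.Point ≃+ W.toAffine.Point :=
  AddEquiv.ofBijective (AddMonoidHom.mk' (h15_vcFun W C) (h15_vcFun_add W C))
    ⟨h15_vcFun_injective W C, h15_vcFun_surjective W C⟩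

theorem h15_vcEquiv'_apply (P : (C • W).toAffine.Point) :
    h15_vcEquiv' W C P = h15_vcFun W C P := rfl

/-- The group isomorphism `W'(K) ≃+ W(K)` for `W' = C • W`. -/
noncomputable def h15_vcEquiv (W' : WeierstrassCurve K) (he : W' = C • W) :
    W'.toAffine.Point ≃+ W.toAffine.Point := by
  subst he
  exact h15_vcEquiv' W C

theorem h15_vcEquiv_zero (W' : WeierstrassCurve K) (he : W' = C • W) :
    h15_vcEquiv W C W' he 0 = 0 := map_zero _

theorem h15_vcEquiv_some (W' : WeierstrassCurve K) (he : W' = C • W) {x y : K}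
    (h : W'.toAffine.Nonsingular x y) :
    h15_vcEquiv W C W' he (.some x y h)
      = .some (h15_X C x) (h15_Y C x y) ((h15_nonsingular_iff W C x y).mp (he ▸ h)) := by
  subst he
  rfl

end DecEq

section Galois

open WeierstrassCurve.Affine WeierstrassCurve.Affine.Point

variable {R S K : Type*} [CommRing R] [CommRing S] [Field K] [DecidableEq K] [Algebra R S]
  [Algebra R K] [Algebra S K] [IsScalarTower R S K]
  (W₀ : WeierstrassCurve R) (C₀ : VariableChange R)

/-- The isomorphism `(C₀ • W₀)(K) ≃+ W₀(K)` for a change of variables `C₀` defined over the base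
ring `R` of the Weierstrass curve `W₀`. -/
noncomputable def h15_vcEquivBase :
    (Affine.baseChange (C₀ • W₀) K).Point ≃+ (Affine.baseChange W₀ K).Point :=
  h15_vcEquiv (W₀.map (algebraMap R K)) (C₀.map (algebraMap R K))
    ((C₀ • W₀).map (algebraMap R K)) (map_variableChange W₀ C₀ (algebraMap R K)).symm

theorem h15_vcEquivBase_zero : h15_vcEquivBase (K := K) W₀ C₀ 0 = 0 :=
  _root_.map_zero _

theorem h15_vcEquivBase_some {x y : K} (h : (Affine.baseChange (C₀ • W₀) K).Nonsingular x y) :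
    ∃ h' : (Affine.baseChange W₀ K).Nonsingular (h15_X (C₀.map (algebraMap R K)) x)
        (h15_Y (C₀.map (algebraMap R K)) x y),
      h15_vcEquivBase W₀ C₀ (.some x y h) = .some _ _ h' :=
  ⟨_, h15_vcEquiv_some (W₀.map (algebraMap R K)) (C₀.map (algebraMap R K))
    ((C₀ • W₀).map (algebraMap R K)) (map_variableChange W₀ C₀ (algebraMap R K)).symm h⟩

/-- The isomorphism induced by a change of variables over the base is Galois equivariant. -/
theorem h15_vcEquivBase_smul (σ : K ≃ₐ[S] K) (P : (Affine.baseChange (C₀ • W₀) K).Point) :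
    h15_vcEquivBase W₀ C₀ (σ • P) = σ • h15_vcEquivBase W₀ C₀ P := by
  have hσ : ∀ r : R, σ (algebraMap R K r) = algebraMap R K r := fun r => by
    rw [IsScalarTower.algebraMap_apply R S K, σ.commutes]
  rcases P with _ | ⟨x, y, h⟩
  · change h15_vcEquivBase W₀ C₀ (σ • 0) = σ • h15_vcEquivBase W₀ C₀ 0
    rw [smul_zero, _root_.map_zero, smul_zero]
  · rw [algEquiv_smul_def, Point.map_some]
    obtain ⟨h1, e1⟩ := h15_vcEquivBase_some W₀ C₀ h
    obtain ⟨h2, e2⟩ := h15_vcEquivBase_some W₀ C₀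
      ((Affine.baseChange_nonsingular (C₀ • W₀) σ.toAlgHom.injective x y).mpr h)
    rw [e1, algEquiv_smul_def, Point.map_some]
    refine e2.trans ?_
    rw [Affine.Point.some.injEq]
    constructor
    · simp [h15_X, hσ]
    · simp [h15_Y, hσ]

theorem h15_vcEquivBase_symm_smul (σ : K ≃ₐ[S] K) (Q : (Affine.baseChange W₀ K).Point) :
    (h15_vcEquivBase W₀ C₀).symm (σ • Q) = σ • (h15_vcEquivBase W₀ C₀).symm Q := by
  apply (h15_vcEquivBase (K := K) W₀ C₀).injective
  rw [h15_vcEquivBase_smul, AddEquiv.apply_symm_apply, AddEquiv.apply_symm_apply]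

/-- If `σ` fixes the `n`-torsion of `W₀(K)`, then it fixes the `n`-torsion of `(C₀ • W₀)(K)`. -/
theorem h15_torsion_fixed_smul (σ : K ≃ₐ[S] K) (n : ℕ)
    (h : ∀ x : Submodule.torsionBy ℤ (Affine.baseChange W₀ K).Point n, σ • x = x)
    (x : Submodule.torsionBy ℤ (Affine.baseChange (C₀ • W₀) K).Point n) : σ • x = x := by
  have hx : h15_vcEquivBase W₀ C₀ x.1 ∈ Submodule.torsionBy ℤ (Affine.baseChange W₀ K).Point n := by
    rw [Submodule.mem_torsionBy_iff, ← map_zsmul, (Submodule.mem_torsionBy_iff _ _).mp x.2,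
      _root_.map_zero]
  have h1 := congrArg Subtype.val (h ⟨h15_vcEquivBase W₀ C₀ x.1, hx⟩)
  apply Subtype.ext
  apply (h15_vcEquivBase (K := K) W₀ C₀).injective
  change h15_vcEquivBase W₀ C₀ (σ • x.1) = _
  rw [h15_vcEquivBase_smul]
  exact h1

/-- If `σ` fixes the `n`-torsion of `(C₀ • W₀)(K)`, then it fixes the `n`-torsion of `W₀(K)`. -/
theorem h15_torsion_fixed_of_smul (σ : K ≃ₐ[S] K) (n : ℕ)
    (h : ∀ x : Submodule.torsionBy ℤ (Affine.baseChange (C₀ • W₀) K).Point n, σ • x = x)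
    (x : Submodule.torsionBy ℤ (Affine.baseChange W₀ K).Point n) : σ • x = x := by
  have hx : (h15_vcEquivBase W₀ C₀).symm x.1
      ∈ Submodule.torsionBy ℤ (Affine.baseChange (C₀ • W₀) K).Point n := by
    rw [Submodule.mem_torsionBy_iff, ← map_zsmul, (Submodule.mem_torsionBy_iff _ _).mp x.2,
      _root_.map_zero]
  have h1 := congrArg Subtype.val (h ⟨(h15_vcEquivBase W₀ C₀).symm x.1, hx⟩)
  apply Subtype.ext
  apply (h15_vcEquivBase (K := K) W₀ C₀).symm.injective
  change (h15_vcEquivBase W₀ C₀).symm (σ • x.1) = _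
  rw [h15_vcEquivBase_symm_smul]
  exact h1

end Galois

section Unramified

open WeierstrassCurve.Affine WeierstrassCurve.Affine.Point

variable {R S K : Type*} [CommRing R] [Field S] [Field K] [DecidableEq K] [Algebra R S]
  [Algebra R K] [Algebra S K] [IsScalarTower R S K]

/-- Unramifiedness of the mod `n` Galois representation is invariant under admissible changes of
variables defined over the base ring. -/
theorem h15_galoisRepUnramifiedAt_smul_iff (W₀ : WeierstrassCurve R) (C₀ : VariableChange R)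
    (n q : ℕ) :
    Affine.Point.GaloisRepUnramifiedAt S K (C₀ • W₀) n q
      ↔ Affine.Point.GaloisRepUnramifiedAt S K W₀ n q := by
  constructor
  · intro h A hA σ hσ x
    exact h15_torsion_fixed_of_smul W₀ C₀ σ n (h A hA σ hσ) x
  · intro h A hA σ hσ x
    exact h15_torsion_fixed_smul W₀ C₀ σ n (h A hA σ hσ) x

/-- To prove that the Frey curve's mod `p` representation is unramified at `q`, it suffices to do
so for any Weierstrass model `W₀` over `ℚ` with `C₀ • W₀ = P.freyCurve`. -/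
theorem h15_frey_unramified_of_model (P : FreyPackage) (q : ℕ) (W₀ : WeierstrassCurve ℚ)
    (C₀ : VariableChange ℚ) (he : C₀ • W₀ = P.freyCurve)
    (h : Affine.Point.GaloisRepUnramifiedAt (K := AlgebraicClosure ℚ) ℚ W₀ P.p q) :
    P.GaloisRepUnramifiedAt q := by
  unfold FreyPackage.GaloisRepUnramifiedAt
  rw [← he]
  exact (h15_galoisRepUnramifiedAt_smul_iff W₀ C₀ P.p q).mpr h

end Unramified

end Fermat.Agent.S05
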