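import Mathlib

/-
helper86, project S05, step (1): the kernel of reduction `E₁` has no prime-to-residue
torsion.  General Weierstrass equation with integral coefficients, arbitrary valuation
(or valuation subring) on a field.  Method: `t = x / y` is additive on `E₁` up to second
order terms (chord/tangent line in the `(z, w) = (x / y, 1 / y)` chart plus Vieta).

Main exports (namespace `Fermat.Agent.S05`):
* `h86_nsmul_ne_zero`            (valuation form)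
* `h86_nsmul_ne_zero_of_notMem`  (valuation subring form)
* `h86_E1`, `h86_mem_E1_iff`, `h86_some_mem_E1_iff`   (`E₁` as an `AddSubgroup`)
* `h86_E1_nsmul_eq_zero`, `h86_E1_zsmul_eq_zero`, `h86_torsion_free`, `h86_eq_of_sub_mem_E1`
* `h86_add_mem`, `h86_nsmul_aux`  (additivity of `t` up to second order)
-/

set_option autoImplicit false
set_option linter.unusedSectionVars false

namespace Fermat.Agent.S05

open WeierstrassCurve WeierstrassCurve.Affine Polynomial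

section algebra

variable {K : Type*} [Field K] [DecidableEq K] (W : WeierstrassCurve K)

/-- Both points lie on the chord/tangent line. -/
lemma h86_line {x₁ x₂ y₁ y₂ : K}
    (e₁ : W.toAffine.Equation x₁ y₁) (e₂ : W.toAffine.Equation x₂ y₂)
    (hxy : ¬(x₁ = x₂ ∧ y₁ = W.toAffine.negY x₂ y₂)) :
    y₂ - W.toAffine.slope x₁ x₂ y₁ y₂ * x₂ = y₁ - W.toAffine.slope x₁ x₂ y₁ y₂ * x₁ := by
  by_cases hx : x₁ = x₂
  · have hy : y₁ ≠ W.toAffine.negY x₂ y₂ := fun h => hxy ⟨hx, h⟩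
    have := Affine.Y_eq_of_Y_ne e₁ e₂ hx hy
    subst hx
    subst this
    rfl
  · rw [Affine.slope_of_X_ne hx]
    have : x₁ - x₂ ≠ 0 := sub_ne_zero.mpr hx
    field_simp
    ring

/-- Vieta relations for the chord/tangent cubic. -/
lemma h86_vieta {x₁ x₂ y₁ y₂ : K}
    (e₁ : W.toAffine.Equation x₁ y₁) (e₂ : W.toAffine.Equation x₂ y₂)
    (hxy : ¬(x₁ = x₂ ∧ y₁ = W.toAffine.negY x₂ y₂)) (ℓ x₃ c : K)
    (hℓ : ℓ = W.toAffine.slope x₁ x₂ y₁ y₂) (hx₃ : x₃ = W.toAffine.addX x₁ x₂ ℓ)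
    (hc : c = y₁ - ℓ * x₁) :
    x₁ + x₂ + x₃ = ℓ ^ 2 + W.a₁ * ℓ - W.a₂ ∧
      x₁ * x₂ + x₁ * x₃ + x₂ * x₃ = W.a₄ - 2 * ℓ * c - W.a₁ * c - W.a₃ * ℓ ∧
      x₁ * x₂ * x₃ = c ^ 2 + W.a₃ * c - W.a₆ := by
  have H := Affine.addPolynomial_slope e₁ e₂ hxy
  rw [Affine.addPolynomial_eq, ← hℓ, ← hx₃] at H
  have H0 := congrArg (Polynomial.eval 0) H
  have H1 := congrArg (Polynomial.eval 1) H
  simp only [Cubic.toPoly, eval_neg, eval_add, eval_mul, eval_pow, eval_C, eval_X,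
    eval_sub] at H0 H1
  have E1 : x₁ + x₂ + x₃ = ℓ ^ 2 + W.a₁ * ℓ - W.a₂ := by
    rw [hx₃]; simp only [Affine.addX]; ring
  refine ⟨E1, ?_, ?_⟩
  · rw [hc]; linear_combination H1 + E1 - H0
  · rw [hc]; linear_combination (-1 : K) * H0

end algebra

section pure

variable {K : Type*} [Field K]

/-- Product of the three `y`-coordinates on the line. -/
lemma h86_prod_Y {a₂ a₄ a₆ x₁ x₂ x₃ ℓ c a₁ a₃ : K}
    (E1 : x₁ + x₂ + x₃ = ℓ ^ 2 + a₁ * ℓ - a₂)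
    (E2 : x₁ * x₂ + x₁ * x₃ + x₂ * x₃ = a₄ - 2 * ℓ * c - a₁ * c - a₃ * ℓ)
    (E3 : x₁ * x₂ * x₃ = c ^ 2 + a₃ * c - a₆) :
    (ℓ * x₁ + c) * (ℓ * x₂ + c) * (ℓ * x₃ + c) =
      c ^ 3 - a₂ * ℓ * c ^ 2 + a₄ * ℓ ^ 2 * c - a₆ * ℓ ^ 3 := by
  linear_combination ℓ ^ 3 * E3 + ℓ ^ 2 * c * E2 + ℓ * c ^ 2 * E1

lemma h86_sum_xYY {a₂ a₄ a₆ x₁ x₂ x₃ ℓ c a₁ a₃ : K}
    (E1 : x₁ + x₂ + x₃ = ℓ ^ 2 + a₁ * ℓ - a₂)
    (E2 : x₁ * x₂ + x₁ * x₃ + x₂ * x₃ = a₄ - 2 * ℓ * c - a₁ * c - a₃ * ℓ)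
    (E3 : x₁ * x₂ * x₃ = c ^ 2 + a₃ * c - a₆) :
    x₁ * (ℓ * x₂ + c) * (ℓ * x₃ + c) + x₂ * (ℓ * x₁ + c) * (ℓ * x₃ + c) +
        x₃ * (ℓ * x₁ + c) * (ℓ * x₂ + c) =
      a₃ * ℓ ^ 2 * c - 3 * a₆ * ℓ ^ 2 + 2 * a₄ * ℓ * c - a₁ * ℓ * c ^ 2 - a₂ * c ^ 2 := by
  linear_combination 3 * ℓ ^ 2 * E3 + 2 * ℓ * c * E2 + c ^ 2 * E1

end pure

section valuation

variable {K : Type*} [Field K] {Γ₀ : Type*} [LinearOrderedCommGroupWithZero Γ₀]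
  (v : Valuation K Γ₀)

lemma h86_natCast_le_one (n : ℕ) : v (n : K) ≤ 1 := by
  induction n with
  | zero => simp
  | succ n ih =>
    rw [Nat.cast_succ]
    exact v.map_add_le ih (by simp)

lemma h86_B_one {x : K} (r : Γ₀) (hx : v x ≤ 1) : v x ≤ r ^ 0 := by simpa using hx

lemma h86_B_mul {x y : K} {r : Γ₀} {i j : ℕ} (hx : v x ≤ r ^ i) (hy : v y ≤ r ^ j) :
    v (x * y) ≤ r ^ (i + j) := by
  rw [map_mul, pow_add]; exact mul_le_mul' hx hy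

lemma h86_B_pow {x : K} {r : Γ₀} {i : ℕ} (hx : v x ≤ r ^ i) (n : ℕ) :
    v (x ^ n) ≤ r ^ (i * n) := by
  rw [map_pow, pow_mul]; exact pow_le_pow_left' hx n

lemma h86_B_mono {x : K} {r : Γ₀} (hr : r ≤ 1) {i k : ℕ} (hx : v x ≤ r ^ i) (hk : k ≤ i) :
    v x ≤ r ^ k :=
  hx.trans (pow_le_pow_right_of_le_one' hr hk)

lemma h86_B_two (r : Γ₀) : v (2 : K) ≤ r ^ 0 := by
  have := h86_natCast_le_one v 2
  simpa using this

lemma h86_B_three (r : Γ₀) : v (3 : K) ≤ r ^ 0 := by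
  have := h86_natCast_le_one v 3
  simpa using this

/-- Integrality: a point with integral `x` has integral `y`. -/
lemma h86_integral_y {a₁ a₂ a₃ a₄ a₆ x y : K} (h1 : v a₁ ≤ 1) (h2 : v a₂ ≤ 1) (h3 : v a₃ ≤ 1)
    (h4 : v a₄ ≤ 1) (h6 : v a₆ ≤ 1)
    (heq : y ^ 2 + a₁ * x * y + a₃ * y = x ^ 3 + a₂ * x ^ 2 + a₄ * x + a₆) (hx : v x ≤ 1) :
    v y ≤ 1 := by
  by_contra hy
  rw [not_le] at hy
  have hR : v (x ^ 3 + a₂ * x ^ 2 + a₄ * x + a₆) ≤ 1 := by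
    refine v.map_add_le (v.map_add_le (v.map_add_le ?_ ?_) ?_) h6
    · rw [map_pow]; exact pow_le_one' hx 3
    · rw [map_mul, map_pow]; exact mul_le_one' h2 (pow_le_one' hx 2)
    · rw [map_mul]; exact mul_le_one' h4 hx
  have hL : v (y ^ 2 + a₁ * x * y + a₃ * y) = v y ^ 2 := by
    have e : y ^ 2 + a₁ * x * y + a₃ * y = y * (y + (a₁ * x + a₃)) := by ring
    have e2 : v (a₁ * x + a₃) ≤ 1 :=
      v.map_add_le (by rw [map_mul]; exact mul_le_one' h1 hx) h3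
    rw [e, map_mul, v.map_add_eq_of_lt_left (lt_of_le_of_lt e2 hy), pow_two]
  rw [heq] at hL
  rw [hL] at hR
  exact absurd hR (not_le.mpr (one_lt_pow₀ hy (by norm_num)))

/-- Points with non-integral `x`: `v y ^ 2 = v x ^ 3`. -/
lemma h86_val_cube {a₁ a₂ a₃ a₄ a₆ x y : K} (h1 : v a₁ ≤ 1) (h2 : v a₂ ≤ 1) (h3 : v a₃ ≤ 1)
    (h4 : v a₄ ≤ 1) (h6 : v a₆ ≤ 1)
    (heq : y ^ 2 + a₁ * x * y + a₃ * y = x ^ 3 + a₂ * x ^ 2 + a₄ * x + a₆) (hx : 1 < v x) :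
    v x < v y ∧ v y ^ 2 = v x ^ 3 := by
  have hx2 : v x < v x ^ 2 := lt_self_pow₀ hx (by norm_num)
  have hx3 : v x ^ 2 < v x ^ 3 := pow_lt_pow_right₀ hx (by norm_num)
  have hR : v (x ^ 3 + a₂ * x ^ 2 + a₄ * x + a₆) = v x ^ 3 := by
    have e1 : v (a₂ * x ^ 2) < v (x ^ 3) := by
      rw [map_mul, map_pow, map_pow]
      exact lt_of_le_of_lt (mul_le_of_le_one_of_le h2 le_rfl) hx3
    have s1 : v (x ^ 3 + a₂ * x ^ 2) = v x ^ 3 := by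
      rw [v.map_add_eq_of_lt_left e1, map_pow]
    have e2 : v (a₄ * x) < v (x ^ 3 + a₂ * x ^ 2) := by
      rw [s1, map_mul]
      exact lt_of_le_of_lt (mul_le_of_le_one_of_le h4 le_rfl) (hx2.trans hx3)
    have s2 : v (x ^ 3 + a₂ * x ^ 2 + a₄ * x) = v x ^ 3 := by
      rw [v.map_add_eq_of_lt_left e2, s1]
    have e3 : v a₆ < v (x ^ 3 + a₂ * x ^ 2 + a₄ * x) := by
      rw [s2]
      exact lt_of_le_of_lt h6 (hx.trans (hx2.trans hx3))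
    rw [v.map_add_eq_of_lt_left e3, s2]
  have e : y ^ 2 + a₁ * x * y + a₃ * y = y * (y + (a₁ * x + a₃)) := by ring
  have e2 : v (a₁ * x + a₃) ≤ v x :=
    v.map_add_le (by rw [map_mul]; exact mul_le_of_le_one_of_le h1 le_rfl) (h3.trans hx.le)
  rw [← heq, e, map_mul] at hR
  have hxy : v x < v y := by
    by_contra hle
    rw [not_lt] at hle
    have : v y * v (y + (a₁ * x + a₃)) ≤ v x ^ 2 := by
      rw [pow_two]
      exact mul_le_mul' hle (v.map_add_le hle e2)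
    rw [hR] at this
    exact absurd this (not_le.mpr hx3)
  refine ⟨hxy, ?_⟩
  rw [v.map_add_eq_of_lt_left (lt_of_le_of_lt e2 hxy)] at hR
  rw [pow_two, hR]

/-- Chart data of a point with non-integral `x`. -/
lemma h86_chart {a₁ a₂ a₃ a₄ a₆ x y : K} (h1 : v a₁ ≤ 1) (h2 : v a₂ ≤ 1) (h3 : v a₃ ≤ 1)
    (h4 : v a₄ ≤ 1) (h6 : v a₆ ≤ 1)
    (heq : y ^ 2 + a₁ * x * y + a₃ * y = x ^ 3 + a₂ * x ^ 2 + a₄ * x + a₆) (hx : 1 < v x) :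
    y ≠ 0 ∧ x ≠ 0 ∧ v (x / y) < 1 ∧ v (1 / y) = v (x / y) ^ 3 ∧
      1 / y + a₁ * (x / y) * (1 / y) + a₃ * (1 / y) ^ 2 =
        (x / y) ^ 3 + a₂ * (x / y) ^ 2 * (1 / y) + a₄ * (x / y) * (1 / y) ^ 2 + a₆ * (1 / y) ^ 3 := by
  obtain ⟨hxy, hc⟩ := h86_val_cube v h1 h2 h3 h4 h6 heq hx
  have hx0 : x ≠ 0 := by
    rintro rfl
    simp at hx
  have hy0 : y ≠ 0 := by
    rintro rfl
    rw [map_zero] at hxy
    exact absurd hxy (not_lt.mpr zero_le)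
  have hvy : v y ≠ 0 := (v.ne_zero_iff).mpr hy0
  refine ⟨hy0, hx0, ?_, ?_, ?_⟩
  · rw [map_div₀]
    exact (div_lt_one₀ (zero_lt_iff.mpr hvy)).mpr hxy
  · rw [map_div₀, map_div₀, map_one, div_pow, ← hc]
    rw [eq_div_iff (pow_ne_zero 3 hvy), one_div, pow_succ (v y) 2, ← mul_assoc,
      mul_right_comm, inv_mul_cancel₀ hvy, one_mul]
  · field_simp
    linear_combination heq


/-- Chord estimate in the `(z, w)` chart. -/
lemma h86_chord {a₁ a₂ a₃ a₄ a₆ z₁ w₁ z₂ w₂ : K} {r : Γ₀} (h1 : v a₁ ≤ 1) (h2 : v a₂ ≤ 1)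
    (h3 : v a₃ ≤ 1) (h4 : v a₄ ≤ 1) (h6 : v a₆ ≤ 1) (hr : r < 1)
    (c₁ : w₁ + a₁ * z₁ * w₁ + a₃ * w₁ ^ 2 =
      z₁ ^ 3 + a₂ * z₁ ^ 2 * w₁ + a₄ * z₁ * w₁ ^ 2 + a₆ * w₁ ^ 3)
    (c₂ : w₂ + a₁ * z₂ * w₂ + a₃ * w₂ ^ 2 =
      z₂ ^ 3 + a₂ * z₂ ^ 2 * w₂ + a₄ * z₂ * w₂ ^ 2 + a₆ * w₂ ^ 3)
    (hz₁ : v z₁ ≤ r) (hw₁ : v w₁ ≤ r ^ 3) (hz₂ : v z₂ ≤ r) (hw₂ : v w₂ ≤ r ^ 3) :
    v (w₁ - w₂) ≤ r ^ 2 * v (z₁ - z₂) := by
  have hr' := hr.le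
  have hz₁' : v z₁ ≤ r ^ 1 := by simpa using hz₁
  have hz₂' : v z₂ ≤ r ^ 1 := by simpa using hz₂
  have b1 := h86_B_one v r h1
  have b2 := h86_B_one v r h2
  have b3 := h86_B_one v r h3
  have b4 := h86_B_one v r h4
  have b6 := h86_B_one v r h6
  have hU : v (1 + (a₁ * z₂ + a₃ * (w₁ + w₂) - a₂ * z₂ ^ 2 - a₄ * z₂ * (w₁ + w₂)
      - a₆ * (w₁ ^ 2 + w₁ * w₂ + w₂ ^ 2))) = 1 := by
    apply v.map_one_add_of_lt
    refine lt_of_le_of_lt ?_ hr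
    rw [← pow_one r]
    have hww : v (w₁ + w₂) ≤ r ^ 3 := v.map_add_le hw₁ hw₂
    refine v.map_sub_le (v.map_sub_le (v.map_sub_le (v.map_add_le ?_ ?_) ?_) ?_) ?_
    · exact h86_B_mono v hr' (h86_B_mul v b1 hz₂') (by norm_num)
    · exact h86_B_mono v hr' (h86_B_mul v b3 hww) (by norm_num)
    · exact h86_B_mono v hr' (h86_B_mul v b2 (h86_B_pow v hz₂' 2)) (by norm_num)
    · exact h86_B_mono v hr' (h86_B_mul v (h86_B_mul v b4 hz₂') hww) (by norm_num)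
    · refine h86_B_mono v hr' (h86_B_mul v b6 (i := 0) (j := 3) ?_) (by norm_num)
      refine v.map_add_le (v.map_add_le ?_ ?_) ?_
      · exact h86_B_mono v hr' (h86_B_pow v hw₁ 2) (by norm_num)
      · exact h86_B_mono v hr' (h86_B_mul v hw₁ hw₂) (by norm_num)
      · exact h86_B_mono v hr' (h86_B_pow v hw₂ 2) (by norm_num)
  have hV : v (z₁ ^ 2 + z₁ * z₂ + z₂ ^ 2 + a₂ * (z₁ + z₂) * w₁ + a₄ * w₁ ^ 2 - a₁ * w₁)
      ≤ r ^ 2 := by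
    refine v.map_sub_le (v.map_add_le (v.map_add_le (v.map_add_le (v.map_add_le ?_ ?_) ?_) ?_)
      ?_) ?_
    · exact h86_B_mono v hr' (h86_B_pow v hz₁' 2) (by norm_num)
    · exact h86_B_mono v hr' (h86_B_mul v hz₁' hz₂') (by norm_num)
    · exact h86_B_mono v hr' (h86_B_pow v hz₂' 2) (by norm_num)
    · exact h86_B_mono v hr' (h86_B_mul v (h86_B_mul v b2 (v.map_add_le hz₁' hz₂')) hw₁)
        (by norm_num)
    · exact h86_B_mono v hr' (h86_B_mul v b4 (h86_B_pow v hw₁ 2)) (by norm_num)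
    · exact h86_B_mono v hr' (h86_B_mul v b1 hw₁) (by norm_num)
  have key : (w₁ - w₂) * (1 + (a₁ * z₂ + a₃ * (w₁ + w₂) - a₂ * z₂ ^ 2 - a₄ * z₂ * (w₁ + w₂)
      - a₆ * (w₁ ^ 2 + w₁ * w₂ + w₂ ^ 2))) =
      (z₁ - z₂) * (z₁ ^ 2 + z₁ * z₂ + z₂ ^ 2 + a₂ * (z₁ + z₂) * w₁ + a₄ * w₁ ^ 2 - a₁ * w₁) := by
    linear_combination c₁ - c₂
  have := congrArg v key
  rw [map_mul, map_mul, hU, mul_one] at this
  rw [this, mul_comm]
  exact mul_le_mul' hV le_rfl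

/-- Slope estimate, chord case. -/
lemma h86_chord_slope {a₁ a₂ a₃ a₄ a₆ x₁ y₁ x₂ y₂ ℓ : K} {r : Γ₀} (h1 : v a₁ ≤ 1)
    (h2 : v a₂ ≤ 1) (h3 : v a₃ ≤ 1) (h4 : v a₄ ≤ 1) (h6 : v a₆ ≤ 1) (hr : r < 1)
    (hy₁ : y₁ ≠ 0) (hy₂ : y₂ ≠ 0)
    (c₁ : 1 / y₁ + a₁ * (x₁ / y₁) * (1 / y₁) + a₃ * (1 / y₁) ^ 2 =
      (x₁ / y₁) ^ 3 + a₂ * (x₁ / y₁) ^ 2 * (1 / y₁) + a₄ * (x₁ / y₁) * (1 / y₁) ^ 2
        + a₆ * (1 / y₁) ^ 3)
    (c₂ : 1 / y₂ + a₁ * (x₂ / y₂) * (1 / y₂) + a₃ * (1 / y₂) ^ 2 =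
      (x₂ / y₂) ^ 3 + a₂ * (x₂ / y₂) ^ 2 * (1 / y₂) + a₄ * (x₂ / y₂) * (1 / y₂) ^ 2
        + a₆ * (1 / y₂) ^ 3)
    (hz₁ : v (x₁ / y₁) ≤ r) (hw₁ : v (1 / y₁) ≤ r ^ 3) (hz₂ : v (x₂ / y₂) ≤ r)
    (hw₂ : v (1 / y₂) ≤ r ^ 3) (hx : x₁ ≠ x₂) (hℓ : ℓ * (x₁ - x₂) = y₁ - y₂) :
    y₁ - ℓ * x₁ ≠ 0 ∧ v (ℓ / (y₁ - ℓ * x₁)) ≤ r ^ 2 := by
  have hB := h86_chord v h1 h2 h3 h4 h6 hr c₁ c₂ hz₁ hw₁ hz₂ hw₂
  have hz : x₁ / y₁ - x₂ / y₂ ≠ 0 := by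
    intro h
    rw [h, map_zero, mul_zero] at hB
    have h' : 1 / y₁ - 1 / y₂ = 0 := v.zero_iff.mp (le_zero_iff.mp hB)
    have hyy : y₁ = y₂ := by
      have := sub_eq_zero.mp h'
      field_simp at this
      exact this.symm
    have hxx : x₁ / y₁ = x₂ / y₂ := sub_eq_zero.mp h
    rw [hyy] at hxx
    field_simp at hxx
    exact hx hxx
  have hxx : x₁ - x₂ ≠ 0 := sub_ne_zero.mpr hx
  have key : (y₁ - ℓ * x₁) * (x₁ - x₂) = y₁ * y₂ * (x₁ / y₁ - x₂ / y₂) := by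
    field_simp
    linear_combination (-x₁) * hℓ
  have hc : y₁ - ℓ * x₁ ≠ 0 := by
    intro h
    rw [h, zero_mul] at key
    exact mul_ne_zero (mul_ne_zero hy₁ hy₂) hz key.symm
  refine ⟨hc, ?_⟩
  have key2 : ℓ / (y₁ - ℓ * x₁) = -(1 / y₁ - 1 / y₂) / (x₁ / y₁ - x₂ / y₂) := by
    rw [div_eq_div_iff hc hz]
    have e1 : ℓ * (x₁ / y₁ - x₂ / y₂) * (y₁ * y₂ * (x₁ - x₂)) =
        (ℓ * (x₁ - x₂)) * (y₁ * y₂ * (x₁ / y₁ - x₂ / y₂)) := by ring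
    have e2 : -(1 / y₁ - 1 / y₂) * (y₁ - ℓ * x₁) * (y₁ * y₂ * (x₁ - x₂)) =
        (y₁ - y₂) * ((y₁ - ℓ * x₁) * (x₁ - x₂)) := by
      field_simp
      ring
    have hne : y₁ * y₂ * (x₁ - x₂) ≠ 0 := mul_ne_zero (mul_ne_zero hy₁ hy₂) hxx
    apply mul_right_cancel₀ hne
    rw [e1, e2, hℓ, key]
  rw [key2, map_div₀, Valuation.map_neg]
  rw [div_le_iff₀ (zero_lt_iff.mpr ((v.ne_zero_iff).mpr hz))]
  exact hB

/-- Slope estimate, tangent case. -/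
lemma h86_tangent_slope {a₁ a₂ a₃ a₄ a₆ x y ℓ : K} {r : Γ₀} (h1 : v a₁ ≤ 1)
    (h2 : v a₂ ≤ 1) (h3 : v a₃ ≤ 1) (h4 : v a₄ ≤ 1) (h6 : v a₆ ≤ 1) (hr : r < 1)
    (hy : y ≠ 0)
    (heq : y ^ 2 + a₁ * x * y + a₃ * y = x ^ 3 + a₂ * x ^ 2 + a₄ * x + a₆)
    (hz : v (x / y) ≤ r) (hw : v (1 / y) ≤ r ^ 3)
    (hD : 2 * y + a₁ * x + a₃ ≠ 0)
    (hℓ : ℓ * (2 * y + a₁ * x + a₃) = 3 * x ^ 2 + 2 * a₂ * x + a₄ - a₁ * y) :
    y - ℓ * x ≠ 0 ∧ v (ℓ / (y - ℓ * x)) ≤ r ^ 2 := by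
  have hr' := hr.le
  have hz' : v (x / y) ≤ r ^ 1 := by simpa using hz
  have b1 := h86_B_one v r h1
  have b2 := h86_B_one v r h2
  have b3 := h86_B_one v r h3
  have b4 := h86_B_one v r h4
  have b6 := h86_B_one v r h6
  have t2 := h86_B_two v r
  have t3 := h86_B_three v r
  have hU : v (1 + (a₁ * (x / y) + 2 * a₃ * (1 / y) - a₂ * (x / y) ^ 2
      - 2 * a₄ * (x / y) * (1 / y) - 3 * a₆ * (1 / y) ^ 2)) = 1 := by
    apply v.map_one_add_of_lt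
    refine lt_of_le_of_lt ?_ hr
    rw [← pow_one r]
    refine v.map_sub_le (v.map_sub_le (v.map_sub_le (v.map_add_le ?_ ?_) ?_) ?_) ?_
    · exact h86_B_mono v hr' (h86_B_mul v b1 hz') (by norm_num)
    · exact h86_B_mono v hr' (h86_B_mul v (h86_B_mul v t2 b3) hw) (by norm_num)
    · exact h86_B_mono v hr' (h86_B_mul v b2 (h86_B_pow v hz' 2)) (by norm_num)
    · exact h86_B_mono v hr' (h86_B_mul v (h86_B_mul v (h86_B_mul v t2 b4) hz') hw) (by norm_num)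
    · exact h86_B_mono v hr' (h86_B_mul v (h86_B_mul v t3 b6) (h86_B_pow v hw 2)) (by norm_num)
  have hN : v (3 * (x / y) ^ 2 + 2 * a₂ * (x / y) * (1 / y) + a₄ * (1 / y) ^ 2 - a₁ * (1 / y))
      ≤ r ^ 2 := by
    refine v.map_sub_le (v.map_add_le (v.map_add_le ?_ ?_) ?_) ?_
    · exact h86_B_mono v hr' (h86_B_mul v t3 (h86_B_pow v hz' 2)) (by norm_num)
    · exact h86_B_mono v hr' (h86_B_mul v (h86_B_mul v (h86_B_mul v t2 b2) hz') hw) (by norm_num)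
    · exact h86_B_mono v hr' (h86_B_mul v b4 (h86_B_pow v hw 2)) (by norm_num)
    · exact h86_B_mono v hr' (h86_B_mul v b1 hw) (by norm_num)
  set U := 1 + (a₁ * (x / y) + 2 * a₃ * (1 / y) - a₂ * (x / y) ^ 2
      - 2 * a₄ * (x / y) * (1 / y) - 3 * a₆ * (1 / y) ^ 2) with hUdef
  set N := 3 * (x / y) ^ 2 + 2 * a₂ * (x / y) * (1 / y) + a₄ * (1 / y) ^ 2 - a₁ * (1 / y)
    with hNdef
  have hU0 : U ≠ 0 := by
    intro h
    rw [h, map_zero] at hU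
    exact zero_ne_one hU
  have key : (y - ℓ * x) * (2 * y + a₁ * x + a₃) = -(U * y ^ 2) := by
    rw [hUdef]
    field_simp
    linear_combination (-x) * hℓ + 3 * heq
  have hc : y - ℓ * x ≠ 0 := by
    intro h
    rw [h, zero_mul] at key
    exact mul_ne_zero hU0 (pow_ne_zero 2 hy) (neg_eq_zero.mp key.symm)
  refine ⟨hc, ?_⟩
  have key2 : ℓ / (y - ℓ * x) = -N / U := by
    rw [div_eq_div_iff hc hU0]
    have e1 : N * y ^ 2 = ℓ * (2 * y + a₁ * x + a₃) := by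
      rw [hℓ, hNdef]
      field_simp
    apply mul_right_cancel₀ (mul_ne_zero hD (pow_ne_zero 2 hy))
    calc ℓ * U * ((2 * y + a₁ * x + a₃) * y ^ 2)
        = (ℓ * (2 * y + a₁ * x + a₃)) * (U * y ^ 2) := by ring
      _ = (N * y ^ 2) * (-((y - ℓ * x) * (2 * y + a₁ * x + a₃))) := by rw [key, neg_neg, e1]
      _ = -N * (y - ℓ * x) * ((2 * y + a₁ * x + a₃) * y ^ 2) := by ring
  rw [key2, map_div₀, Valuation.map_neg, hU, div_one]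
  exact hN

/-- The third intersection point of the chord/tangent line. -/
lemma h86_third {a₁ a₂ a₃ a₄ a₆ x₁ x₂ x₃ ℓ c : K} {r : Γ₀} (h1 : v a₁ ≤ 1)
    (h2 : v a₂ ≤ 1) (h3 : v a₃ ≤ 1) (h4 : v a₄ ≤ 1) (h6 : v a₆ ≤ 1) (hr : r < 1)
    (E1 : x₁ + x₂ + x₃ = ℓ ^ 2 + a₁ * ℓ - a₂)
    (E2 : x₁ * x₂ + x₁ * x₃ + x₂ * x₃ = a₄ - 2 * ℓ * c - a₁ * c - a₃ * ℓ)
    (E3 : x₁ * x₂ * x₃ = c ^ 2 + a₃ * c - a₆)
    (hc : c ≠ 0) (hl : v (ℓ / c) ≤ r ^ 2) (hn : v (1 / c) ≤ r ^ 3)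
    (hY₁ : ℓ * x₁ + c ≠ 0) (hY₂ : ℓ * x₂ + c ≠ 0)
    (hz₁ : v (x₁ / (ℓ * x₁ + c)) ≤ r) (hz₂ : v (x₂ / (ℓ * x₂ + c)) ≤ r) :
    ℓ * x₃ + c ≠ 0 ∧
      v (x₃ / (ℓ * x₃ + c) + x₁ / (ℓ * x₁ + c) + x₂ / (ℓ * x₂ + c)) ≤ r ^ 2 ∧
      v (x₃ / (ℓ * x₃ + c)) ≤ r ∧ v (1 / (ℓ * x₃ + c)) ≤ r ^ 3 := by
  have hr' := hr.le
  have b1 := h86_B_one v r h1
  have b2 := h86_B_one v r h2
  have b3 := h86_B_one v r h3
  have b4 := h86_B_one v r h4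
  have b6 := h86_B_one v r h6
  have t2 := h86_B_two v r
  have t3 := h86_B_three v r
  have hP := h86_prod_Y E1 E2 E3
  have hS := h86_sum_xYY E1 E2 E3
  obtain ⟨m, hm⟩ : ∃ m : K, m = ℓ / c := ⟨_, rfl⟩
  obtain ⟨n, hn'⟩ : ∃ n : K, n = 1 / c := ⟨_, rfl⟩
  rw [← hm] at hl
  rw [← hn'] at hn
  have hA : v (1 + (-(a₂ * m) + a₄ * m ^ 2 - a₆ * m ^ 3)) = 1 := by
    apply v.map_one_add_of_lt
    refine lt_of_le_of_lt ?_ hr
    rw [← pow_one r]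
    refine v.map_sub_le (v.map_add_le ?_ ?_) ?_
    · rw [Valuation.map_neg]
      exact h86_B_mono v hr' (h86_B_mul v b2 hl) (by norm_num)
    · exact h86_B_mono v hr' (h86_B_mul v b4 (h86_B_pow v hl 2)) (by norm_num)
    · exact h86_B_mono v hr' (h86_B_mul v b6 (h86_B_pow v hl 3)) (by norm_num)
  have hBv : v (a₃ * m ^ 2 - 3 * a₆ * m ^ 2 * n + 2 * a₄ * m * n - a₁ * m - a₂ * n) ≤ r ^ 2 := by
    refine v.map_sub_le (v.map_sub_le (v.map_add_le (v.map_sub_le ?_ ?_) ?_) ?_) ?_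
    · exact h86_B_mono v hr' (h86_B_mul v b3 (h86_B_pow v hl 2)) (by norm_num)
    · exact h86_B_mono v hr' (h86_B_mul v (h86_B_mul v (h86_B_mul v t3 b6) (h86_B_pow v hl 2)) hn)
        (by norm_num)
    · exact h86_B_mono v hr' (h86_B_mul v (h86_B_mul v (h86_B_mul v t2 b4) hl) hn) (by norm_num)
    · exact h86_B_mono v hr' (h86_B_mul v b1 hl) (by norm_num)
    · exact h86_B_mono v hr' (h86_B_mul v b2 hn) (by norm_num)
  obtain ⟨A, hAdef⟩ : ∃ A : K, A = 1 + (-(a₂ * m) + a₄ * m ^ 2 - a₆ * m ^ 3) := ⟨_, rfl⟩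
  obtain ⟨B, hBdef⟩ : ∃ B : K,
    B = a₃ * m ^ 2 - 3 * a₆ * m ^ 2 * n + 2 * a₄ * m * n - a₁ * m - a₂ * n := ⟨_, rfl⟩
  rw [← hAdef] at hA
  rw [← hBdef] at hBv
  have hA0 : A ≠ 0 := by
    intro h
    rw [h, map_zero] at hA
    exact zero_ne_one hA
  have hmc : ℓ = m * c := by
    rw [hm]
    field_simp
  have hnc : n * c = 1 := by
    rw [hn']
    field_simp
  have hP' : (ℓ * x₁ + c) * (ℓ * x₂ + c) * (ℓ * x₃ + c) = c ^ 3 * A := by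
    rw [hP, hAdef]
    linear_combination (-a₂ * c ^ 2 + a₄ * c * (ℓ + m * c) - a₆ * (ℓ ^ 2 + ℓ * (m * c) + (m * c) ^ 2))
      * hmc
  have hS' : x₁ * (ℓ * x₂ + c) * (ℓ * x₃ + c) + x₂ * (ℓ * x₁ + c) * (ℓ * x₃ + c) +
      x₃ * (ℓ * x₁ + c) * (ℓ * x₂ + c) = c ^ 3 * B := by
    rw [hS, hBdef]
    linear_combination (a₃ * c * (ℓ + m * c) - 3 * a₆ * (ℓ + m * c) + 2 * a₄ * c - a₁ * c ^ 2) * hmc
      + (3 * a₆ * m ^ 2 * c ^ 2 - 2 * a₄ * m * c ^ 2 + a₂ * c ^ 2) * hnc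
  have hY₃ : ℓ * x₃ + c ≠ 0 := by
    intro h
    rw [h, mul_zero] at hP'
    exact mul_ne_zero (pow_ne_zero 3 hc) hA0 hP'.symm
  have hsum : x₃ / (ℓ * x₃ + c) + x₁ / (ℓ * x₁ + c) + x₂ / (ℓ * x₂ + c) = B / A := by
    have e : ∀ Y₁ Y₂ Y₃ : K, Y₁ ≠ 0 → Y₂ ≠ 0 → Y₃ ≠ 0 → x₃ / Y₃ + x₁ / Y₁ + x₂ / Y₂ =
        (x₁ * Y₂ * Y₃ + x₂ * Y₁ * Y₃ + x₃ * Y₁ * Y₂) / (Y₁ * Y₂ * Y₃) := by
      intro Y₁ Y₂ Y₃ k1 k2 k3
      field_simp
      ring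
    rw [e _ _ _ hY₁ hY₂ hY₃, hS', hP', mul_div_mul_left _ _ (pow_ne_zero 3 hc)]
  have hsumv : v (x₃ / (ℓ * x₃ + c) + x₁ / (ℓ * x₁ + c) + x₂ / (ℓ * x₂ + c)) ≤ r ^ 2 := by
    rw [hsum, map_div₀, hA, div_one]
    exact hBv
  have hz₃ : v (x₃ / (ℓ * x₃ + c)) ≤ r := by
    have e : x₃ / (ℓ * x₃ + c) = (x₃ / (ℓ * x₃ + c) + x₁ / (ℓ * x₁ + c) + x₂ / (ℓ * x₂ + c))
        - x₁ / (ℓ * x₁ + c) - x₂ / (ℓ * x₂ + c) := by ring
    rw [e]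
    refine v.map_sub_le (v.map_sub_le ?_ hz₁) hz₂
    exact hsumv.trans (by simpa using pow_le_pow_right_of_le_one' hr' (show 1 ≤ 2 by norm_num))
  refine ⟨hY₃, hsumv, hz₃, ?_⟩
  have e : 1 / (ℓ * x₃ + c) = n - m * (x₃ / (ℓ * x₃ + c)) := by
    have e1 : ∀ Y₃ : K, Y₃ ≠ 0 → n - m * (x₃ / Y₃) = (n * Y₃ - m * x₃) / Y₃ := by
      intro Y₃ k3
      field_simp
    rw [e1 _ hY₃, div_left_inj' hY₃]
    linear_combination (-(n * x₃)) * hmc - (1 + m * x₃) * hnc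
  rw [e]
  have hz₃' : v (x₃ / (ℓ * x₃ + c)) ≤ r ^ 1 := by simpa using hz₃
  exact v.map_sub_le hn (h86_B_mul v hl hz₃')

/-- Negation changes `x / y` by a second order term. -/
lemma h86_neg_bound {a₁ a₂ a₃ a₄ a₆ x y : K} (h1 : v a₁ ≤ 1) (h2 : v a₂ ≤ 1) (h3 : v a₃ ≤ 1)
    (h4 : v a₄ ≤ 1) (h6 : v a₆ ≤ 1)
    (heq : y ^ 2 + a₁ * x * y + a₃ * y = x ^ 3 + a₂ * x ^ 2 + a₄ * x + a₆) (hx : 1 < v x) :
    v (x / (-y - a₁ * x - a₃)) = v (x / y) ∧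
      v (x / (-y - a₁ * x - a₃) + x / y) ≤ v (x / y) ^ 2 := by
  have heq' : (-y - a₁ * x - a₃) ^ 2 + a₁ * x * (-y - a₁ * x - a₃) + a₃ * (-y - a₁ * x - a₃) =
      x ^ 3 + a₂ * x ^ 2 + a₄ * x + a₆ := by
    linear_combination heq
  obtain ⟨hxy, hc⟩ := h86_val_cube v h1 h2 h3 h4 h6 heq hx
  obtain ⟨hxy', hc'⟩ := h86_val_cube v h1 h2 h3 h4 h6 heq' hx
  obtain ⟨hy0, hx0, hzlt, hw, -⟩ := h86_chart v h1 h2 h3 h4 h6 heq hx
  obtain ⟨hy0', -, hzlt', hw', -⟩ := h86_chart v h1 h2 h3 h4 h6 heq' hx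
  have hvy : v (-y - a₁ * x - a₃) = v y := by
    have : v (-y - a₁ * x - a₃) ^ 2 = v y ^ 2 := by rw [hc, hc']
    exact (pow_left_inj₀ zero_le zero_le (by norm_num)).mp this
  have hz : v (x / (-y - a₁ * x - a₃)) = v (x / y) := by
    rw [map_div₀, map_div₀, hvy]
  refine ⟨hz, ?_⟩
  have e' : ∀ x y y' : K, y ≠ 0 → y' ≠ 0 → y' = -y - a₁ * x - a₃ →
      x / y' + x / y = -(x / y) * (a₁ * (x / y') + a₃ * (1 / y')) := by
    intro x y y' k1 k2 k3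
    field_simp
    linear_combination x * k3
  have e := e' x y _ hy0 hy0' rfl
  rw [e, map_mul, Valuation.map_neg, pow_two]
  refine mul_le_mul' le_rfl (v.map_add_le ?_ ?_)
  · rw [map_mul, hz]
    exact mul_le_of_le_one_of_le h1 le_rfl
  · rw [map_mul, hw', hz]
    refine mul_le_of_le_one_of_le h3 ?_
    exact pow_le_of_le_one zero_le hzlt.le (by norm_num)

end valuation

section main

variable {K : Type*} [Field K] [DecidableEq K] {Γ₀ : Type*} [LinearOrderedCommGroupWithZero Γ₀]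
  (v : Valuation K Γ₀) (W : WeierstrassCurve K)

/-- The sum of two affine points with non-integral `x` (not opposite to each other) has
non-integral `x`, and `x / y` is additive up to second order terms. -/
theorem h86_add_aux (h1 : v W.a₁ ≤ 1) (h2 : v W.a₂ ≤ 1) (h3 : v W.a₃ ≤ 1) (h4 : v W.a₄ ≤ 1)
    (h6 : v W.a₆ ≤ 1) {x₁ y₁ x₂ y₂ : K} (e₁ : W.toAffine.Equation x₁ y₁)
    (e₂ : W.toAffine.Equation x₂ y₂) (hx₁ : 1 < v x₁) (hx₂ : 1 < v x₂) {r : Γ₀} (hr : r < 1)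
    (hz₁ : v (x₁ / y₁) ≤ r) (hz₂ : v (x₂ / y₂) ≤ r)
    (hxy : ¬(x₁ = x₂ ∧ y₁ = W.toAffine.negY x₂ y₂)) :
    1 < v (W.toAffine.addX x₁ x₂ (W.toAffine.slope x₁ x₂ y₁ y₂)) ∧
      v (W.toAffine.addX x₁ x₂ (W.toAffine.slope x₁ x₂ y₁ y₂) /
          W.toAffine.addY x₁ x₂ y₁ (W.toAffine.slope x₁ x₂ y₁ y₂) - x₁ / y₁ - x₂ / y₂) ≤ r ^ 2 := by
  obtain ⟨ℓ, hℓ⟩ : ∃ ℓ, ℓ = W.toAffine.slope x₁ x₂ y₁ y₂ := ⟨_, rfl⟩
  obtain ⟨x₃, hx₃⟩ : ∃ x₃, x₃ = W.toAffine.addX x₁ x₂ ℓ := ⟨_, rfl⟩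
  obtain ⟨c, hc⟩ : ∃ c, c = y₁ - ℓ * x₁ := ⟨_, rfl⟩
  rw [← hℓ, ← hx₃]
  obtain ⟨E1, E2, E3⟩ := h86_vieta W e₁ e₂ hxy ℓ x₃ c hℓ hx₃ hc
  have hline := h86_line W e₁ e₂ hxy
  rw [← hℓ] at hline
  have hY₁ : ℓ * x₁ + c = y₁ := by rw [hc]; ring
  have hY₂ : ℓ * x₂ + c = y₂ := by rw [hc]; linear_combination -hline
  have e₁' := (Affine.equation_iff ..).mp e₁
  have e₂' := (Affine.equation_iff ..).mp e₂
  obtain ⟨hy₁0, hx₁0, hz₁lt, hw₁, ch₁⟩ := h86_chart v h1 h2 h3 h4 h6 e₁' hx₁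
  obtain ⟨hy₂0, hx₂0, hz₂lt, hw₂, ch₂⟩ := h86_chart v h1 h2 h3 h4 h6 e₂' hx₂
  have hw₁' : v (1 / y₁) ≤ r ^ 3 := by rw [hw₁]; exact pow_le_pow_left' hz₁ 3
  have hw₂' : v (1 / y₂) ≤ r ^ 3 := by rw [hw₂]; exact pow_le_pow_left' hz₂ 3
  have hsl : c ≠ 0 ∧ v (ℓ / c) ≤ r ^ 2 := by
    rw [hc]
    by_cases hx : x₁ = x₂
    · have hy : y₁ ≠ W.toAffine.negY x₂ y₂ := fun h => hxy ⟨hx, h⟩
      have hyy := Affine.Y_eq_of_Y_ne e₁ e₂ hx hy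
      subst hx
      subst hyy
      have hD : 2 * y₁ + W.a₁ * x₁ + W.a₃ ≠ 0 := by
        intro h
        apply hy
        simp only [Affine.negY]
        linear_combination h
      have hℓ' : ℓ * (2 * y₁ + W.a₁ * x₁ + W.a₃) =
          3 * x₁ ^ 2 + 2 * W.a₂ * x₁ + W.a₄ - W.a₁ * y₁ := by
        rw [hℓ, Affine.slope_of_Y_ne rfl hy]
        simp only [Affine.negY]
        have e : y₁ - (-y₁ - W.a₁ * x₁ - W.a₃) = 2 * y₁ + W.a₁ * x₁ + W.a₃ := by ring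
        rw [e, div_mul_cancel₀ _ hD]
      exact h86_tangent_slope v h1 h2 h3 h4 h6 hr hy₁0 e₁' hz₁ hw₁' hD hℓ'
    · have hℓ' : ℓ * (x₁ - x₂) = y₁ - y₂ := by
        rw [hℓ, Affine.slope_of_X_ne hx, div_mul_cancel₀ _ (sub_ne_zero.mpr hx)]
      exact h86_chord_slope v h1 h2 h3 h4 h6 hr hy₁0 hy₂0 ch₁ ch₂ hz₁ hw₁' hz₂ hw₂' hx hℓ'
  obtain ⟨hc0, hl⟩ := hsl
  have hn : v (1 / c) ≤ r ^ 3 := by
    have e : ∀ c' : K, c' ≠ 0 → c' = y₁ - ℓ * x₁ → 1 / c' = 1 / y₁ + ℓ / c' * (x₁ / y₁) := by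
      intro c' k1 k2
      field_simp
      linear_combination -k2
    rw [e c hc0 hc]
    have hz₁' : v (x₁ / y₁) ≤ r ^ 1 := by simpa using hz₁
    exact v.map_add_le hw₁' (h86_B_mul v hl hz₁')
  have hY₁0 : ℓ * x₁ + c ≠ 0 := by rw [hY₁]; exact hy₁0
  have hY₂0 : ℓ * x₂ + c ≠ 0 := by rw [hY₂]; exact hy₂0
  obtain ⟨hY₃, hsum, hz₃, hw₃⟩ := h86_third v h1 h2 h3 h4 h6 hr E1 E2 E3 hc0 hl hn hY₁0 hY₂0
    (by rw [hY₁]; exact hz₁) (by rw [hY₂]; exact hz₂)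
  rw [hY₁, hY₂] at hsum
  have hneg : W.toAffine.negAddY x₁ x₂ y₁ ℓ = ℓ * x₃ + c := by
    rw [Affine.negAddY, ← hx₃, hc]
    ring
  have e₃ : W.toAffine.Equation x₃ (ℓ * x₃ + c) := by
    have := Affine.equation_negAdd e₁ e₂ hxy
    rw [← hℓ, ← hx₃, hneg] at this
    exact this
  have e₃' := (Affine.equation_iff ..).mp e₃
  have hx₃' : 1 < v x₃ := by
    by_contra hle
    rw [not_lt] at hle
    have hY : v (ℓ * x₃ + c) ≤ 1 := h86_integral_y v h1 h2 h3 h4 h6 e₃' hle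
    have hlt : v (1 / (ℓ * x₃ + c)) < 1 :=
      lt_of_le_of_lt hw₃ (pow_lt_one₀ zero_le hr (by norm_num))
    rw [one_div, map_inv₀] at hlt
    have hvY : v (ℓ * x₃ + c) ≠ 0 := v.ne_zero_iff.mpr hY₃
    exact absurd hlt (not_lt.mpr ((one_le_inv₀ (zero_lt_iff.mpr hvY)).mpr hY))
  obtain ⟨hnv, hnb⟩ := h86_neg_bound v h1 h2 h3 h4 h6 e₃' hx₃'
  have haddY : W.toAffine.addY x₁ x₂ y₁ ℓ = -(ℓ * x₃ + c) - W.a₁ * x₃ - W.a₃ := by
    rw [Affine.addY, hneg, ← hx₃, Affine.negY]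
  refine ⟨hx₃', ?_⟩
  rw [haddY]
  have e : x₃ / (-(ℓ * x₃ + c) - W.a₁ * x₃ - W.a₃) - x₁ / y₁ - x₂ / y₂ =
      (x₃ / (-(ℓ * x₃ + c) - W.a₁ * x₃ - W.a₃) + x₃ / (ℓ * x₃ + c)) -
        (x₃ / (ℓ * x₃ + c) + x₁ / y₁ + x₂ / y₂) := by ring
  rw [e]
  exact v.map_sub_le (hnb.trans (pow_le_pow_left' hz₃ 2)) hsum

/-- The parameter `x / y` of a point (`0` at the origin). -/
def h86_t : W.toAffine.Point → K
  | .zero => 0
  | .some x y _ => x / y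

/-- The kernel of reduction: the origin and the points with non-integral `x`. -/
def h86_inE1 : W.toAffine.Point → Prop
  | .zero => True
  | .some x _ _ => 1 < v x

lemma h86_t_zero : h86_t W (0 : W.toAffine.Point) = 0 := rfl

lemma h86_t_some {x y : K} (h : W.toAffine.Nonsingular x y) :
    h86_t W (Affine.Point.some x y h) = x / y := rfl

lemma h86_inE1_zero : h86_inE1 v W (0 : W.toAffine.Point) := trivial

lemma h86_inE1_some {x y : K} (h : W.toAffine.Nonsingular x y) :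
    h86_inE1 v W (Affine.Point.some x y h) ↔ 1 < v x := Iff.rfl

lemma h86_inE1_iff (P : W.toAffine.Point) :
    h86_inE1 v W P ↔ P = 0 ∨ ∃ (x y : K) (h : W.toAffine.Nonsingular x y),
      P = Affine.Point.some x y h ∧ 1 < v x := by
  rcases P with _ | ⟨x, y, h⟩
  · exact ⟨fun _ => Or.inl rfl, fun _ => trivial⟩
  · constructor
    · intro hx
      exact Or.inr ⟨x, y, h, rfl, hx⟩
    · rintro (h0 | ⟨x', y', h', he, hx'⟩)
      · exact absurd h0 (Affine.Point.some_ne_zero h)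
      · cases he
        exact hx'

lemma h86_t_lt_one (h1 : v W.a₁ ≤ 1) (h2 : v W.a₂ ≤ 1) (h3 : v W.a₃ ≤ 1) (h4 : v W.a₄ ≤ 1)
    (h6 : v W.a₆ ≤ 1) {P : W.toAffine.Point} (hP : h86_inE1 v W P) : v (h86_t W P) < 1 := by
  rcases P with _ | ⟨x, y, h⟩
  · change v (0 : K) < 1
    rw [map_zero]
    exact zero_lt_one
  · exact (h86_chart v h1 h2 h3 h4 h6 ((Affine.equation_iff ..).mp h.1) hP).2.2.1

/-- `E1` is closed under addition and `t = x / y` is additive up to second order. -/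
theorem h86_add_mem (h1 : v W.a₁ ≤ 1) (h2 : v W.a₂ ≤ 1) (h3 : v W.a₃ ≤ 1) (h4 : v W.a₄ ≤ 1)
    (h6 : v W.a₆ ≤ 1) {P Q : W.toAffine.Point} (hP : h86_inE1 v W P) (hQ : h86_inE1 v W Q)
    {r : Γ₀} (hr : r < 1) (hPr : v (h86_t W P) ≤ r) (hQr : v (h86_t W Q) ≤ r) :
    h86_inE1 v W (P + Q) ∧ v (h86_t W (P + Q) - h86_t W P - h86_t W Q) ≤ r ^ 2 := by
  rcases P with _ | ⟨x₁, y₁, h₁⟩
  · have e : (Affine.Point.zero : W.toAffine.Point) + Q = Q := zero_add Q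
    rw [e]
    refine ⟨hQ, ?_⟩
    have e2 : h86_t W Q - h86_t W (Affine.Point.zero : W.toAffine.Point) - h86_t W Q = 0 := by
      change h86_t W Q - 0 - h86_t W Q = 0
      ring
    rw [e2, map_zero]
    exact zero_le
  rcases Q with _ | ⟨x₂, y₂, h₂⟩
  · have e : Affine.Point.some x₁ y₁ h₁ + (Affine.Point.zero : W.toAffine.Point) =
        Affine.Point.some x₁ y₁ h₁ := add_zero _
    rw [e]
    refine ⟨hP, ?_⟩
    have e2 : h86_t W (Affine.Point.some x₁ y₁ h₁) - h86_t W (Affine.Point.some x₁ y₁ h₁) -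
        h86_t W (Affine.Point.zero : W.toAffine.Point) = 0 := by
      change x₁ / y₁ - x₁ / y₁ - 0 = 0
      ring
    rw [e2, map_zero]
    exact zero_le
  by_cases hxy : x₁ = x₂ ∧ y₁ = W.toAffine.negY x₂ y₂
  · rw [Affine.Point.add_of_Y_eq hxy.1 hxy.2]
    refine ⟨trivial, ?_⟩
    obtain ⟨rfl, rfl⟩ := hxy
    have e₂' := (Affine.equation_iff ..).mp h₂.1
    obtain ⟨hnv, hnb⟩ := h86_neg_bound v h1 h2 h3 h4 h6 e₂' hQ
    have e : h86_t W (0 : W.toAffine.Point) -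
        h86_t W (Affine.Point.some x₁ (W.toAffine.negY x₁ y₂) h₁) -
        h86_t W (Affine.Point.some x₁ y₂ h₂) =
        -(x₁ / (-y₂ - W.a₁ * x₁ - W.a₃) + x₁ / y₂) := by
      change 0 - x₁ / (-y₂ - W.a₁ * x₁ - W.a₃) - x₁ / y₂ = _
      ring
    rw [e, Valuation.map_neg]
    exact hnb.trans (pow_le_pow_left' hQr 2)
  · rw [Affine.Point.add_some hxy]
    exact h86_add_aux v W h1 h2 h3 h4 h6 h₁.1 h₂.1 hP hQ hr hPr hQr hxy

/-- Multiples of a point of `E1`: they stay in `E1` and `t (k • P) ≡ k * t P` to second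
order. -/
theorem h86_nsmul_aux (h1 : v W.a₁ ≤ 1) (h2 : v W.a₂ ≤ 1) (h3 : v W.a₃ ≤ 1) (h4 : v W.a₄ ≤ 1)
    (h6 : v W.a₆ ≤ 1) {P : W.toAffine.Point} (hP : h86_inE1 v W P) (k : ℕ) :
    h86_inE1 v W (k • P) ∧ v (h86_t W (k • P) - k * h86_t W P) ≤ v (h86_t W P) ^ 2 := by
  have hzlt := h86_t_lt_one v W h1 h2 h3 h4 h6 hP
  induction k with
  | zero =>
    rw [zero_smul]
    refine ⟨trivial, ?_⟩
    have e : h86_t W (0 : W.toAffine.Point) - ((0 : ℕ) : K) * h86_t W P = 0 := by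
      rw [h86_t_zero]
      simp
    rw [e, map_zero]
    exact zero_le
  | succ k ih =>
    obtain ⟨ih1, ih2⟩ := ih
    rw [succ_nsmul]
    have hk : v (h86_t W (k • P)) ≤ v (h86_t W P) := by
      have e : h86_t W (k • P) = (h86_t W (k • P) - k * h86_t W P) + k * h86_t W P := by ring
      rw [e]
      refine v.map_add_le (ih2.trans (pow_le_of_le_one zero_le hzlt.le (by norm_num))) ?_
      rw [map_mul]
      exact mul_le_of_le_one_of_le (h86_natCast_le_one v k) le_rfl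
    obtain ⟨a1, a2⟩ := h86_add_mem v W h1 h2 h3 h4 h6 ih1 hP hzlt hk le_rfl
    refine ⟨a1, ?_⟩
    have e : h86_t W (k • P + P) - ((k + 1 : ℕ) : K) * h86_t W P =
        (h86_t W (k • P + P) - h86_t W (k • P) - h86_t W P) +
          (h86_t W (k • P) - k * h86_t W P) := by
      push_cast
      ring
    rw [e]
    exact v.map_add_le a2 ih2

/-- **No torsion in the kernel of reduction** (valuation form): a point with non-integral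
`x`-coordinate is not killed by any `n` which is a unit for the valuation. -/
theorem h86_nsmul_ne_zero (h1 : v W.a₁ ≤ 1) (h2 : v W.a₂ ≤ 1) (h3 : v W.a₃ ≤ 1)
    (h4 : v W.a₄ ≤ 1) (h6 : v W.a₆ ≤ 1) {x y : K} (h : W.toAffine.Nonsingular x y)
    (hx : 1 < v x) {n : ℕ} (hn : v (n : K) = 1) :
    n • (Affine.Point.some x y h : W.toAffine.Point) ≠ 0 := by
  intro h0
  have hP : h86_inE1 v W (Affine.Point.some x y h) := hx
  obtain ⟨hy0, hx0, hzlt, -, -⟩ := h86_chart v h1 h2 h3 h4 h6 ((Affine.equation_iff ..).mp h.1) hx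
  obtain ⟨-, hb⟩ := h86_nsmul_aux v W h1 h2 h3 h4 h6 hP n
  rw [h0, h86_t_zero, h86_t_some, zero_sub, Valuation.map_neg, map_mul, hn, one_mul] at hb
  have hpos : 0 < v (x / y) := zero_lt_iff.mpr (v.ne_zero_iff.mpr (div_ne_zero hx0 hy0))
  exact absurd hb (not_le.mpr (pow_lt_self_of_lt_one₀ hpos hzlt (by norm_num)))

end main

section subring

variable {K : Type*} [Field K] [DecidableEq K] (A : ValuationSubring K) (W : WeierstrassCurve K)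

/-- All Weierstrass coefficients lie in the valuation subring `A`. -/
def h86_Integral : Prop :=
  W.a₁ ∈ A ∧ W.a₂ ∈ A ∧ W.a₃ ∈ A ∧ W.a₄ ∈ A ∧ W.a₆ ∈ A

/-- **No torsion in the kernel of reduction** (valuation subring form): if the Weierstrass
coefficients lie in `A`, a point whose `x`-coordinate is not in `A` is not killed by a natural
number which is a unit of `A`. -/
theorem h86_nsmul_ne_zero_of_notMem (h1 : W.a₁ ∈ A) (h2 : W.a₂ ∈ A) (h3 : W.a₃ ∈ A)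
    (h4 : W.a₄ ∈ A) (h6 : W.a₆ ∈ A) {x y : K} (h : W.toAffine.Nonsingular x y) (hx : x ∉ A)
    {n : ℕ} (hn : (n : K) ∉ A.nonunits) :
    n • (Affine.Point.some x y h : W.toAffine.Point) ≠ 0 := by
  have hv : ∀ a : K, a ∈ A → A.valuation a ≤ 1 := fun a ha => (A.valuation_le_one_iff a).mpr ha
  refine h86_nsmul_ne_zero A.valuation W (hv _ h1) (hv _ h2) (hv _ h3) (hv _ h4) (hv _ h6) h ?_ ?_
  · rw [← not_le, A.valuation_le_one_iff]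
    exact hx
  · rw [A.mem_nonunits_iff, not_lt] at hn
    exact le_antisymm (h86_natCast_le_one A.valuation n) hn

/-- The kernel of reduction `E₁ = {0} ∪ {(x, y) | x ∉ A}` as a subgroup. -/
def h86_E1 (hW : h86_Integral A W) : AddSubgroup W.toAffine.Point where
  carrier := {P | h86_inE1 A.valuation W P}
  zero_mem' := trivial
  add_mem' := by
    intro P Q hP hQ
    have hv : ∀ a : K, a ∈ A → A.valuation a ≤ 1 :=
      fun a ha => (A.valuation_le_one_iff a).mpr ha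
    obtain ⟨h1, h2, h3, h4, h6⟩ := hW
    have hP' := h86_t_lt_one A.valuation W (hv _ h1) (hv _ h2) (hv _ h3) (hv _ h4) (hv _ h6) hP
    have hQ' := h86_t_lt_one A.valuation W (hv _ h1) (hv _ h2) (hv _ h3) (hv _ h4) (hv _ h6) hQ
    exact (h86_add_mem A.valuation W (hv _ h1) (hv _ h2) (hv _ h3) (hv _ h4) (hv _ h6) hP hQ
      (max_lt hP' hQ') (le_max_left _ _) (le_max_right _ _)).1
  neg_mem' := by
    intro P hP
    rcases P with _ | ⟨x, y, h⟩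
    · exact hP
    · exact hP

lemma h86_mem_E1_iff (hW : h86_Integral A W) (P : W.toAffine.Point) :
    P ∈ h86_E1 A W hW ↔ P = 0 ∨ ∃ (x y : K) (h : W.toAffine.Nonsingular x y),
      P = Affine.Point.some x y h ∧ x ∉ A := by
  change h86_inE1 A.valuation W P ↔ _
  rw [h86_inE1_iff]
  simp only [← not_le, A.valuation_le_one_iff]

lemma h86_some_mem_E1_iff (hW : h86_Integral A W) {x y : K} (h : W.toAffine.Nonsingular x y) :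
    Affine.Point.some x y h ∈ h86_E1 A W hW ↔ x ∉ A := by
  change 1 < A.valuation x ↔ _
  rw [← not_le, A.valuation_le_one_iff]

/-- `E₁` has no `n`-torsion for `n` a unit of `A` (natural multiples). -/
theorem h86_E1_nsmul_eq_zero (hW : h86_Integral A W) {P : W.toAffine.Point}
    (hP : P ∈ h86_E1 A W hW) {n : ℕ} (hn : (n : K) ∉ A.nonunits) (h0 : n • P = 0) : P = 0 := by
  rcases P with _ | ⟨x, y, h⟩
  · rfl
  · obtain ⟨h1, h2, h3, h4, h6⟩ := hW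
    exact absurd h0 (h86_nsmul_ne_zero_of_notMem A W h1 h2 h3 h4 h6 h
      ((h86_some_mem_E1_iff A W ⟨h1, h2, h3, h4, h6⟩ h).mp hP) hn)

/-- `E₁` has no `n`-torsion for `n` a unit of `A` (integer multiples). -/
theorem h86_E1_zsmul_eq_zero (hW : h86_Integral A W) {P : W.toAffine.Point}
    (hP : P ∈ h86_E1 A W hW) {n : ℕ} (hn : (n : K) ∉ A.nonunits) (h0 : (n : ℤ) • P = 0) :
    P = 0 := by
  rw [natCast_zsmul] at h0
  exact h86_E1_nsmul_eq_zero A W hW hP hn h0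

/-- Torsion-freeness in the raw form `P = 0 ∨ x(P) ∉ A`. -/
theorem h86_torsion_free (h1 : W.a₁ ∈ A) (h2 : W.a₂ ∈ A) (h3 : W.a₃ ∈ A)
    (h4 : W.a₄ ∈ A) (h6 : W.a₆ ∈ A) {n : ℕ} (hn : (n : K) ∉ A.nonunits)
    (P : W.toAffine.Point)
    (hP : P = 0 ∨ ∃ (x y : K) (h : W.toAffine.Nonsingular x y),
      P = Affine.Point.some x y h ∧ x ∉ A) (h0 : n • P = 0) : P = 0 :=
  h86_E1_nsmul_eq_zero A W ⟨h1, h2, h3, h4, h6⟩
    ((h86_mem_E1_iff A W ⟨h1, h2, h3, h4, h6⟩ P).mpr hP) hn h0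

/-- Two `n`-torsion points whose difference lies in `E₁` are equal. -/
theorem h86_eq_of_sub_mem_E1 (hW : h86_Integral A W) {n : ℕ} (hn : (n : K) ∉ A.nonunits)
    {P Q : W.toAffine.Point} (hP : n • P = 0) (hQ : n • Q = 0)
    (hPQ : P - Q ∈ h86_E1 A W hW) : P = Q := by
  have h0 : n • (P - Q) = 0 := by rw [smul_sub, hP, hQ, sub_zero]
  exact sub_eq_zero.mp (h86_E1_nsmul_eq_zero A W hW hPQ hn h0)

end subring

end Fermat.Agent.S05
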