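import Fermat.Agent.S05.Defs
import Fermat.Agent.S05.h86_Formal

/-
helper86, project S05, task T2: the kernel of reduction `E₁` of `Y² = X³ + a X² + b X` is a
subgroup without `n`-torsion for `n` a unit.  Everything is a specialisation of the general
Weierstrass statements of `h86_Formal.lean`.
-/

set_option autoImplicit false

namespace Fermat.Agent.S05

open WeierstrassCurve

variable {K : Type*} [Field K] [DecidableEq K] (A : ValuationSubring K) (a b : K)

lemma E1_isE1_iff (P : (shortW a b).toAffine.Point) :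
    IsE1 a b A P ↔ h86_inE1 A.valuation (shortW a b) P :=
  (h86_inE1_iff A.valuation (shortW a b) P).symm

theorem isE1_neg {P : (shortW a b).toAffine.Point} (hP : IsE1 a b A P) : IsE1 a b A (-P) := by
  rw [E1_isE1_iff] at hP ⊢
  rcases P with _ | ⟨x, y, h⟩
  · exact hP
  · exact hP

theorem isE1_add (ha : A.valuation a ≤ 1) (hb : A.valuation b ≤ 1) (h2 : A.valuation (2 : K) = 1)
    {P Q : (shortW a b).toAffine.Point} (hP : IsE1 a b A P) (hQ : IsE1 a b A Q) :
    IsE1 a b A (P + Q) := by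
  rw [E1_isE1_iff] at hP hQ ⊢
  have h0 : A.valuation (0 : K) ≤ 1 := by simp
  have hP' := h86_t_lt_one A.valuation (shortW a b) h0 ha h0 hb h0 hP
  have hQ' := h86_t_lt_one A.valuation (shortW a b) h0 ha h0 hb h0 hQ
  exact (h86_add_mem A.valuation (shortW a b) h0 ha h0 hb h0 hP hQ (max_lt hP' hQ')
    (le_max_left _ _) (le_max_right _ _)).1

theorem isE1_eq_zero_of_nsmul (ha : A.valuation a ≤ 1) (hb : A.valuation b ≤ 1)
    (h2 : A.valuation (2 : K) = 1) (n : ℕ) (hn : A.valuation (n : K) = 1)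
    {P : (shortW a b).toAffine.Point} (hP : IsE1 a b A P) (hnP : n • P = 0) : P = 0 := by
  have h0 : A.valuation (0 : K) ≤ 1 := by simp
  rcases hP with rfl | ⟨X, Y, h, rfl, hX⟩
  · rfl
  · exact absurd hnP (h86_nsmul_ne_zero A.valuation (shortW a b) h0 ha h0 hb h0 h hX hn)

/-- Subtraction form of `isE1_add`. -/
theorem isE1_sub (ha : A.valuation a ≤ 1) (hb : A.valuation b ≤ 1) (h2 : A.valuation (2 : K) = 1)
    {P Q : (shortW a b).toAffine.Point} (hP : IsE1 a b A P) (hQ : IsE1 a b A Q) :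
    IsE1 a b A (P - Q) := by
  rw [sub_eq_add_neg]
  exact isE1_add A a b ha hb h2 hP (isE1_neg A a b hQ)

/-- Two `n`-torsion points whose difference lies in `E₁` are equal (`n` a unit). -/
theorem isE1_eq_of_sub (ha : A.valuation a ≤ 1) (hb : A.valuation b ≤ 1)
    (h2 : A.valuation (2 : K) = 1) (n : ℕ) (hn : A.valuation (n : K) = 1)
    {P Q : (shortW a b).toAffine.Point} (hP : n • P = 0) (hQ : n • Q = 0)
    (hPQ : IsE1 a b A (P - Q)) : P = Q := by
  have h0 : n • (P - Q) = 0 := by rw [smul_sub, hP, hQ, sub_zero]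
  exact sub_eq_zero.mp (isE1_eq_zero_of_nsmul A a b ha hb h2 n hn hPQ h0)

end Fermat.Agent.S05
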