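import Mathlib

set_option autoImplicit false

-- Point map of a variable change; the `vc_` lemmas are taken from helper70's
-- Fermat/Agent/S51/VarChange.lean and restated here in the S05 namespace.
namespace Fermat.Agent.S05

open WeierstrassCurve

section VarChange

variable {F : Type*} [Field F]

/-- The `X`-coordinate of the image of a point under a variable change. -/
def vc_X (C : VariableChange F) (x : F) : F := (C.u : F) ^ 2 * x + C.r

/-- The `Y`-coordinate of the image of a point under a variable change. -/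
def vc_Y (C : VariableChange F) (x y : F) : F :=
  (C.u : F) ^ 3 * y + (C.u : F) ^ 2 * C.s * x + C.t

lemma vc_u_ne_zero (C : VariableChange F) : (C.u : F) ≠ 0 := C.u.ne_zero

lemma vc_X_injective (C : VariableChange F) : Function.Injective (vc_X C) := by
  intro x x' h
  have hu := vc_u_ne_zero C
  simp only [vc_X] at h
  have h2 : (C.u : F) ^ 2 * (x - x') = 0 := by linear_combination h
  have h3 : (C.u : F) ^ 2 ≠ 0 := pow_ne_zero 2 hu
  have := (mul_eq_zero.mp h2).resolve_left h3
  exact sub_eq_zero.mp this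

lemma vc_Y_injective (C : VariableChange F) (x : F) : Function.Injective (vc_Y C x) := by
  intro y y' h
  have hu := vc_u_ne_zero C
  simp only [vc_Y] at h
  have h2 : (C.u : F) ^ 3 * (y - y') = 0 := by linear_combination h
  have h3 : (C.u : F) ^ 3 ≠ 0 := pow_ne_zero 3 hu
  have := (mul_eq_zero.mp h2).resolve_left h3
  exact sub_eq_zero.mp this

lemma vc_equation_iff (W : WeierstrassCurve F) (C : VariableChange F) (x y : F) :
    (C • W).toAffine.Equation x y ↔ W.toAffine.Equation (vc_X C x) (vc_Y C x y) := by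
  have hu := vc_u_ne_zero C
  rw [Affine.equation_iff, Affine.equation_iff]
  simp only [variableChange_a₁, variableChange_a₂, variableChange_a₃, variableChange_a₄,
    variableChange_a₆, Units.val_inv_eq_inv_val, vc_X, vc_Y]
  constructor
  · intro h
    field_simp at h
    linear_combination h
  · intro h
    field_simp
    linear_combination h

lemma vc_polyY (W : WeierstrassCurve F) (C : VariableChange F) (x y : F) :
    2 * vc_Y C x y + W.a₁ * vc_X C x + W.a₃ =
      (C.u : F) ^ 3 * (2 * y + (C • W).a₁ * x + (C • W).a₃) := by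
  have hu := vc_u_ne_zero C
  simp only [variableChange_a₁, variableChange_a₃, Units.val_inv_eq_inv_val, vc_X, vc_Y]
  field_simp
  ring

lemma vc_polyX (W : WeierstrassCurve F) (C : VariableChange F) (x y : F) :
    W.a₁ * vc_Y C x y - (3 * vc_X C x ^ 2 + 2 * W.a₂ * vc_X C x + W.a₄) =
      (C.u : F) ^ 4 * ((C • W).a₁ * y - (3 * x ^ 2 + 2 * (C • W).a₂ * x + (C • W).a₄))
        - C.s * ((C.u : F) ^ 3 * (2 * y + (C • W).a₁ * x + (C • W).a₃)) := by
  have hu := vc_u_ne_zero C
  simp only [variableChange_a₁, variableChange_a₂, variableChange_a₃, variableChange_a₄,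
    Units.val_inv_eq_inv_val, vc_X, vc_Y]
  field_simp
  ring

lemma vc_nonsingular_iff (W : WeierstrassCurve F) (C : VariableChange F) (x y : F) :
    (C • W).toAffine.Nonsingular x y ↔ W.toAffine.Nonsingular (vc_X C x) (vc_Y C x y) := by
  have hu := vc_u_ne_zero C
  rw [Affine.nonsingular_iff', Affine.nonsingular_iff', vc_equation_iff, vc_polyX, vc_polyY]
  refine and_congr_right fun _ => ?_
  constructor
  · rintro (h | h)
    · by_cases h2 : 2 * y + (C • W).a₁ * x + (C • W).a₃ = 0
      · left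
        rw [h2, mul_zero, mul_zero, sub_zero]
        exact mul_ne_zero (pow_ne_zero 4 hu) h
      · right
        exact mul_ne_zero (pow_ne_zero 3 hu) h2
    · right
      exact mul_ne_zero (pow_ne_zero 3 hu) h
  · rintro (h | h)
    · by_contra hc
      rw [not_or, not_not, not_not] at hc
      rw [hc.1, hc.2] at h
      simp at h
    · right
      exact right_ne_zero_of_mul h

lemma vc_negY (W : WeierstrassCurve F) (C : VariableChange F) (x y : F) :
    W.toAffine.negY (vc_X C x) (vc_Y C x y) = vc_Y C x ((C • W).toAffine.negY x y) := by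
  have hu := vc_u_ne_zero C
  simp only [Affine.negY, variableChange_a₁, variableChange_a₃, Units.val_inv_eq_inv_val, vc_X,
    vc_Y]
  field_simp
  ring

lemma vc_slope [DecidableEq F] (W : WeierstrassCurve F) (C : VariableChange F) {x₁ x₂ y₁ y₂ : F}
    (h₁ : (C • W).toAffine.Equation x₁ y₁) (h₂ : (C • W).toAffine.Equation x₂ y₂)
    (hxy : ¬(x₁ = x₂ ∧ y₁ = (C • W).toAffine.negY x₂ y₂)) :
    W.toAffine.slope (vc_X C x₁) (vc_X C x₂) (vc_Y C x₁ y₁) (vc_Y C x₂ y₂) =
      (C.u : F) * (C • W).toAffine.slope x₁ x₂ y₁ y₂ + C.s := by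
  have hu := vc_u_ne_zero C
  by_cases hx : x₁ = x₂
  · have hy : y₁ ≠ (C • W).toAffine.negY x₂ y₂ := fun h => hxy ⟨hx, h⟩
    have hy12 : y₁ = y₂ := Affine.Y_eq_of_Y_ne h₁ h₂ hx hy
    subst hx hy12
    have hy' : vc_Y C x₁ y₁ ≠ W.toAffine.negY (vc_X C x₁) (vc_Y C x₁ y₁) := by
      rw [vc_negY]
      exact fun h => hy (vc_Y_injective C x₁ h)
    rw [Affine.slope_of_Y_ne rfl hy, Affine.slope_of_Y_ne rfl hy']
    have hd : y₁ - (C • W).toAffine.negY x₁ y₁ ≠ 0 := sub_ne_zero.mpr hy
    have hd' : vc_Y C x₁ y₁ - W.toAffine.negY (vc_X C x₁) (vc_Y C x₁ y₁) ≠ 0 :=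
      sub_ne_zero.mpr hy'
    have e1 : vc_Y C x₁ y₁ - W.toAffine.negY (vc_X C x₁) (vc_Y C x₁ y₁) =
        (C.u : F) ^ 3 * (y₁ - (C • W).toAffine.negY x₁ y₁) := by
      have := vc_polyY W C x₁ y₁
      simp only [Affine.negY]
      linear_combination this
    have e2 : 3 * vc_X C x₁ ^ 2 + 2 * W.a₂ * vc_X C x₁ + W.a₄ - W.a₁ * vc_Y C x₁ y₁ =
        (C.u : F) ^ 4 * (3 * x₁ ^ 2 + 2 * (C • W).a₂ * x₁ + (C • W).a₄ - (C • W).a₁ * y₁)
          + C.s * ((C.u : F) ^ 3 * (y₁ - (C • W).toAffine.negY x₁ y₁)) := by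
      have := vc_polyX W C x₁ y₁
      simp only [Affine.negY]
      linear_combination -this
    rw [e1, e2]
    field_simp
  · have hx' : vc_X C x₁ ≠ vc_X C x₂ := fun h => hx (vc_X_injective C h)
    rw [Affine.slope_of_X_ne hx, Affine.slope_of_X_ne hx']
    have hd : x₁ - x₂ ≠ 0 := sub_ne_zero.mpr hx
    have hd' : vc_X C x₁ - vc_X C x₂ ≠ 0 := sub_ne_zero.mpr hx'
    rw [div_eq_iff hd']
    simp only [vc_X, vc_Y]
    field_simp
    ring

lemma vc_addX (W : WeierstrassCurve F) (C : VariableChange F) (x₁ x₂ ℓ : F) :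
    W.toAffine.addX (vc_X C x₁) (vc_X C x₂) ((C.u : F) * ℓ + C.s) =
      vc_X C ((C • W).toAffine.addX x₁ x₂ ℓ) := by
  have hu := vc_u_ne_zero C
  simp only [Affine.addX, variableChange_a₁, variableChange_a₂, Units.val_inv_eq_inv_val, vc_X]
  field_simp
  ring

lemma vc_negAddY (W : WeierstrassCurve F) (C : VariableChange F) (x₁ x₂ y₁ ℓ : F) :
    W.toAffine.negAddY (vc_X C x₁) (vc_X C x₂) (vc_Y C x₁ y₁) ((C.u : F) * ℓ + C.s) =
      vc_Y C ((C • W).toAffine.addX x₁ x₂ ℓ) ((C • W).toAffine.negAddY x₁ x₂ y₁ ℓ) := by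
  rw [Affine.negAddY, Affine.negAddY, vc_addX]
  simp only [vc_X, vc_Y]
  ring

lemma vc_addY (W : WeierstrassCurve F) (C : VariableChange F) (x₁ x₂ y₁ ℓ : F) :
    W.toAffine.addY (vc_X C x₁) (vc_X C x₂) (vc_Y C x₁ y₁) ((C.u : F) * ℓ + C.s) =
      vc_Y C ((C • W).toAffine.addX x₁ x₂ ℓ) ((C • W).toAffine.addY x₁ x₂ y₁ ℓ) := by
  rw [Affine.addY, Affine.addY, vc_negAddY, vc_addX, vc_negY]

/-- The map on points induced by a variable change. -/
def vc_fun (W : WeierstrassCurve F) (C : VariableChange F) :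
    (C • W).toAffine.Point → W.toAffine.Point
  | .zero => .zero
  | .some x y h => .some (vc_X C x) (vc_Y C x y) ((vc_nonsingular_iff W C x y).mp h)

lemma vc_fun_zero (W : WeierstrassCurve F) (C : VariableChange F) :
    vc_fun W C 0 = 0 := rfl

lemma vc_fun_some (W : WeierstrassCurve F) (C : VariableChange F) {x y : F}
    (h : (C • W).toAffine.Nonsingular x y) :
    vc_fun W C (.some x y h) = .some (vc_X C x) (vc_Y C x y) ((vc_nonsingular_iff W C x y).mp h) :=
  rfl

lemma vc_fun_add [DecidableEq F] (W : WeierstrassCurve F) (C : VariableChange F)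
    (P Q : (C • W).toAffine.Point) :
    vc_fun W C (P + Q) = vc_fun W C P + vc_fun W C Q := by
  rcases P with _ | ⟨x₁, y₁, h₁⟩
  · change vc_fun W C (0 + Q) = 0 + vc_fun W C Q
    rw [zero_add, zero_add]
  rcases Q with _ | ⟨x₂, y₂, h₂⟩
  · change vc_fun W C (_ + 0) = _ + 0
    rw [add_zero, add_zero]
  by_cases hxy : x₁ = x₂ ∧ y₁ = (C • W).toAffine.negY x₂ y₂
  · rw [Affine.Point.add_of_Y_eq hxy.1 hxy.2, vc_fun_some, vc_fun_some,
      Affine.Point.add_of_Y_eq (by rw [hxy.1]) (by rw [vc_negY, ← hxy.2, hxy.1])]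
    rfl
  · have hxy' : ¬(vc_X C x₁ = vc_X C x₂ ∧
        vc_Y C x₁ y₁ = W.toAffine.negY (vc_X C x₂) (vc_Y C x₂ y₂)) := by
      rintro ⟨hx, hy⟩
      have hx' := vc_X_injective C hx
      subst hx'
      rw [vc_negY] at hy
      exact hxy ⟨rfl, vc_Y_injective C x₁ hy⟩
    rw [Affine.Point.add_some hxy, vc_fun_some, vc_fun_some, vc_fun_some,
      Affine.Point.add_some hxy']
    have hs := vc_slope W C h₁.1 h₂.1 hxy
    simp only [Affine.Point.some.injEq]
    rw [hs]
    exact ⟨(vc_addX W C x₁ x₂ _).symm, (vc_addY W C x₁ x₂ y₁ _).symm⟩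

lemma vc_fun_injective (W : WeierstrassCurve F) (C : VariableChange F) :
    Function.Injective (vc_fun W C) := by
  rintro (_ | ⟨x₁, y₁, h₁⟩) (_ | ⟨x₂, y₂, h₂⟩) h
  · rfl
  · exact absurd h (by simp [vc_fun])
  · exact absurd h (by simp [vc_fun])
  · simp only [vc_fun, Affine.Point.some.injEq] at h
    obtain ⟨hx, hy⟩ := h
    have hx' := vc_X_injective C hx
    subst hx'
    have hy' := vc_Y_injective C x₁ hy
    subst hy'
    rfl

lemma vc_fun_surjective (W : WeierstrassCurve F) (C : VariableChange F) :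
    Function.Surjective (vc_fun W C) := by
  have hu := vc_u_ne_zero C
  rintro (_ | ⟨X, Y, h⟩)
  · exact ⟨0, rfl⟩
  · have hX : vc_X C ((X - C.r) / (C.u : F) ^ 2) = X := by
      simp only [vc_X]
      field_simp
      ring
    have hY : vc_Y C ((X - C.r) / (C.u : F) ^ 2)
        ((Y - C.s * (X - C.r) - C.t) / (C.u : F) ^ 3) = Y := by
      simp only [vc_Y]
      field_simp
      ring
    have h' : (C • W).toAffine.Nonsingular ((X - C.r) / (C.u : F) ^ 2)
        ((Y - C.s * (X - C.r) - C.t) / (C.u : F) ^ 3) := by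
      rw [vc_nonsingular_iff, hX, hY]
      exact h
    refine ⟨.some _ _ h', ?_⟩
    rw [vc_fun_some]
    simp only [Affine.Point.some.injEq]
    exact ⟨hX, hY⟩

/-- The additive equivalence on points induced by a variable change. -/
noncomputable def vc_addEquiv [DecidableEq F] (W : WeierstrassCurve F) (C : VariableChange F) :
    (C • W).toAffine.Point ≃+ W.toAffine.Point :=
  AddEquiv.ofBijective (AddMonoidHom.mk' (vc_fun W C) (vc_fun_add W C))
    ⟨vc_fun_injective W C, vc_fun_surjective W C⟩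

lemma vc_addEquiv_apply [DecidableEq F] (W : WeierstrassCurve F) (C : VariableChange F)
    (P : (C • W).toAffine.Point) : vc_addEquiv W C P = vc_fun W C P := rfl

end VarChange

/-- A Weierstrass change of variables induces an additive equivalence of point groups,
given on affine points by `(X, Y) ↦ (u² X + r, u³ Y + u² s X + t)`. -/
theorem exists_addEquiv_of_variableChange {F : Type*} [Field F] [DecidableEq F]
    (W W' : WeierstrassCurve F) [W.IsElliptic] (C : VariableChange F) (hW : W' = C • W) :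
    ∃ φ : W'.toAffine.Point ≃+ W.toAffine.Point,
      ∀ (X Y : F) (h : W'.toAffine.Nonsingular X Y),
        ∃ h', φ (Affine.Point.some X Y h) =
          Affine.Point.some ((C.u : F) ^ 2 * X + C.r)
            ((C.u : F) ^ 3 * Y + (C.u : F) ^ 2 * C.s * X + C.t) h' := by
  subst hW
  exact ⟨vc_addEquiv W C, fun X Y h => ⟨(vc_nonsingular_iff W C X Y).mp h, rfl⟩⟩

end Fermat.Agent.S05
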