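import Fermat.Agent.S05.Defs
import Fermat.Agent.S05.NodeA

set_option autoImplicit false
set_option linter.unusedSectionVars false
set_option linter.unusedVariables false

namespace Fermat.Agent.S05

open WeierstrassCurve

variable {K : Type*} [Field K] [DecidableEq K] (A : ValuationSubring K) (a b : K)

/-- A point of `C_g` with `σ`-fixed `X`-coordinate is `σ`-fixed: `σ Y = ± Y`, and `Y / X ≡ r`
is a unit, as is `2`. -/
theorem h26_sigma_Y_of_inC (r : K) (hr : r ^ 2 = a) (ha : A.valuation a = 1)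
    (h2 : A.valuation (2 : K) = 1)
    (σ : K ≃+* K) (hσm : ∀ x, A.valuation x ≤ 1 → A.valuation (σ x - x) < 1)
    (hσa : σ a = a) (hσb : σ b = b) {x Y : K} (hσx : σ x = x)
    (hE : Y ^ 2 = x ^ 3 + a * x ^ 2 + b * x) (hx0 : x ≠ 0)
    (hs : A.valuation (Y - r * x) < A.valuation x) : σ Y = Y := by
  have hσE : (σ Y) ^ 2 = Y ^ 2 := by
    rw [← map_pow, hE]
    simp only [map_add, map_mul, map_pow, hσx, hσa, hσb]
  have hcases : σ Y = Y ∨ σ Y = -Y := by
    have h1 : (σ Y - Y) * (σ Y + Y) = 0 := by linear_combination hσE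
    rcases mul_eq_zero.mp h1 with h | h
    · exact Or.inl (sub_eq_zero.mp h)
    · exact Or.inr (eq_neg_of_add_eq_zero_left h)
  rcases hcases with h | h
  · exact h
  exfalso
  have hvr : A.valuation r = 1 := nodeA_val_r A a r hr ha
  have hvx : 0 < A.valuation x := (Valuation.pos_iff _).mpr hx0
  -- `u = Y / x` is a unit congruent to `r`
  have hu1 : A.valuation (Y / x - r) < 1 := by
    have h3 : Y / x - r = (Y - r * x) / x := by field_simp
    rw [h3, map_div₀]
    exact (div_lt_one₀ hvx).mpr hs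
  have hu : A.valuation (Y / x) = 1 := by
    have h3 : Y / x = (Y / x - r) + r := by ring
    rw [h3, Valuation.map_add_eq_of_lt_right]
    · exact hvr
    · rw [hvr]; exact hu1
  have h4 : σ (Y / x) - Y / x = -(2 * (Y / x)) := by
    rw [map_div₀, hσx, h]
    ring
  have h5 := hσm (Y / x) hu.le
  rw [h4, Valuation.map_neg, map_mul, h2, hu, one_mul] at h5
  exact lt_irrefl _ h5

/-- Existence of a `σ`-fixed point on the component `C_g` when `g = v x` with `σ x = x`. -/
theorem h26_exists_fixed_inC (r : K) (hr : r ^ 2 = a) (ha : A.valuation a = 1)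
    (hb : A.valuation b < 1) (hb0 : b ≠ 0) (h2 : A.valuation (2 : K) = 1)
    (hsq : ∀ x : K, ∃ y, y ^ 2 = x)
    (σ : K ≃+* K) (hσm : ∀ x, A.valuation x ≤ 1 → A.valuation (σ x - x) < 1)
    (hσa : σ a = a) (hσb : σ b = b) (x : K) (hσx : σ x = x)
    (hx1 : A.valuation x < 1) (hxb : A.valuation b < A.valuation x) :
    ∃ (Y : K) (h : (shortW a b).toAffine.Nonsingular x Y),
      InC a b A r (A.valuation x) (Affine.Point.some x Y h) ∧ σ Y = Y := by
  obtain ⟨Y, h, hC⟩ := exists_inC A a b r hr ha hb hb0 h2 hsq x hx1 hxb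
  refine ⟨Y, h, hC, ?_⟩
  obtain ⟨X', Y', h', heq, hv, -, -, hs⟩ := hC
  have hinj := Affine.Point.some.inj heq
  obtain ⟨hx', hy'⟩ := hinj
  subst hx'
  subst hy'
  have hx0 : x ≠ 0 := by
    intro h0
    rw [h0, map_zero] at hxb
    exact not_lt_zero hxb
  have hE : Y ^ 2 = x ^ 3 + a * x ^ 2 + b * x := (shortW_equation_iff a b x Y).mp h.1
  rw [hv] at hs
  exact h26_sigma_Y_of_inC A a b r hr ha h2 σ hσm hσa hσb hσx hE hx0 hs

/-- Torsion-freeness of the value group: if `g ^ p = v(b) ^ (2 k)` and `v b = v g₀ ^ p` then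
`g = v (g₀ ^ (2 k))`. -/
theorem h26_level_of_pow (g₀ : K) (p : ℕ) (hp : p ≠ 0)
    (hb : A.valuation b = A.valuation g₀ ^ p) (g : A.ValueGroup) (k : ℕ)
    (hg : g ^ p = A.valuation b ^ (2 * k)) : g = A.valuation (g₀ ^ (2 * k)) := by
  have h1 : g ^ p = (A.valuation (g₀ ^ (2 * k))) ^ p := by
    rw [hg, hb, map_pow, ← pow_mul, ← pow_mul, mul_comm]
  exact (pow_left_inj₀ zero_le zero_le hp).mp h1

end Fermat.Agent.S05
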