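import Fermat.Agent.S05.Defs
set_option autoImplicit false
namespace Fermat.Agent.S05
open WeierstrassCurve
variable {K : Type*} [Field K] [DecidableEq K] (A : ValuationSubring K) (a b : K)

/-- chord: explicit formula for the sum of two affine points with distinct X on shortW. -/
lemma h32_chord {X1 Y1 X2 Y2 : K} (h1 : (shortW a b).toAffine.Nonsingular X1 Y1)
    (h2 : (shortW a b).toAffine.Nonsingular X2 Y2) (hne : X1 ≠ X2) :
    ∃ (X3 Y3 : K) (h3 : (shortW a b).toAffine.Nonsingular X3 Y3),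
      Affine.Point.some X1 Y1 h1 + Affine.Point.some X2 Y2 h2 = Affine.Point.some X3 Y3 h3 ∧
      X3 = ((Y1 - Y2) / (X1 - X2)) ^ 2 - a - X1 - X2 ∧
      Y3 = -(((Y1 - Y2) / (X1 - X2)) * (X3 - X1) + Y1) := by
  refine ⟨_, _, _, Affine.Point.add_of_X_ne hne, ?_, ?_⟩
  · rw [Affine.slope_of_X_ne hne]
    simp [Affine.addX]
  · rw [Affine.slope_of_X_ne hne]
    simp [Affine.addY, Affine.negAddY, Affine.negY, Affine.addX]

/-- chord, with the identities used for the valuation computations (`r` is arbitrary). -/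
lemma h32_chord_id (r : K) {X1 Y1 X2 Y2 : K}
    (h1 : (shortW a b).toAffine.Nonsingular X1 Y1)
    (h2 : (shortW a b).toAffine.Nonsingular X2 Y2) (hne : X1 ≠ X2) :
    ∃ (X3 Y3 : K) (h3 : (shortW a b).toAffine.Nonsingular X3 Y3),
      Affine.Point.some X1 Y1 h1 + Affine.Point.some X2 Y2 h2 = Affine.Point.some X3 Y3 h3 ∧
      (X1 - X2) ^ 2 * (X1 + X2 + X3 + a) = (Y1 - Y2) ^ 2 ∧
      (X1 - X2) ^ 2 * (X1 * X2 * X3) = (Y2 * X1 - Y1 * X2) ^ 2 ∧
      (X1 - X2) * (Y3 + r * X3) =
        -(((Y1 - r * X1) - (Y2 - r * X2)) * X3 + (Y2 * X1 - Y1 * X2)) ∧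
      (X1 - X2) * (Y3 - r * X3) =
        -(((Y1 + r * X1) - (Y2 + r * X2)) * X3 + (Y2 * X1 - Y1 * X2)) := by
  obtain ⟨X3, Y3, h3, hadd, hX3, hY3⟩ := h32_chord a b h1 h2 hne
  have hd : X1 - X2 ≠ 0 := sub_ne_zero.mpr hne
  refine ⟨X3, Y3, h3, hadd, ?_, ?_, ?_, ?_⟩
  · rw [hX3]
    field_simp
    ring
  · have e1 := (shortW_equation_iff a b X1 Y1).mp h1.1
    have e2 := (shortW_equation_iff a b X2 Y2).mp h2.1
    rw [hX3]
    field_simp
    linear_combination (X1 - X2) * X2 * e1 - (X1 - X2) * X1 * e2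
  · rw [hY3]
    field_simp
    ring
  · rw [hY3]
    field_simp
    ring

section vg
variable {Γ : Type*} [LinearOrderedCommGroupWithZero Γ]

lemma h32_sq_lt_self {x : Γ} (h0 : x ≠ 0) (h1 : x < 1) : x ^ 2 < x := by
  have := mul_lt_mul_of_pos_left h1 (zero_lt_iff.mpr h0)
  simpa [sq] using this

lemma h32_lt_of_sq_lt_sq {x y : Γ} (h : x ^ 2 < y ^ 2) : x < y :=
  lt_of_pow_lt_pow_left₀ 2 zero_le h

lemma h32_sq_lt_sq {x y : Γ} (h : x < y) : x ^ 2 < y ^ 2 :=
  pow_lt_pow_left₀ h zero_le two_ne_zero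

lemma h32_le_of_sq_le_sq {x y : Γ} (h : x ^ 2 ≤ y ^ 2) : x ≤ y := by
  by_contra hc
  exact absurd h (not_le.mpr (h32_sq_lt_sq (not_le.mp hc)))

lemma h32_eq_one_of_sq_eq_one {x : Γ} (h : x ^ 2 = 1) : x = 1 := by
  rcases lt_trichotomy x 1 with h1 | h1 | h1
  · exfalso
    have := h32_sq_lt_sq h1
    simp [h] at this
  · exact h1
  · exfalso
    have := h32_sq_lt_sq h1
    simp [h] at this

end vg

section addgrp
variable {G : Type*} [AddCommGroup G] [LinearOrder G] [IsOrderedAddMonoid G]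

lemma h32_add_R3 {x0 h g w : G} (h1 : x0 ≤ h) (h2 : h < 2 • g) (h3 : g < 0)
    (h4 : 2 • w = x0 + h) :
    2 • g + x0 < w + g ∧ w < g ∧ w + g < h ∧ 2 • g < g := by
  grind

end addgrp

section vg2
variable {Γ : Type*} [LinearOrderedCommGroupWithZero Γ]

lemma h32_grp_R3 {x0 h g w : Γ} (hx0 : x0 ≠ 0) (hh : h ≠ 0) (hg : g ≠ 0) (hw : w ≠ 0)
    (h1 : x0 ≤ h) (h2 : h < g ^ 2) (h3 : g < 1) (h4 : w ^ 2 = x0 * h) :
    g ^ 2 * x0 < w * g ∧ w < g ∧ w * g < h ∧ g ^ 2 < g := by
  lift x0 to Γˣ using IsUnit.mk0 _ hx0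
  lift h to Γˣ using IsUnit.mk0 _ hh
  lift g to Γˣ using IsUnit.mk0 _ hg
  lift w to Γˣ using IsUnit.mk0 _ hw
  norm_cast at h1 h2 h3 h4 ⊢
  exact h32_add_R3 (G := Additive Γˣ) h1 h2 h3 h4

end vg2


omit [DecidableEq K] in
/-- `v r = 1` for a square root `r` of a unit `a`. -/
lemma h32_val_r (r : K) (hr : r ^ 2 = a) (ha : A.valuation a = 1) : A.valuation r = 1 := by
  apply h32_eq_one_of_sq_eq_one
  rw [← map_pow, hr, ha]

omit [DecidableEq K] in
/-- `s t = X (X² + b)` on the curve, `s = Y - r X`, `t = Y + r X`. -/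
lemma h32_st (r : K) (hr : r ^ 2 = a) {X Y : K} (h : (shortW a b).toAffine.Equation X Y) :
    (Y - r * X) * (Y + r * X) = X * (X ^ 2 + b) := by
  have e := (shortW_equation_iff a b X Y).mp h
  linear_combination e - X ^ 2 * hr

omit [DecidableEq K] in
/-- Points of `C_g`: `v t = g` and `v s = v (X² + b)`. -/
lemma h32_inC_vals (r : K) (hr : r ^ 2 = a) (ha : A.valuation a = 1)
    (h2 : A.valuation (2 : K) = 1) {X Y : K} (h : (shortW a b).toAffine.Equation X Y)
    (hX0 : X ≠ 0) (hs : A.valuation (Y - r * X) < A.valuation X) :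
    A.valuation (Y + r * X) = A.valuation X ∧
      A.valuation (Y - r * X) = A.valuation (X ^ 2 + b) := by
  have hvr := h32_val_r A a r hr ha
  have ht : A.valuation (Y + r * X) = A.valuation X := by
    have e : Y + r * X = (Y - r * X) + 2 * r * X := by ring
    have e2 : A.valuation (2 * r * X) = A.valuation X := by
      rw [map_mul, map_mul, h2, hvr, one_mul, one_mul]
    rw [e, Valuation.map_add_eq_of_lt_right _ (by rw [e2]; exact hs), e2]
  refine ⟨ht, ?_⟩
  have hst := congrArg A.valuation (h32_st a b r hr h)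
  rw [map_mul, map_mul, ht] at hst
  have hX : A.valuation X ≠ 0 := (Valuation.ne_zero_iff _).mpr hX0
  rw [mul_comm] at hst
  exact mul_left_cancel₀ hX hst

theorem h32_inC_neg_add_of_inM (r : K) (hr : r ^ 2 = a) (ha : A.valuation a = 1)
    (hb : A.valuation b < 1) (hb0 : b ≠ 0) (h2 : A.valuation (2 : K) = 1) {g : A.ValueGroup}
    {T Q : (shortW a b).toAffine.Point}
    (hT : InM a b A T) (hQ : InC a b A r g Q) (hg : A.valuation b < g ^ 2) :
    InC a b A r (A.valuation b / g) (-(T + Q)) := by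
  obtain ⟨X0, Y0, h0, rfl, hX0⟩ := hT
  obtain ⟨X1, Y1, h1, rfl, hX1, hbg, hg1, hs1⟩ := hQ
  have hvr := h32_val_r A a r hr ha
  have hh0 : A.valuation b ≠ 0 := (Valuation.ne_zero_iff _).mpr hb0
  have hg0 : g ≠ 0 := (lt_of_le_of_lt zero_le hbg).ne'
  have hX1ne : X1 ≠ 0 := (Valuation.ne_zero_iff _).mp (by rw [hX1]; exact hg0)
  have hne : X0 ≠ X1 := by
    rintro rfl
    rw [hX1] at hX0
    exact absurd hbg (not_lt.mpr hX0)
  have hd : A.valuation (X0 - X1) = g := by
    rw [Valuation.map_sub_eq_of_lt_right _ (by rw [hX1]; exact lt_of_le_of_lt hX0 hbg), hX1]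
  obtain ⟨hvt1, hvs1⟩ := h32_inC_vals A a b r hr ha h2 h1.1 hX1ne (by rw [hX1]; exact hs1)
  obtain ⟨X3, Y3, h3, hadd, hC0, hC1, hC2, -⟩ := h32_chord_id a b r h0 h1 hne
  -- the two key facts
  have key : A.valuation X3 = A.valuation b / g ∧
      A.valuation (Y3 + r * X3) < A.valuation b / g := by
    by_cases hX00 : X0 = 0
    · subst hX00
      have e0 := (shortW_equation_iff a b 0 Y0).mp h0.1
      have hY0 : Y0 = 0 := by
        have : Y0 ^ 2 = 0 := by rw [e0]; ring
        exact pow_eq_zero_iff (two_ne_zero) |>.mp this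
      subst hY0
      have e1 := (shortW_equation_iff a b X1 Y1).mp h1.1
      have hX3 : X1 * X3 = b := by
        have : X1 ^ 2 * (X1 * X3 - b) = 0 := by linear_combination X1 * hC0 + X1 * e1
        have h' := (mul_eq_zero.mp this).resolve_left (pow_ne_zero 2 hX1ne)
        exact sub_eq_zero.mp h'
      have hvX3 : A.valuation X3 = A.valuation b / g := by
        rw [← hX3, map_mul, hX1, mul_div_cancel_left₀ _ hg0]
      refine ⟨hvX3, ?_⟩
      have hC2' : X1 * (Y3 + r * X3) = -((Y1 - r * X1) * X3) := by linear_combination -hC2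
      have hv := congrArg A.valuation hC2'
      rw [map_mul, Valuation.map_neg, map_mul, hX1, hvX3] at hv
      have : g * A.valuation (Y3 + r * X3) < g * (A.valuation b / g) := by
        rw [hv]
        exact mul_lt_mul_of_pos_right hs1 (zero_lt_iff.mpr (div_ne_zero hh0 hg0))
      exact lt_of_mul_lt_mul_left this zero_le
    · have hx0 : A.valuation X0 ≠ 0 := (Valuation.ne_zero_iff _).mpr hX00
      have hx0lt : A.valuation X0 < 1 := lt_of_le_of_lt hX0 hb
      have hvq : A.valuation (X0 ^ 2 + b) = A.valuation b := by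
        apply Valuation.map_add_eq_of_lt_right
        rw [map_pow]
        exact lt_of_lt_of_le (h32_sq_lt_self hx0 hx0lt) hX0
      have hst0 := congrArg A.valuation (h32_st a b r hr h0.1)
      rw [map_mul, map_mul, hvq] at hst0
      have hdiff : A.valuation ((Y0 + r * X0) - (Y0 - r * X0)) = A.valuation X0 := by
        have : (Y0 + r * X0) - (Y0 - r * X0) = 2 * r * X0 := by ring
        rw [this, map_mul, map_mul, h2, hvr, one_mul, one_mul]
      have hsteq : A.valuation (Y0 - r * X0) = A.valuation (Y0 + r * X0) := by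
        rcases lt_trichotomy (A.valuation (Y0 - r * X0)) (A.valuation (Y0 + r * X0))
          with hlt | heq | hlt
        · exfalso
          rw [Valuation.map_sub_eq_of_lt_left _ hlt] at hdiff
          rw [hdiff] at hst0 hlt
          have : A.valuation (Y0 - r * X0) = A.valuation b := by
            rw [mul_comm] at hst0; exact mul_left_cancel₀ hx0 hst0
          rw [this] at hlt
          exact absurd hX0 (not_le.mpr hlt)
        · exact heq
        · exfalso
          rw [Valuation.map_sub_eq_of_lt_right _ hlt] at hdiff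
          rw [hdiff] at hst0 hlt
          have : A.valuation (Y0 + r * X0) = A.valuation b := mul_left_cancel₀ hx0 hst0
          rw [this] at hlt
          exact absurd hX0 (not_le.mpr hlt)
      rw [← hsteq] at hst0
      have hw2 : A.valuation (Y0 - r * X0) ^ 2 = A.valuation X0 * A.valuation b := by
        rw [sq]; exact hst0
      have hw0 : A.valuation (Y0 - r * X0) ≠ 0 := by
        intro h
        rw [h] at hw2
        exact mul_ne_zero hx0 hh0 (by rw [← hw2]; simp)
      obtain ⟨ga, gb, gc, gd⟩ := h32_grp_R3 hx0 hh0 hg0 hw0 hX0 hg hg1 hw2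
      have hvs1' : A.valuation (Y1 - r * X1) = g ^ 2 := by
        rw [hvs1, Valuation.map_add_eq_of_lt_left _ (by rw [map_pow, hX1]; exact hg), map_pow, hX1]
      have hN : Y1 * X0 - Y0 * X1 = (Y1 - r * X1) * X0 - (Y0 - r * X0) * X1 := by ring
      have hvN : A.valuation (Y1 * X0 - Y0 * X1) = A.valuation (Y0 - r * X0) * g := by
        rw [hN, Valuation.map_sub_eq_of_lt_right, map_mul, hX1]
        rw [map_mul, map_mul, hX1, hvs1']
        exact ga
      have hvX3 : A.valuation X3 = A.valuation b / g := by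
        have hv := congrArg A.valuation hC1
        rw [map_mul, map_pow, hd, map_mul, map_mul, hX1, map_pow, hvN, mul_pow, hw2] at hv
        rw [eq_div_iff hg0]
        apply mul_left_cancel₀ (mul_ne_zero (pow_ne_zero 2 hg0) hx0)
        calc g ^ 2 * A.valuation X0 * (A.valuation X3 * g)
            = g ^ 2 * (A.valuation X0 * g * A.valuation X3) := by ac_rfl
          _ = A.valuation X0 * A.valuation b * g ^ 2 := hv
          _ = g ^ 2 * A.valuation X0 * A.valuation b := by ac_rfl
      refine ⟨hvX3, ?_⟩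
      have hv := congrArg A.valuation hC2
      rw [map_mul, hd, Valuation.map_neg] at hv
      have hlt : g * A.valuation (Y3 + r * X3) < A.valuation b := by
        rw [hv]
        apply Valuation.map_add_lt
        · rw [map_mul, hvX3]
          have h1' : A.valuation (Y0 - r * X0 - (Y1 - r * X1)) < g :=
            Valuation.map_sub_lt _ gb (by rw [hvs1']; exact gd)
          calc A.valuation (Y0 - r * X0 - (Y1 - r * X1)) * (A.valuation b / g)
              < g * (A.valuation b / g) :=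
                mul_lt_mul_of_pos_right h1' (zero_lt_iff.mpr (div_ne_zero hh0 hg0))
            _ = A.valuation b := mul_div_cancel₀ _ hg0
        · rw [hvN]; exact gc
      rw [lt_div_iff₀ (zero_lt_iff.mpr hg0), mul_comm]
      exact hlt
  obtain ⟨hvX3, hvt3⟩ := key
  refine ⟨X3, (shortW a b).toAffine.negY X3 Y3, (Affine.nonsingular_neg ..).mpr h3, ?_,
    hvX3, ?_, ?_, ?_⟩
  · rw [hadd, Affine.Point.neg_some]
  · rw [lt_div_iff₀ (zero_lt_iff.mpr hg0)]
    calc A.valuation b * g < A.valuation b * 1 :=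
          mul_lt_mul_of_pos_left hg1 (zero_lt_iff.mpr hh0)
      _ = A.valuation b := mul_one _
  · rw [div_lt_iff₀ (zero_lt_iff.mpr hg0), one_mul]
    exact hbg
  · rw [shortW_negY]
    have : -Y3 - r * X3 = -(Y3 + r * X3) := by ring
    rw [this, Valuation.map_neg]
    exact hvt3

end Fermat.Agent.S05
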