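import Fermat.Agent.S05.h32_NodeB3
set_option autoImplicit false
namespace Fermat.Agent.S05
open WeierstrassCurve
variable {K : Type*} [Field K] [DecidableEq K] (A : ValuationSubring K) (a b : K)

/-- R2: the sum of a point of `C_{g₁}` and a point of `C_{g₂}` with `g₂ < g₁`,
`g₁ g₂ = v b`, lies in the middle component. -/
theorem h67_inM_add (r : K) (hr : r ^ 2 = a) (ha : A.valuation a = 1) (hb : A.valuation b < 1)
    (h2 : A.valuation (2 : K) = 1) {g₁ g₂ : A.ValueGroup} {P₁ P₂ : (shortW a b).toAffine.Point}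
    (h₁ : InC a b A r g₁ P₁) (h₂ : InC a b A r g₂ P₂) (hlt : g₂ < g₁)
    (hh : g₁ * g₂ = A.valuation b) : InM a b A (P₁ + P₂) := by
  obtain ⟨X1, Y1, n1, rfl, hX1, hbg1, hg11, hs1⟩ := h₁
  obtain ⟨X2, Y2, n2, rfl, hX2, hbg2, hg21, hs2⟩ := h₂
  have hg10 : g₁ ≠ 0 := (lt_of_le_of_lt zero_le hbg1).ne'
  have hg20 : g₂ ≠ 0 := (lt_of_le_of_lt zero_le hbg2).ne'
  have hh0 : A.valuation b ≠ 0 := by rw [← hh]; exact mul_ne_zero hg10 hg20
  have hX1ne : X1 ≠ 0 := (Valuation.ne_zero_iff _).mp (by rw [hX1]; exact hg10)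
  have hX2ne : X2 ≠ 0 := (Valuation.ne_zero_iff _).mp (by rw [hX2]; exact hg20)
  have hne : X1 ≠ X2 := by
    rintro rfl
    rw [hX1] at hX2
    exact absurd hX2 hlt.ne'
  have hd : A.valuation (X1 - X2) = g₁ := by
    rw [Valuation.map_sub_eq_of_lt_left _ (by rw [hX1, hX2]; exact hlt), hX1]
  obtain ⟨-, hvs1⟩ := h32_inC_vals A a b r hr ha h2 n1.1 hX1ne (by rw [hX1]; exact hs1)
  obtain ⟨-, hvs2⟩ := h32_inC_vals A a b r hr ha h2 n2.1 hX2ne (by rw [hX2]; exact hs2)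
  -- v s1 = g1^2
  have hb_lt_g1sq : A.valuation b < g₁ ^ 2 := by
    rw [← hh, sq]
    exact mul_lt_mul_of_pos_left hlt (zero_lt_iff.mpr hg10)
  have hg2sq_lt_b : g₂ ^ 2 < A.valuation b := by
    rw [← hh, sq]
    exact mul_lt_mul_of_pos_right hlt (zero_lt_iff.mpr hg20)
  have hvs1' : A.valuation (Y1 - r * X1) = g₁ ^ 2 := by
    rw [hvs1, Valuation.map_add_eq_of_lt_left _ (by rw [map_pow, hX1]; exact hb_lt_g1sq),
      map_pow, hX1]
  have hvs2' : A.valuation (Y2 - r * X2) = A.valuation b := by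
    rw [hvs2, Valuation.map_add_eq_of_lt_right _ (by rw [map_pow, hX2]; exact hg2sq_lt_b)]
  obtain ⟨X3, Y3, n3, hadd, -, hC1, -, -⟩ := h32_chord_id a b r n1 n2 hne
  refine ⟨X3, Y3, n3, hadd, ?_⟩
  have hN : Y2 * X1 - Y1 * X2 = (Y2 - r * X2) * X1 - (Y1 - r * X1) * X2 := by ring
  have hvN : A.valuation (Y2 * X1 - Y1 * X2) ≤ g₁ * A.valuation b := by
    rw [hN]
    apply Valuation.map_sub_le
    · rw [map_mul, hvs2', hX1, mul_comm]
    · rw [map_mul, hvs1', hX2, ← hh, sq, mul_assoc]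
  have hv := congrArg A.valuation hC1
  rw [map_mul, map_pow, hd, map_mul, map_mul, hX1, hX2, map_pow, hh] at hv
  -- hv : g₁ ^ 2 * (v b * v X3) = v (Y2 * X1 - Y1 * X2) ^ 2
  have hle : g₁ ^ 2 * (A.valuation b * A.valuation X3) ≤ (g₁ * A.valuation b) ^ 2 := by
    rw [hv]
    exact pow_le_pow_left₀ zero_le hvN 2
  have hle' : (g₁ ^ 2 * A.valuation b) * A.valuation X3 ≤
      (g₁ ^ 2 * A.valuation b) * A.valuation b := by
    calc (g₁ ^ 2 * A.valuation b) * A.valuation X3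
        = g₁ ^ 2 * (A.valuation b * A.valuation X3) := by rw [mul_assoc]
      _ ≤ (g₁ * A.valuation b) ^ 2 := hle
      _ = (g₁ ^ 2 * A.valuation b) * A.valuation b := by rw [mul_pow, sq (A.valuation b), mul_assoc]
  exact le_of_mul_le_mul_left hle' (zero_lt_iff.mpr (mul_ne_zero (pow_ne_zero 2 hg10) hh0))

end Fermat.Agent.S05
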