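import Mathlib
import Fermat.Agent.S05.Defs

set_option autoImplicit false

namespace Fermat.Agent.S05

open WeierstrassCurve

section

variable {K : Type*} [Field K] [DecidableEq K] (a b : K)

omit [DecidableEq K] in
lemma h80_nonsingular_T0 (hb : b ≠ 0) : (shortW a b).toAffine.Nonsingular 0 0 := by
  rw [Affine.nonsingular_iff']
  refine ⟨?_, ?_⟩
  · rw [shortW_equation_iff]; ring
  · left
    simp [hb]

/-- The two-torsion point `(0, 0)` of `Y² = X³ + a X² + b X` (`b ≠ 0`). -/
noncomputable def h80_T0 (hb : b ≠ 0) : (shortW a b).toAffine.Point :=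
  Affine.Point.some 0 0 (h80_nonsingular_T0 a b hb)

lemma h80_T0_add_T0 (hb : b ≠ 0) : h80_T0 a b hb + h80_T0 a b hb = 0 := by
  unfold h80_T0
  apply Affine.Point.add_of_Y_eq rfl
  simp [Affine.negY]

omit [DecidableEq K] in
/-- Transport of an affine point along equalities of coordinates. -/
lemma h80_some_congr {W : WeierstrassCurve K} {x y x' y' : K}
    (h : W.toAffine.Nonsingular x y) (hx : x = x') (hy : y = y') :
    ∃ h' : W.toAffine.Nonsingular x' y',
      Affine.Point.some x y h = Affine.Point.some x' y' h' := by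
  subst hx hy
  exact ⟨h, rfl⟩

/-- A general coordinate-level description of a sum of two affine points. -/
lemma h80_some_add_some {W : WeierstrassCurve K} {x₁ y₁ x₂ y₂ x₃ y₃ : K}
    (h₁ : W.toAffine.Nonsingular x₁ y₁) (h₂ : W.toAffine.Nonsingular x₂ y₂)
    (hxy : ¬(x₁ = x₂ ∧ y₁ = W.toAffine.negY x₂ y₂))
    (hx : x₃ = W.toAffine.addX x₁ x₂ (W.toAffine.slope x₁ x₂ y₁ y₂))
    (hy : y₃ = W.toAffine.addY x₁ x₂ y₁ (W.toAffine.slope x₁ x₂ y₁ y₂)) :
    ∃ h₃ : W.toAffine.Nonsingular x₃ y₃,
      Affine.Point.some x₁ y₁ h₁ + Affine.Point.some x₂ y₂ h₂ = Affine.Point.some x₃ y₃ h₃ := by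
  subst hx hy
  exact ⟨_, Affine.Point.add_some hxy⟩

omit [DecidableEq K] in
/-- Negation on `Y² = X³ + a X² + b X` is `(X, Y) ↦ (X, -Y)`. -/
lemma h80_neg_some {X Y : K} (h : (shortW a b).toAffine.Nonsingular X Y) :
    ∃ h' : (shortW a b).toAffine.Nonsingular X (-Y),
      -Affine.Point.some X Y h = Affine.Point.some X (-Y) h' := by
  rw [Affine.Point.neg_some]
  exact h80_some_congr _ rfl (shortW_negY a b X Y)

/-- Translation by the two-torsion point `(0,0)`: `(X, Y) ↦ (b / X, -b Y / X²)`. -/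
lemma h80_add_T0 (hb : b ≠ 0) {X Y : K} (h : (shortW a b).toAffine.Nonsingular X Y)
    (hX : X ≠ 0) :
    ∃ h' : (shortW a b).toAffine.Nonsingular (b / X) (-b * Y / X ^ 2),
      Affine.Point.some X Y h + h80_T0 a b hb = Affine.Point.some (b / X) (-b * Y / X ^ 2) h' := by
  unfold h80_T0
  have heq : Y ^ 2 = X ^ 3 + a * X ^ 2 + b * X := (shortW_equation_iff a b X Y).mp h.1
  apply h80_some_add_some
  · exact fun hh => hX hh.1
  · rw [Affine.slope_of_X_ne hX]
    simp only [Affine.addX, shortW_a₁, shortW_a₂, sub_zero, zero_mul, add_zero]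
    field_simp
    linear_combination (-1 : K) * heq
  · rw [Affine.slope_of_X_ne hX]
    simp only [Affine.addY, Affine.negY, Affine.negAddY, Affine.addX, shortW_a₁, shortW_a₂,
      shortW_a₃, sub_zero, zero_mul, add_zero]
    field_simp
    linear_combination (Y) * heq

variable (A : ValuationSubring K)

omit [DecidableEq K] in
lemma h80_isN_some {X Y : K} (h : (shortW a b).toAffine.Nonsingular X Y) :
    IsN a b A (Affine.Point.some X Y h) ↔ A.valuation X < 1 := by
  constructor
  · rintro ⟨X', Y', h', he, hv⟩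
    cases he
    exact hv
  · exact fun hv => ⟨X, Y, h, rfl, hv⟩

omit [DecidableEq K] in
lemma h80_not_isN_zero : ¬ IsN a b A 0 := by
  rintro ⟨X, Y, h, he, -⟩
  exact Affine.Point.some_ne_zero h he.symm

omit [DecidableEq K] in
lemma h80_inC_some (r : K) (g : A.ValueGroup) {X Y : K}
    (h : (shortW a b).toAffine.Nonsingular X Y) :
    InC a b A r g (Affine.Point.some X Y h) ↔
      A.valuation X = g ∧ A.valuation b < g ∧ g < 1 ∧ A.valuation (Y - r * X) < g := by
  constructor
  · rintro ⟨X', Y', h', he, hv⟩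
    cases he
    exact hv
  · exact fun hv => ⟨X, Y, h, rfl, hv⟩

omit [DecidableEq K] in
lemma h80_inM_some {X Y : K} (h : (shortW a b).toAffine.Nonsingular X Y) :
    InM a b A (Affine.Point.some X Y h) ↔ A.valuation X ≤ A.valuation b := by
  constructor
  · rintro ⟨X', Y', h', he, hv⟩
    cases he
    exact hv
  · exact fun hv => ⟨X, Y, h, rfl, hv⟩

omit [DecidableEq K] in
lemma h80_isN_T0 (hb : b ≠ 0) : IsN a b A (h80_T0 a b hb) := by
  unfold h80_T0
  rw [h80_isN_some]
  simp

omit [DecidableEq K] in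
lemma h80_inC_isN {r : K} {g : A.ValueGroup} {P : (shortW a b).toAffine.Point}
    (hP : InC a b A r g P) : IsN a b A P := by
  obtain ⟨X, Y, h, rfl, hX, -, hg1, -⟩ := hP
  rw [h80_isN_some, hX]
  exact hg1

/-- `hneg`: translation by `(0,0)` followed by negation maps level `g` to level `v(b)/g`
on the same branch. -/
lemma h80_inC_neg_add_T0 (hb : b ≠ 0) {r : K} {g : A.ValueGroup}
    {P : (shortW a b).toAffine.Point} (hP : InC a b A r g P) :
    InC a b A r (A.valuation b / g) (-P + h80_T0 a b hb) := by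
  obtain ⟨X, Y, h, rfl, hX, hbg, hg1, hs⟩ := hP
  have hg0 : 0 < g := lt_of_le_of_lt zero_le hbg
  have hX0 : X ≠ 0 := by
    rw [← A.valuation.ne_zero_iff, hX]; exact ne_of_gt hg0
  have hvb0 : 0 < A.valuation b := A.valuation.pos_iff.mpr hb
  obtain ⟨h1, e1⟩ := h80_neg_some a b h
  obtain ⟨h2, e2⟩ := h80_add_T0 a b hb h1 hX0
  rw [e1, e2, h80_inC_some]
  refine ⟨by rw [map_div₀, hX], ?_, ?_, ?_⟩
  · rw [lt_div_iff₀ hg0]
    calc A.valuation b * g < A.valuation b * 1 := mul_lt_mul_of_pos_left hg1 hvb0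
      _ = A.valuation b := mul_one _
  · exact (div_lt_one₀ hg0).mpr hbg
  · have he : -b * -Y / X ^ 2 - r * (b / X) = b * (Y - r * X) / X ^ 2 := by
      field_simp
    rw [he, map_div₀, map_mul, map_pow, hX, div_lt_div_iff₀ (pow_pos hg0 2) hg0]
    calc A.valuation b * A.valuation (Y - r * X) * g
        < A.valuation b * g * g :=
          mul_lt_mul_of_pos_right (mul_lt_mul_of_pos_left hs hvb0) hg0
      _ = A.valuation b * g ^ 2 := by rw [pow_two, mul_assoc]

/-- `hd2`: the translate by `(0,0)` of a level-`g` point still reduces to the node. -/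
lemma h80_inC_add_T0_isN (hb : b ≠ 0) {r : K} {g : A.ValueGroup}
    {P : (shortW a b).toAffine.Point} (hP : InC a b A r g P) :
    IsN a b A (P + h80_T0 a b hb) := by
  obtain ⟨X, Y, h, rfl, hX, hbg, hg1, hs⟩ := hP
  have hg0 : 0 < g := lt_of_le_of_lt zero_le hbg
  have hX0 : X ≠ 0 := by
    rw [← A.valuation.ne_zero_iff, hX]; exact ne_of_gt hg0
  obtain ⟨h2, e2⟩ := h80_add_T0 a b hb h hX0
  rw [e2, h80_isN_some, map_div₀, hX]
  exact (div_lt_one₀ hg0).mpr hbg

/-- The middle component is contained in `E₀ + (0,0)`. -/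
lemma h80_inM_add_T0 (hb : b ≠ 0) {P : (shortW a b).toAffine.Point} (hP : InM a b A P) :
    ¬ IsN a b A (P + h80_T0 a b hb) := by
  obtain ⟨X, Y, h, rfl, hX⟩ := hP
  by_cases hX0 : X = 0
  · subst hX0
    have heq : Y ^ 2 = (0 : K) ^ 3 + a * 0 ^ 2 + b * 0 := (shortW_equation_iff a b 0 Y).mp h.1
    have hY : Y = 0 := by
      have : Y ^ 2 = 0 := by rw [heq]; ring
      exact pow_eq_zero_iff (two_ne_zero) |>.mp this
    subst hY
    have : Affine.Point.some 0 0 h + h80_T0 a b hb = 0 := h80_T0_add_T0 a b hb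
    rw [this]
    exact h80_not_isN_zero a b A
  · obtain ⟨h2, e2⟩ := h80_add_T0 a b hb h hX0
    rw [e2, h80_isN_some, map_div₀, not_lt]
    have hv0 : 0 < A.valuation X := A.valuation.pos_iff.mpr hX0
    exact (one_le_div₀ hv0).mpr hX

omit [DecidableEq K] in
/-- Every point reducing to the node lies in the middle component or on one of the two
branches `Y ≈ ± r X`, `r² = a`. -/
lemma h80_cover {r : K} (hr : r ^ 2 = a) {P : (shortW a b).toAffine.Point}
    (hP : IsN a b A P) :
    InM a b A P ∨ ∃ g : A.ValueGroup, InC a b A r g P ∨ InC a b A r g (-P) := by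
  obtain ⟨X, Y, h, rfl, hX⟩ := hP
  by_cases hXb : A.valuation X ≤ A.valuation b
  · exact Or.inl ⟨X, Y, h, rfl, hXb⟩
  · right
    rw [not_le] at hXb
    refine ⟨A.valuation X, ?_⟩
    have hg0 : 0 < A.valuation X := lt_of_le_of_lt zero_le hXb
    have heq : Y ^ 2 = X ^ 3 + a * X ^ 2 + b * X := (shortW_equation_iff a b X Y).mp h.1
    have hprod : (Y - r * X) * (Y + r * X) = X * (X ^ 2 + b) := by
      rw [← hr] at heq
      linear_combination heq
    have hlt : A.valuation ((Y - r * X) * (Y + r * X)) < A.valuation X * A.valuation X := by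
      rw [hprod, map_mul]
      apply mul_lt_mul_of_pos_left _ hg0
      refine lt_of_le_of_lt (A.valuation.map_add _ _) (max_lt ?_ hXb)
      rw [map_pow, pow_two]
      calc A.valuation X * A.valuation X < A.valuation X * 1 := mul_lt_mul_of_pos_left hX hg0
        _ = A.valuation X := mul_one _
    rw [map_mul] at hlt
    by_cases h1 : A.valuation (Y - r * X) < A.valuation X
    · exact Or.inl ⟨X, Y, h, rfl, rfl, hXb, hX, h1⟩
    · right
      rw [not_lt] at h1
      have h2 : A.valuation (Y + r * X) < A.valuation X := by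
        by_contra h2
        rw [not_lt] at h2
        exact absurd hlt (not_lt.mpr (mul_le_mul' h1 h2))
      obtain ⟨h', e'⟩ := h80_neg_some a b h
      rw [e']
      refine ⟨X, -Y, h', rfl, rfl, hXb, hX, ?_⟩
      have : -Y - r * X = -(Y + r * X) := by ring
      rw [this, Valuation.map_neg]
      exact h2

end

end Fermat.Agent.S05
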